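import Fermat.Agent.CarM.Chart
import Fermat.Agent.CarE.BaseInst

/-!
# Lifting properties over the fixed field of inertia
-/

set_option autoImplicit false
set_option linter.style.haveILetI false
set_option linter.unusedSectionVars false

noncomputable section

namespace Fermat.Agent.CarM

open ModularCurve Polynomial IntermediateField Fermat.Agent.ModPoly Fermat.Agent.Red AlgebraicCurve
open Fermat.Agent.RR Fermat.Agent.Cusp Fermat.Agent.RedMod Fermat.Agent.Spec Fermat.Agent.Curve
open Fermat.Agent.Flat Fermat.Agent.PRem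

attribute [local instance] ThmC.algRK

local notation "Qb" => AlgebraicClosure ℚ

variable {A : ValuationSubring (AlgebraicClosure ℚ)} {q M : ℕ} [hq : Fact q.Prime] [NeZero M]

theorem lifts_inst (hA : A.LiesOverPrime q) (hM : ¬ q ∣ M) {r : ℕ} (hr : r.Prime)
    (hr12 : r % 12 = 11) (hrM : r ∣ M) : Lifts M (K0 A) A Qb (kk A) := by
  haveI := ThmC.isFractionRing_RK (A := A)
  haveI : IsDiscreteValuationRing (R0 A) := isDVR hA
  have hj1 : ∀ a : R0 A, algebraMap (K0 A) Qb (algebraMap (R0 A) (K0 A) a) =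
      algebraMap A Qb (inclR0 A a) := fun a => rfl
  have hj2 : ∀ a : R0 A, algebraMap (R0 A) (IsLocalRing.ResidueField A) a =
      algebraMap A (IsLocalRing.ResidueField A) (inclR0 A a) := fun a => rfl
  refine ⟨?_, ?_⟩
  · intro z hz
    obtain ⟨y, -, -, h2, h3⟩ := ThmC.exists_lift_K0 hA hM z hz
    exact ⟨y, h2, h3⟩
  · intro Q hQ
    obtain ⟨y, hy, z, h1, h2, h3, h4⟩ := ThmC.exists_unif_K0 hA hM hr hr12 hrM Q hQ
    obtain ⟨h5, h6⟩ := ThmC.emb_mem_WL (A₀ := R0 A) (K₀ := K0 A) (A := A) (K := Qb)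
      (k := IsLocalRing.ResidueField A) (inclR0 A) hj1 hj2 hy
    exact ⟨y, z, ⟨h5, h6.trans h1⟩, h2, h3, h4⟩

end Fermat.Agent.CarM
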