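import Fermat.Agent.CarM.DescP
import Fermat.Agent.CarM.LiftsInst
import Fermat.Agent.CarK.Main

/-!
# The geometric theorem over the fixed field of inertia
-/

set_option autoImplicit false
set_option linter.style.haveILetI false
set_option linter.unusedSectionVars false

noncomputable section

namespace Fermat.Agent.CarM

open ModularCurve Polynomial IntermediateField Fermat.Agent.ModPoly Fermat.Agent.Red AlgebraicCurve
open Fermat.Agent.RR Fermat.Agent.Cusp Fermat.Agent.RedMod Fermat.Agent.Spec Fermat.Agent.Curve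
open Fermat.Agent.Flat Fermat.Agent.PRem Fermat.Agent.CarE

attribute [local instance] ThmC.algRK

local notation "Qb" => AlgebraicClosure ℚ

set_option synthInstance.maxHeartbeats 400000

theorem car_F0 (q M r : ℕ) [Fact q.Prime] [NeZero M] (hco : q.Coprime M) (hr : r.Prime)
    (hr12 : r % 12 = 11) (hrM : r ∣ M) (A : ValuationSubring Qb) (hA : A.LiesOverPrime q)
    (ζ : Qbˣ) (hζ : IsPrimitiveRoot ζ q) : ∃ c : ℕ, 0 < c ∧ CarK.CarF0 A hco ζ c := by
  have hq : q.Prime := Fact.out
  have hqM : ¬ q ∣ M := (Nat.Prime.coprime_iff_not_dvd hq).1 hco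
  haveI := ThmC.isFractionRing_RK (A := A)
  haveI := charP_residue hA
  haveI : IsAlgClosed (IsLocalRing.ResidueField A) := isAlgClosed_residueField A
  haveI : IsDiscreteValuationRing (R0 A) := isDVR hA
  have ι : Qb →+* ℂ := (IsAlgClosed.lift (R := ℚ) (M := ℂ) (S := Qb)).toRingHom
  obtain ⟨z, hz⟩ := exists_root_of_unity (q := q) A
  have hB := base_inst hA
  have HL : Lifts M (K0 A) A Qb (kk A) := lifts_inst hA hqM hr hr12 hrM
  have hM : (M : kk A) ≠ 0 := natCast_residue_ne_zero hA hqM
  refine ⟨(q + 1) * ((q - 1) * (q + 1)), ?_, ?_⟩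
  · have := hq.two_le
    have h1 : 0 < q - 1 := by omega
    positivity
  · intro m hqm hm0 f hf hdvd h1 h2
    exact geo hB hco hz hM HL ι hζ (natCast_residue_ne_zero hA hqm) hf hdvd h1 h2

end Fermat.Agent.CarM
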