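import Fermat.Agent.CarE.Phi
import Fermat.Agent.Nod.CuspOrd

/-!
# The three types of cusps of level `q ^ 2 M`
-/

set_option autoImplicit false
set_option linter.style.haveILetI false
set_option linter.unusedSectionVars false

noncomputable section

namespace Fermat.Agent.CarM

open ModularCurve Polynomial IntermediateField Fermat.Agent.ModPoly Fermat.Agent.Cusp AlgebraicCurve
open Fermat.Agent.SemiSt Fermat.Agent.CarE Fermat.Agent.Curve Fermat.Agent.RR

section Step

variable {K : Type*} [Field K] [IsAlgClosed K] {N q : ℕ} [hq : Fact q.Prime] [NeZero N]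

/-- one step at a place, upwards -/
def Up (v : Place K (FF K N)) (x y : FF K N) (q : ℕ) : Prop :=
  v.ord y = q * v.ord x ∧ Ge v (((q : ℤ) - 1) * v.ord x) (x ^ q - y)

theorem up_aux {τ : Emb K N} {v : Place K (FF K N)} {g : ℤ} (hg : 0 < g)
    (hv : ∀ f : FF K N, f ≠ 0 → (τ.1 f).order = g * v.ord f) {x y : FF K N} {c : Kˣ} {e : ℕ+}
    (hx : τ.1 x = Jc c e) (hy : τ.1 y = Jc (c ^ q) (pp q * e)) : Up v x y q := by
  have hx0 : x ≠ 0 := by
    rintro rfl
    rw [map_zero] at hx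
    have h2 := order_Jc (k := K) c e
    rw [← hx, HahnSeries.order_zero] at h2
    have := e.pos
    omega
  have hy0 : y ≠ 0 := by
    rintro rfl
    rw [map_zero] at hy
    have h2 := order_Jc (k := K) (c ^ q) (pp q * e)
    rw [← hy, HahnSeries.order_zero] at h2
    have := (pp q * e).pos
    omega
  have ox := hv x hx0
  have oy := hv y hy0
  rw [hx, order_Jc] at ox
  rw [hy, order_Jc, PNat.mul_coe, coe_pp] at oy
  have e1 : v.ord y = q * v.ord x := by
    apply mul_left_cancel₀ hg.ne'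
    rw [← oy]
    push_cast
    rw [show g * ((q : ℤ) * v.ord x) = q * (g * v.ord x) by ring, ← ox]
    ring
  refine ⟨e1, ?_⟩
  rcases eq_or_ne (x ^ q - y) 0 with h0 | h0
  · rw [h0]; exact Ge.zero _ _
  right
  have o3 := hv _ h0
  have hτd : τ.1 (x ^ q - y) = Sb c e (jqModC K ^ q - qExpand K q (jqModC K)) := by
    rw [map_sub, map_pow, hx, hy, map_sub, map_pow, ← Sb_one_eq q (pp q) (coe_pp q),
      ← Jc_one_one, Sb_Jc, Sb_Jc, Sb_Jc]
    simp only [one_pow, mul_one, one_mul, coe_pp, PNat.one_coe, pow_one]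
    rw [mul_comm (pp q)]
  have hd0 : jqModC K ^ q - qExpand K q (jqModC K) ≠ 0 := by
    intro h00
    rw [h00, map_zero] at hτd
    exact h0 ((map_eq_zero _).1 hτd)
  rw [hτd, order_Sb] at o3
  have h5 := Nod.order_diff K q hd0
  have he : (0 : ℤ) < (e : ℕ) := by exact_mod_cast e.pos
  apply le_of_mul_le_mul_left _ hg
  rw [← o3]
  have h6 : g * (((q : ℤ) - 1) * v.ord x) = ((q : ℤ) - 1) * (g * v.ord x) := by ring
  rw [h6, ← ox]
  nlinarith

end Step

section Main

variable {K : Type*} [Field K] [IsAlgClosed K] [CharZero K] {q M : ℕ} [hq : Fact q.Prime]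
  [NeZero M] (hco : q.Coprime M)

variable (K q M) in
/-- the `j`-function -/
def j0 : FF K (q ^ 2 * M) := jm K 1 (one_dvd _)

theorem one_dvd' : ((1 : ℕ+) : ℕ) ∣ M := by rw [PNat.one_coe]; exact one_dvd M

variable (K q M) in
/-- the function `j(q τ)` -/
def t0 : FF K (q ^ 2 * M) := jm K (pp q * 1) (dvd_b (M := M) (q := q) one_dvd')

variable (K q M) in
/-- the function `j(q² τ)` -/
def j2 : FF K (q ^ 2 * M) := jm K (pp q * pp q * 1) (dvd_c (M := M) (q := q) one_dvd')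

theorem j0_eq : j0 K q M = jF' K (q ^ 2 * M) := rfl

/-- **The three types of cusps.** -/
theorem types (v : Place K (FF K (q ^ 2 * M))) (hv : v.ord (j0 K q M) < 0) :
    (Up v (j0 K q M) (t0 K q M) q ∧ Up v (t0 K q M) (j2 K q M) q) ∨
    (Up v (j0 K q M) (t0 K q M) q ∧ Up v (j2 K q M) (t0 K q M) q) ∨
    (Up v (j2 K q M) (t0 K q M) q ∧ Up v (t0 K q M) (j0 K q M) q) := by
  have hN : ((q ^ 2 * M : ℕ) : K) ≠ 0 := cast_ne K _
  haveI := finite_Emb (k := K) (N := q ^ 2 * M) hN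
  letI := Fintype.ofFinite (Emb K (q ^ 2 * M))
  obtain ⟨pl, h1, -, h3, -, -⟩ := exists_places (k := K) (N := q ^ 2 * M) hN
  obtain ⟨τ, rfl⟩ := h3 v hv
  set g : ℤ := (Nat.gcd (q ^ 2 * M) (τ.s ^ 2) : ℤ) with hg
  have hg0 : 0 < g := by
    rw [hg]
    exact_mod_cast Nat.gcd_pos_of_pos_left _ (NeZero.pos (q ^ 2 * M))
  have hv' := h1 τ
  rw [← hg] at hv'
  obtain ⟨c, e, κ, h⟩ := τ.exists_data' hN
  have ha := h 1 (one_dvd _)
  have hbd : ((pp q * 1 : ℕ+) : ℕ) ∣ q ^ 2 * M := dvd_b (M := M) (q := q) one_dvd'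
  have hcd : ((pp q * (pp q * 1) : ℕ+) : ℕ) ∣ q ^ 2 * M := by
    rw [← mul_assoc]; exact dvd_c (M := M) (q := q) one_dvd'
  have hj2 : j2 K q M = jm K (pp q * (pp q * 1)) hcd := jm_congr (mul_assoc _ _ _) _ _
  have hat : τ.1 (j0 K q M) = Jc (c 1) (e 1) := ha.map_j
  rcases ha.next (p := q) hbd with ⟨κ', h'⟩ | ⟨c', e', κ', hc', he', h'⟩
  · -- up
    have u1 : Up (pl τ) (j0 K q M) (t0 K q M) q := up_aux hg0 hv' hat h'.map_j
    rcases h'.next (p := q) hcd with ⟨κ'', h''⟩ | ⟨c'', e'', κ'', hc'', he'', h''⟩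
    · left
      refine ⟨u1, ?_⟩
      rw [hj2]
      exact up_aux hg0 hv' h'.map_j h''.map_j
    · right; left
      refine ⟨u1, ?_⟩
      rw [hj2]
      refine up_aux hg0 hv' h''.map_j ?_
      rw [hc'', ← he'']
      exact h'.map_j
  · -- down
    right; right
    have u2 : Up (pl τ) (t0 K q M) (j0 K q M) q := by
      refine up_aux hg0 hv' h'.map_j ?_
      rw [hc', ← he']
      exact hat
    refine ⟨?_, u2⟩
    rcases h'.next (p := q) hcd with ⟨κ'', h''⟩ | ⟨c'', e'', κ'', hc'', he'', h''⟩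
    · exfalso
      have hs := ha.no_backtrack hbd hcd h' h''
      have h1 := ha.mul_eq
      have hs0 : Nat.gcd ((1 : ℕ+) : ℕ) τ.s ≠ 0 := by simp
      have hq1 := hq.out.one_lt
      have h6 : 0 < Nat.gcd ((1 : ℕ+) : ℕ) τ.s := Nat.pos_of_ne_zero hs0
      nlinarith
    · rw [hj2]
      refine up_aux hg0 hv' h''.map_j ?_
      rw [hc'', ← he'']
      exact h'.map_j

theorem jm_regular {N : ℕ} [NeZero N] (v : Place K (FF K N)) (hv : 0 ≤ v.ord (jF' K N)) {m : ℕ+}
    (hm : (m : ℕ) ∣ N) : 0 ≤ v.ord (jm K m hm) := by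
  let C' : Subalgebra K (FF K N) :=
    { v.toValuationSubring.toSubring with
      algebraMap_mem' := v.algebraMap_mem' }
  apply ord_nonneg_of_mem
  refine jm_mem_C C' ?_ (mem_of_ord_nonneg v hv) m hm
  intro w hw
  have h1 : IsIntegral v.toValuationSubring w := hw
  obtain ⟨y, hy⟩ := IsIntegrallyClosed.isIntegral_iff.1 h1
  rw [← hy]; exact y.2

/-- poles of `j(q τ)` are poles of `j` -/
theorem j0_of_t0 (v : Place K (FF K (q ^ 2 * M))) :
    0 ≤ v.ord (t0 K q M) ↔ 0 ≤ v.ord (j0 K q M) := by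
  constructor
  · intro h
    by_contra hcon
    push Not at hcon
    have hq0 : (0 : ℤ) < q := by exact_mod_cast hq.out.pos
    rcases types v hcon with ⟨h1, h2⟩ | ⟨h1, h2⟩ | ⟨h1, h2⟩
    · rw [h1.1] at h; nlinarith
    · rw [h1.1] at h; nlinarith
    · have := h2.1
      nlinarith
  · intro h
    exact jm_regular v h _

theorem j2_of_t0 (v : Place K (FF K (q ^ 2 * M))) (h : 0 ≤ v.ord (t0 K q M)) :
    0 ≤ v.ord (j2 K q M) := jm_regular v ((j0_of_t0 v).1 h) _

end Main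

end Fermat.Agent.CarM
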