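import Fermat.Agent.CarM.ChartI

/-!
# The chart at infinity: the middle component
-/

set_option autoImplicit false
set_option linter.style.haveILetI false
set_option linter.unusedSectionVars false

noncomputable section

namespace Fermat.Agent.CarM

open ModularCurve Polynomial IntermediateField Fermat.Agent.ModPoly Fermat.Agent.Cusp AlgebraicCurve
open Fermat.Agent.SemiSt Fermat.Agent.CarE Fermat.Agent.HeckeProd Fermat.Agent.Curve
open Fermat.Agent.RedMod Fermat.Agent.Car Fermat.Agent.RR Fermat.Agent.Red Fermat.Agent.PRem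
open Fermat.Agent.ThmC Fermat.Agent.Nod

variable {R0 K0 A Ω k : Type*} [CommRing R0] [IsDomain R0] [IsDiscreteValuationRing R0]
  [Field K0] [Algebra R0 K0]
  [IsFractionRing R0 K0] [CommRing A] [IsDomain A] [ValuationRing A] [Field Ω]
  [IsAlgClosed Ω] [CharZero Ω]
  [Algebra A Ω] [IsFractionRing A Ω] [Field k] [Algebra A k] [Algebra K0 Ω] [Algebra R0 A]
  [Algebra R0 k] {q M : ℕ} [hq : Fact q.Prime] [NeZero M] [CharP k q]
  (B : Base q R0 K0 A Ω k) (hco : q.Coprime M)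
  {z : Aˣ} (hz : z ^ q = 1 ∧ z ≠ 1) (hM : (M : k) ≠ 0)

set_option synthInstance.maxHeartbeats 400000

/-- vanishes on the outer components -/
def sI (K : Type*) [Field K] (q M : ℕ) [Fact q.Prime] [NeZero M] : FF K (q ^ 2 * M) :=
  (xc K q M - 1) * (xa K q M - 1)

/-- the auxiliary factor -/
def y0 (K : Type*) [Field K] (q M : ℕ) [Fact q.Prime] [NeZero M] : FF K (q ^ 2 * M) :=
  sI K q M ^ (q * q) * (CarE.j1 K q M ^ (q - 1) * (tt K q M)⁻¹)

theorem uy_jF : uy B hco (jF' K0 M) = CarE.j1 K0 q M - jC K0 q M := by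
  have h1 : ic K0 q M (jF' K0 M) = CarE.j1 K0 q M := incl_jm _ _
  rw [uy, h1]
  congr 1
  exact w0_a hco B.alg B.fixed (d1M M)

theorem rd_jF : Rd A (CarE.emb K0 Ω M (jF' K0 M) : LaurentSeries Ω) (jqModC k) := by
  have h1 : (CarE.emb K0 Ω M (jF' K0 M) : LaurentSeries Ω) = Jc 1 1 :=
    congrArg Subtype.val (emb_jm (K := K0) (Ω := Ω) (N := M) _)
  rw [h1, ← Jc_one_one (k := k)]
  exact Rd.of_lift (JA_incL_one 1).symm (redL_JA_one 1)

section Alg

/-- the algebraic identity for the residue -/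
theorem alg_idI {L : Type*} [Field L] {d J th Y S X e : L} {n : ℕ} (hd : d ≠ 0) (he : e ≠ 0)
    (hth : th ^ 6 = J * d) (hX : X = (th * Y) ^ n * S / e) :
    X ^ 6 * e ^ 6 * (d / d ^ (n + 1)) = J ^ n * Y ^ (6 * n) * S ^ 6 := by
  have h1 : X * e = (th * Y) ^ n * S := by rw [hX, div_mul_cancel₀ _ he]
  have h2 : X ^ 6 * e ^ 6 = (J ^ n * d ^ n) * Y ^ (6 * n) * S ^ 6 := by
    rw [← mul_pow, h1]
    have : ((th * Y) ^ n * S) ^ 6 = (th ^ 6) ^ n * Y ^ (6 * n) * S ^ 6 := by ring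
    rw [this, hth, mul_pow]
  have h3 : d ^ n * (d / d ^ (n + 1)) = 1 := by
    rw [mul_div_assoc', ← pow_succ]
    exact div_self (pow_ne_zero _ hd)
  rw [h2]
  calc J ^ n * d ^ n * Y ^ (6 * n) * S ^ 6 * (d / d ^ (n + 1)) =
      J ^ n * Y ^ (6 * n) * S ^ 6 * (d ^ n * (d / d ^ (n + 1))) := by ring
    _ = _ := by rw [h3, mul_one]

end Alg

section Chart

variable [IsAlgClosed k] [FunField k (FF k M)] [FunField Ω (FF Ω M)]
  [FunField Ω (FF Ω (q ^ 2 * M))]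

theorem mem_sI (j : Fin 3) : sI K0 q M ∈ ((cm B hco hz hM).comp j).W :=
  mul_mem (mem_sub_one B hco hz hM (mem_xc B hco hz hM j))
    (mem_sub_one B hco hz hM (mem_xa B hco hz hM j))

theorem v_tt_inv (j : Fin 3) : ((cm B hco hz hM).comp j).v (tt K0 q M)⁻¹ = 0 := by
  rw [Comp.v_inv, v_tt, neg_zero]

theorem mem_tt_inv (j : Fin 3) : (tt K0 q M)⁻¹ ∈ ((cm B hco hz hM).comp j).W :=
  Comp.mem_of_v (v_tt_inv B hco hz hM j).ge

theorem mem_y0 (j : Fin 3) : y0 K0 q M ∈ ((cm B hco hz hM).comp j).W :=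
  mul_mem (pow_mem (mem_sI B hco hz hM j) _)
    (mul_mem (pow_mem (mem_j1 B hco hz hM j) _) (mem_tt_inv B hco hz hM j))

theorem r_sI1 : ((cm B hco hz hM).comp 1).r (sI K0 q M) = (gq k q M - 1) * (gq k q M - 1) := by
  rw [sI, Comp.r_mul (mem_sub_one B hco hz hM (mem_xc B hco hz hM 1))
    (mem_sub_one B hco hz hM (mem_xa B hco hz hM 1)), r_sub_one B hco hz hM (mem_xc B hco hz hM 1),
    r_sub_one B hco hz hM (mem_xa B hco hz hM 1), r_xc1, r_xa1]

theorem r_y01 : ((cm B hco hz hM).comp 1).r (y0 K0 q M) =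
    ((gq k q M - 1) * (gq k q M - 1)) ^ (q * q) * (jF' k M ^ (q - 1) * (jF' k M ^ q)⁻¹) := by
  rw [y0, Comp.r_mul (pow_mem (mem_sI B hco hz hM 1) _)
    (mul_mem (pow_mem (mem_j1 B hco hz hM 1) _) (mem_tt_inv B hco hz hM 1)),
    Comp.r_pow (mem_sI B hco hz hM 1), r_sI1, Comp.r_mul (pow_mem (mem_j1 B hco hz hM 1) _)
    (mem_tt_inv B hco hz hM 1), Comp.r_pow (mem_j1 B hco hz hM 1), r_j1,
    Comp.r_inv (v_tt B hco hz hM 1), r_tt]
  congr 3
  exact pow_one _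

theorem ge_sI_zero {l : Fin 3} (hl : l ≠ 1) : ((cm B hco hz hM).comp l).Ge 1 (sI K0 q M) := by
  rw [← Comp.r_eq_zero_iff (mem_sI B hco hz hM l), sI,
    Comp.r_mul (mem_sub_one B hco hz hM (mem_xc B hco hz hM l))
    (mem_sub_one B hco hz hM (mem_xa B hco hz hM l)), r_sub_one B hco hz hM (mem_xc B hco hz hM l),
    r_sub_one B hco hz hM (mem_xa B hco hz hM l)]
  match l, hl with
  | 0, _ => rw [r_xc0, sub_self, zero_mul]
  | 2, _ => rw [r_xa2, sub_self, mul_zero]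
  | 1, hl => exact absurd rfl hl

theorem regI_sI : Reg Ω (tt Ω q M)⁻¹ (CarE.emb K0 Ω (q ^ 2 * M) (sI K0 q M)) := by
  rw [sI, map_mul, map_sub, map_sub, map_one]
  exact (regI_xc.sub (Reg.one _)).mul (regI_xa.sub (Reg.one _))

theorem emb_sI : CarE.emb K0 Ω (q ^ 2 * M) (sI K0 q M) = sI Ω q M := by
  rw [sI, map_mul, map_sub, map_sub, map_one, emb_xa, emb_xc, sI]

theorem regI_uc : Reg Ω (tt Ω q M)⁻¹ (CarE.emb K0 Ω (q ^ 2 * M)
    ((CarE.j1 K0 q M - jC K0 q M) * y0 K0 q M)) := by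
  have hn : q = q - 1 + 1 := (Nat.succ_pred_prime hq.out).symm
  have h := regI_key (Ω := Ω) (M := M) hn
  have e1 : CarE.emb K0 Ω (q ^ 2 * M) ((CarE.j1 K0 q M - jC K0 q M) * y0 K0 q M) =
      (CarE.j1 Ω q M - jC Ω q M) * (sI Ω q M ^ (q * q) *
        (CarE.j1 Ω q M ^ (q - 1) * (tt Ω q M)⁻¹)) := by
    rw [y0, map_mul, map_mul, map_mul, map_sub, map_pow, map_pow, map_inv₀, emb_sI, emb_j1,
      emb_jC, emb_tt']
  rw [e1]
  have e2 : (CarE.j1 Ω q M - jC Ω q M) * (sI Ω q M ^ (q * q) *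
        (CarE.j1 Ω q M ^ (q - 1) * (tt Ω q M)⁻¹)) =
      ((jC Ω q M / tt Ω q M ^ q - 1) * (CarE.j1 Ω q M / tt Ω q M ^ q - 1)) ^ (q * q) *
      ((CarE.j1 Ω q M - jC Ω q M) * CarE.j1 Ω q M ^ (q - 1) * (tt Ω q M)⁻¹) := by
    rw [sI, xa, xc]
    ring
  rw [e2]
  exact h

theorem ord_sub_1728 {Q : Place k (FF k M)} (hQ : Q.ord (jF' k M) < 0) :
    jF' k M - 1728 ≠ 0 ∧ Q.ord (jF' k M - 1728) = Q.ord (jF' k M) := by
  have h1 : (X - C (1728 : k) : k[X]) ≠ 0 := X_sub_C_ne_zero _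
  have h2 := ord_aeval_of_neg Q hQ _ h1
  have h3 : aeval (jF' k M) (X - C (1728 : k) : k[X]) = jF' k M - 1728 := by
    rw [map_sub, aeval_X, aeval_C, map_ofNat]
  rw [h3, natDegree_X_sub_C, Nat.cast_one, one_mul] at h2
  refine ⟨fun h0 => ?_, h2⟩
  rw [h0, Q.ord_zero] at h2
  omega

theorem val_sI1 {Q : Place k (FF k M)} (hQ : Q.ord (jF' k M) < 0) :
    val Q ((gq k q M - 1) * (gq k q M - 1)) = 1 := by
  rw [val_mul (ge_gq_sub hQ) (ge_gq_sub hQ), val_gq_sub hQ]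
  norm_num

include hM in
/-- the order of the residue at a cusp -/
theorem ord_res {Q : Place k (FF k M)} (hQ : Q.ord (jF' k M) < 0) {n : ℕ} (hn : q = n + 1)
    {X Y S : FF k M} {e : k} (he : e ≠ 0)
    (hS : S = (gq k q M - 1) * (gq k q M - 1))
    (hY : Y = S ^ (q * q) * (jF' k M ^ n * (jF' k M ^ q)⁻¹))
    (hX : (X : LaurentSeries k) = (theta (jqModC k) * (Y : LaurentSeries k)) ^ n *
      (S : LaurentSeries k) / HahnSeries.C e) : val Q X ≠ 0 := by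
  have hSv : val Q S = 1 := by rw [hS]; exact val_sI1 hQ
  have hSv' : val Q S ≠ 0 := by rw [hSv]; exact one_ne_zero
  have hS0 : S ≠ 0 := by
    rintro rfl
    rw [val_zero] at hSv'
    exact hSv' rfl
  have hSo : Q.ord S = 0 := ord_eq_zero_of_val_ne hSv'
  have hJ0 : jF' k M ≠ 0 := jF_ne
  have hY0 : Y ≠ 0 := by
    rw [hY]
    exact mul_ne_zero (pow_ne_zero _ hS0) (mul_ne_zero (pow_ne_zero _ hJ0)
      (inv_ne_zero (pow_ne_zero _ hJ0)))
  have hYo : Q.ord Y = -Q.ord (jF' k M) := by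
    rw [hY, Q.ord_mul (pow_ne_zero _ hS0) (mul_ne_zero (pow_ne_zero _ hJ0)
      (inv_ne_zero (pow_ne_zero _ hJ0))), Q.ord_mul (pow_ne_zero _ hJ0)
      (inv_ne_zero (pow_ne_zero _ hJ0)), Q.ord_inv, ord_pow, ord_pow, ord_pow, hSo, hn]
    push_cast
    ring
  have hd := Dc_ne_zero (k := k) 1 1
  have hCe : (HahnSeries.C e : LaurentSeries k) ≠ 0 := HahnSeries.C_ne_zero he
  have hth : theta (jqModC k) ^ 6 = (jqModC k ^ 4 * (jqModC k - 1728) ^ 3) * Dc 1 1 := by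
    rw [theta_jq_pow, ← Dc_one_one']
  have hid := alg_idI (n := n) hd hCe hth hX
  have hid' : X ^ 6 * algebraMap k (FF k M) (e ^ 6) * hs k q M =
      (jF' k M ^ 4 * (jF' k M - 1728) ^ 3) ^ n * Y ^ (6 * n) * S ^ 6 := by
    apply Subtype.ext
    have e1 : ((algebraMap k (FF k M) (e ^ 6) : FF k M) : LaurentSeries k) =
        HahnSeries.C e ^ 6 := by
      change algebraMap k (LaurentSeries k) _ = _
      rw [algebraMap_eq_C, map_pow]
    have e2 : ((hs k q M : FF k M) : LaurentSeries k) = Dc 1 1 / Dc 1 1 ^ (n + 1) := by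
      rw [coe_hs, hsL_eq, hn]
    have e3 : ((jF' k M ^ 4 * (jF' k M - 1728) ^ 3 : FF k M) : LaurentSeries k) =
        jqModC k ^ 4 * (jqModC k - 1728) ^ 3 := by
      have : ((jF' k M ^ 4 * (jF' k M - 1728) ^ 3 : FF k M) : LaurentSeries k) =
        ((jF' k M : FF k M) : LaurentSeries k) ^ 4 *
          (((jF' k M : FF k M) : LaurentSeries k) - 1728) ^ 3 := rfl
      rw [this, coe_jF]
    rw [MulMemClass.coe_mul, MulMemClass.coe_mul, SubmonoidClass.coe_pow, e1, e2,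
      MulMemClass.coe_mul, MulMemClass.coe_mul, SubmonoidClass.coe_pow, SubmonoidClass.coe_pow,
      SubmonoidClass.coe_pow, e3]
    exact hid
  obtain ⟨h17, ho17⟩ := ord_sub_1728 hQ
  have hrhs : (jF' k M ^ 4 * (jF' k M - 1728) ^ 3) ^ n * Y ^ (6 * n) * S ^ 6 ≠ 0 :=
    mul_ne_zero (mul_ne_zero (pow_ne_zero _ (mul_ne_zero (pow_ne_zero _ hJ0)
      (pow_ne_zero _ h17))) (pow_ne_zero _ hY0)) (pow_ne_zero _ hS0)
  have hX0 : X ≠ 0 := by
    rintro rfl
    apply hrhs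
    rw [← hid']
    ring
  have hee : algebraMap k (FF k M) (e ^ 6) ≠ 0 := (_root_.map_ne_zero _).2 (pow_ne_zero _ he)
  have ho := congrArg Q.ord hid'
  rw [Q.ord_mul (mul_ne_zero (pow_ne_zero _ hX0) hee) (hs_ne (k := k)), Q.ord_mul (pow_ne_zero _ hX0) hee,
    ord_pow, ord_algebraMap, hs_ord hM Q hQ,
    Q.ord_mul (mul_ne_zero (pow_ne_zero _ (mul_ne_zero (pow_ne_zero _ hJ0)
      (pow_ne_zero _ h17))) (pow_ne_zero _ hY0)) (pow_ne_zero _ hS0),
    Q.ord_mul (pow_ne_zero _ (mul_ne_zero (pow_ne_zero _ hJ0)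
      (pow_ne_zero _ h17))) (pow_ne_zero _ hY0), ord_pow, ord_pow, ord_pow,
    Q.ord_mul (pow_ne_zero _ hJ0) (pow_ne_zero _ h17), ord_pow, ord_pow, ho17, hYo, hSo, hn] at ho
  apply val_ne_of_ord hX0
  push_cast at ho
  have : 6 * Q.ord X = 0 := by linear_combination ho
  omega

/-- the cusps of the middle component -/
theorem starI_one {Q : Place k (FF k M)} (hQ : Q.ord (jF' k M) < 0) :
    StarI B hco hz hM 1 Q := by
  haveI := B.alg
  obtain ⟨w, hw, hwe⟩ := exists_quot_Rd (A := A) (q := q) hz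
    (rd_jF (K0 := K0) (A := A) (Ω := Ω) (k := k) (M := M))
  obtain ⟨n, hn⟩ : ∃ n, q = n + 1 := ⟨q - 1, (Nat.succ_pred_prime hq.out).symm⟩
  have hn1 : q - 1 = n := by omega
  have hnpos : 1 ≤ n := by have := hq.out.two_le; omega
  have hφd : (E3 B hco hz 1).φ (CarE.j1 K0 q M - jC K0 q M) =
      HahnSeries.C (algebraMap A Ω (1 - (z : A))) * w := by
    rw [← uy_jF B hco, phi1_uy, hwe]
  set u := (CarE.j1 K0 q M - jC K0 q M) * y0 K0 q M with hu
  let cc : LaurentSeries Ω := HahnSeries.C (algebraMap A Ω (1 - (z : A)))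
  have hcc : cc ≠ 0 := (E3 B hco hz (M := M) 1).C_ne
  have hRy := rd_of_mem (B := B) (hco := hco) (hz := hz) hM (mem_y0 B hco hz hM 1)
  have hRs := rd_of_mem (B := B) (hco := hco) (hz := hz) hM (mem_sI B hco hz hM 1)
  set Y := ((cm B hco hz hM).comp 1).r (y0 K0 q M) with hY
  set S := ((cm B hco hz hM).comp 1).r (sI K0 q M) with hS
  have hS' : S = (gq k q M - 1) * (gq k q M - 1) := r_sI1 B hco hz hM
  have hY' : Y = S ^ (q * q) * (jF' k M ^ n * (jF' k M ^ q)⁻¹) := by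
    rw [hS', ← hn1]; exact r_y01 B hco hz hM
  have hSv : val Q S = 1 := by rw [hS']; exact val_sI1 hQ
  have hS0 : S ≠ 0 := by
    intro h0
    rw [h0, val_zero] at hSv
    exact zero_ne_one hSv
  have hJ0 : jF' k M ≠ 0 := jF_ne
  have hY0 : Y ≠ 0 := by
    rw [hY']
    exact mul_ne_zero (pow_ne_zero _ hS0) (mul_ne_zero (pow_ne_zero _ hJ0)
      (inv_ne_zero (pow_ne_zero _ hJ0)))
  have hYc : (Y : LaurentSeries k) ≠ 0 := fun h => hY0 (Subtype.ext h)
  have hφu : (E3 B hco hz 1).φ u = cc * (w * (E3 B hco hz 1).φ (y0 K0 q M)) := by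
    rw [hu, map_mul, hφd, mul_assoc]
  have hRu := hw.mul hRy
  have hRu0 : theta (jqModC k) * (Y : LaurentSeries k) ≠ 0 := mul_ne_zero theta_jq_ne hYc
  have hv1 : ((cm B hco hz hM).comp 1).v u = 1 := by
    have := v_of_Rd hM (B := B) (hco := hco) (hz := hz) (j := 1) (n := 1) hRu hRu0 (by
      rw [hφu, pow_one]; rfl)
    exact_mod_cast this
  have hu0 : u ≠ 0 := by
    intro h0
    rw [h0, Comp.v_zero] at hv1
    exact zero_ne_one hv1
  have huW : ∀ j, u ∈ ((cm B hco hz hM).comp j).W := fun j =>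
    mul_mem (sub_mem (mem_j1 B hco hz hM j) (mem_jC B hco hz hM j)) (mem_y0 B hco hz hM j)
  have hs0 : sI K0 q M ≠ 0 := by
    intro h0
    apply hS0
    rw [hS, h0, Comp.r_zero]
  have hvs : ((cm B hco hz hM).comp 1).v (sI K0 q M) = 0 := (Comp.r_ne_zero_iff hs0).1 hS0
  set M' := cm B hco hz hM with hM'
  let p : FF K0 (q ^ 2 * M) := algebraMap R0 (FF K0 (q ^ 2 * M)) (q : R0)
  have hvp : ∀ l, (M'.comp l).v p = ee q l := fun l => M'.v_p l
  have hp0 : p ≠ 0 := by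
    intro h0
    have h1 := hvp 0
    rw [h0, Comp.v_zero] at h1
    change (0 : ℤ) = ((1 : ℕ) : ℤ) at h1
    norm_num at h1
  have hx0 : u ^ (n - 1) * (sI K0 q M * p⁻¹) ≠ 0 :=
    mul_ne_zero (pow_ne_zero _ hu0) (mul_ne_zero hs0 (inv_ne_zero hp0))
  have hureg := regI_uc (K0 := K0) (Ω := Ω) (q := q) (M := M)
  refine ⟨u, mem_invB B hco hz hM huW hureg, hv1, u ^ (n - 1) * (sI K0 q M * p⁻¹), ?_, ?_, ?_, ?_⟩
  · rw [inv_t_emb]
    change Reg Ω _ (CarE.emb K0 Ω (q ^ 2 * M) (u ^ (n - 1) * (sI K0 q M * p⁻¹)))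
    rw [map_mul, map_mul, map_pow]
    refine (reg_pow hureg _).mul (regI_sI.mul ?_)
    have e1 : CarE.emb K0 Ω (q ^ 2 * M) p⁻¹ =
        algebraMap Ω _ (algebraMap K0 Ω (algebraMap R0 K0 (q : R0))⁻¹) := by
      rw [map_inv₀]
      change (CarE.emb K0 Ω (q ^ 2 * M) (algebraMap R0 (FF K0 (q ^ 2 * M)) (q : R0)))⁻¹ = _
      rw [algebraMap_R0, emb_algebraMap, ← map_inv₀, ← map_inv₀]
    rw [e1]
    exact Reg.algebraMap _ _
  · change (M'.comp 1).v (u ^ (n - 1) * (sI K0 q M * p⁻¹)) = -1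
    rw [Comp.v_mul _ (pow_ne_zero _ hu0) (mul_ne_zero hs0 (inv_ne_zero hp0)),
      Comp.v_mul _ hs0 (inv_ne_zero hp0), Comp.v_pow, Comp.v_inv, hv1, hvs, hvp]
    change ((n - 1 : ℕ) : ℤ) * 1 + (0 + -((q - 1 : ℕ) : ℤ)) = -1
    rw [hn1]
    push_cast [hnpos]
    ring
  · intro l hl
    change (M'.comp l).Ge 0 (u ^ (n - 1) * (sI K0 q M * p⁻¹))
    have hpg : (M'.comp l).Ge (-(ee q l : ℤ)) p⁻¹ := by
      right
      rw [Comp.v_inv, hvp]
    have h1 : (M'.comp l).Ge 0 u := Comp.ge_of_mem (huW l)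
    have h2 : (M'.comp l).Ge 1 (sI K0 q M) := ge_sI_zero B hco hz hM hl
    refine ((h1.pow (n - 1)).mul (h2.mul hpg)).mono ?_
    have hel : ee q l = 1 := by
      match l, hl with
      | 0, _ => rfl
      | 2, _ => rfl
      | 1, h => exact absurd rfl h
    rw [hel]
    norm_num
  · change val Q ((M'.comp 1).r (u * (u ^ (n - 1) * (sI K0 q M * p⁻¹)))) ≠ 0
    obtain ⟨ε, hε, heq⟩ := exists_lam_pow (A := A) (k := k) (hz_val hz)
    rw [hn1] at heq
    have hxe : u * (u ^ (n - 1) * (sI K0 q M * p⁻¹)) = u ^ n * sI K0 q M / p := by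
      rw [← mul_assoc, ← pow_succ', div_eq_mul_inv, mul_assoc]
      congr 2
      omega
    rw [hxe]
    have hφp : (E3 B hco hz 1).φ p = cc ^ n * HahnSeries.C (algebraMap A Ω ε) := by
      have h1 := hasL_const B hco hz (M := M) (q : R0) 1
      rw [map_natCast (algebraMap R0 A), coeffMap_C, map_natCast (algebraMap A Ω)] at h1
      refine Eq.trans h1 ?_
      rw [← map_natCast (algebraMap A Ω), heq, map_mul, map_pow, map_mul, map_pow]
    have hφx : (E3 B hco hz 1).φ (u ^ n * sI K0 q M / p) =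
        (w * (E3 B hco hz 1).φ (y0 K0 q M)) ^ n * (E3 B hco hz 1).φ (sI K0 q M) /
          HahnSeries.C (algebraMap A Ω ε) := by
      rw [map_div₀, map_mul, map_pow, hφu, hφp, mul_pow, mul_assoc,
        mul_div_mul_left _ _ (pow_ne_zero _ hcc)]
    have hCε : (HahnSeries.C (algebraMap A k ε) : LaurentSeries k) ≠ 0 := HahnSeries.C_ne_zero hε
    have hRd := ((hRu.pow n).mul hRs).div (Rd.C (K := Ω) (k := k) ε) hCε
    rw [← hφx] at hRd
    exact ord_res hM hQ hn hε hS' hY' (coe_r_of_Rd hM hRd)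

end Chart

end Fermat.Agent.CarM
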