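import Fermat.Agent.CarM.Chart

/-!
# Regularity of the finite chart of the model of level `q ^ 2 M`
-/

set_option autoImplicit false
set_option linter.style.haveILetI false
set_option linter.unusedSectionVars false

noncomputable section

namespace Fermat.Agent.CarM

open ModularCurve Polynomial IntermediateField Fermat.Agent.ModPoly Fermat.Agent.Cusp AlgebraicCurve
open Fermat.Agent.SemiSt Fermat.Agent.CarE Fermat.Agent.HeckeProd Fermat.Agent.Curve
open Fermat.Agent.RedMod Fermat.Agent.Car Fermat.Agent.RR Fermat.Agent.Red Fermat.Agent.PRem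
open Fermat.Agent.ThmC Fermat.Agent.Nod

variable {R0 K0 A Ω k : Type*} [CommRing R0] [IsDomain R0] [IsDiscreteValuationRing R0]
  [Field K0] [Algebra R0 K0]
  [IsFractionRing R0 K0] [CommRing A] [IsDomain A] [ValuationRing A] [Field Ω]
  [IsAlgClosed Ω] [CharZero Ω]
  [Algebra A Ω] [IsFractionRing A Ω] [Field k] [Algebra A k] [Algebra K0 Ω] [Algebra R0 A]
  [Algebra R0 k] {q M : ℕ} [hq : Fact q.Prime] [NeZero M] [CharP k q]
  (B : Base q R0 K0 A Ω k) (hco : q.Coprime M)
  {z : Aˣ} (hz : z ^ q = 1 ∧ z ≠ 1) (hM : (M : k) ≠ 0)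

set_option synthInstance.maxHeartbeats 400000

theorem Sb_one_right {K : Type*} [Field K] (c : Kˣ) (x : LaurentSeries K) :
    SbA c 1 x = twist c x := by
  ext n
  have h3 := Sb_coeff_mul c 1 x n
  rw [PNat.one_coe, Nat.cast_one, one_mul] at h3
  rw [SbA_apply, h3, twist_coeff]

/-- the local equation of the middle component -/
def uy (y : FF K0 M) : FF K0 (q ^ 2 * M) :=
  ic K0 q M y - w0 hco B.alg B.fixed (ic K0 q M y)

theorem phi1_uy (y : FF K0 M) : (E3 B hco hz 1).φ (uy B hco y) =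
    (CarE.emb K0 Ω M y : LaurentSeries Ω) -
      twist (Units.map (algebraMap A Ω : A →* Ω) z) (CarE.emb K0 Ω M y : LaurentSeries Ω) := by
  have h1 : (E3 B hco hz 1).φ (w0 hco B.alg B.fixed (ic K0 q M y)) =
      twist (Units.map (algebraMap A Ω : A →* Ω) z) (CarE.emb K0 Ω M y : LaurentSeries Ω) := by
    change mphi (phi1 hco (hzΩ Ω hz)) (w0 hco B.alg B.fixed (ic K0 q M y)) = _
    rw [mphi1_w0, mphi_apply, ic, CarE.emb_incl, phi1_incl, Sb_one_right]
  rw [uy, map_sub, h1, phi_ic1]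

section Reg

variable [IsAlgClosed k] [FunField k (FF k M)] [FunField Ω (FF Ω M)]
  [FunField Ω (FF Ω (q ^ 2 * M))]

/-- the residue of `Δ`-normalised powers -/
theorem alg_id {d gg th : LaurentSeries k} {n : ℕ} (hd : d ≠ 0) (c : LaurentSeries k) (hc : c ≠ 0)
    (h6 : th ^ 6 = gg * d) :
    th ^ (12 * n) / (c * ((d ^ (n + 1)) ^ 2 * d⁻¹ * d⁻¹)) = c⁻¹ * gg ^ (2 * n) := by
  have h1 : th ^ (12 * n) = gg ^ (2 * n) * d ^ (2 * n) := by
    rw [show 12 * n = 6 * (2 * n) by ring, pow_mul, h6, mul_pow]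
  have h2 : (d ^ (n + 1)) ^ 2 * d⁻¹ * d⁻¹ = d ^ (2 * n) := by
    have : (d ^ (n + 1)) ^ 2 = d ^ (2 * n) * d * d := by ring
    rw [this, mul_inv_cancel_right₀ hd, mul_inv_cancel_right₀ hd]
  have h3 : d ^ (2 * n) ≠ 0 := pow_ne_zero _ hd
  rw [h1, h2]
  field_simp

/-- **regularity along the middle component** -/
theorem star_one (HL : Lifts M K0 A Ω k) {Q : Place k (FF k M)} (hQ : 0 ≤ Q.ord (jF' k M)) :
    ∃ u ∈ (cm B hco hz hM).B, ((cm B hco hz hM).comp 1).v u = 1 ∧ ∃ x : FF K0 (q ^ 2 * M),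
      Reg Ω (tt Ω q M) (CarE.emb K0 Ω (q ^ 2 * M) x) ∧ ((cm B hco hz hM).comp 1).v x = -1 ∧
      (∀ l, l ≠ 1 → ((cm B hco hz hM).comp l).Ge 0 x) ∧
      val Q (((cm B hco hz hM).comp 1).r (u * x)) ≠ 0 := by
  obtain ⟨y, a, hya, -, hyr, g, hg, hne, hord⟩ := HL.unif Q hQ
  have hic := ic_mem_B hM (B := B) (hco := hco) (hz := hz) hya hyr
  have huB : uy B hco y ∈ (cm B hco hz hM).B := sub_mem hic (w0_mem_B B hco hz hM hic)
  obtain ⟨w, hw, hwe⟩ := exists_quot_Rd (A := A) (q := q) hz hya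
  have hφu := phi1_uy B hco hz y
  rw [hwe] at hφu
  have hg0 : g ≠ 0 := by
    rintro rfl
    apply hne
    ring
  have hth : theta (a : LaurentSeries k) ≠ 0 := by
    rw [hg]
    exact mul_ne_zero (fun h => hg0 (Subtype.ext h)) theta_jq_ne
  have hv1 : ((cm B hco hz hM).comp 1).v (uy B hco y) = 1 := by
    have := v_of_Rd hM (B := B) (hco := hco) (hz := hz) (j := 1) (n := 1) hw hth (by
      rw [hφu, pow_one]; rfl)
    exact_mod_cast this
  have hu0 : uy B hco y ≠ 0 := by
    intro h0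
    rw [h0, Comp.v_zero] at hv1
    exact zero_ne_one hv1
  obtain ⟨n, hn⟩ : ∃ n, q = n + 1 := ⟨q - 1, (Nat.succ_pred_prime hq.out).symm⟩
  have hn1 : q - 1 = n := by omega
  have hnpos : 1 ≤ n := by have := hq.out.two_le; omega
  set u := uy B hco y with hu
  set h := hh M B 1 with hh1
  have hh0 : h ≠ 0 := hh_ne B 1
  have hvh : ((cm B hco hz hM).comp 1).v h = 12 * n := by
    rw [hh1, v_hh_1, hn1]
  have hx0 : u ^ (12 * n - 1) * h⁻¹ ≠ 0 := mul_ne_zero (pow_ne_zero _ hu0) (inv_ne_zero hh0)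
  refine ⟨u, huB, hv1, u ^ (12 * n - 1) * h⁻¹, ?_, ?_, ?_, ?_⟩
  · rw [map_mul, map_pow]
    have h1 := ((mem_B_iff B hco hz hM).1 huB).2
    have h2 : ∀ m : ℕ, Reg Ω (tt Ω q M) (CarE.emb K0 Ω (q ^ 2 * M) u ^ m) := by
      intro m
      induction m with
      | zero => rw [pow_zero]; exact Reg.one _
      | succ m ih =>
        rw [pow_succ (CarE.emb K0 Ω (q ^ 2 * M) u) m]; exact ih.mul h1
    exact (h2 _).mul (reg_hh_inv B 1)
  · rw [Comp.v_mul _ (pow_ne_zero _ hu0) (inv_ne_zero hh0), Comp.v_pow, Comp.v_inv, hv1, hvh]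
    have : 1 ≤ 12 * n := by omega
    push_cast [this]
    ring
  · intro l hl
    have h1 : ((cm B hco hz hM).comp l).Ge 0 (u ^ (12 * n - 1)) := by
      have := (Comp.ge_of_mem (((mem_B_iff B hco hz hM).1 huB).1 l)).pow (12 * n - 1)
      rwa [mul_zero] at this
    have h2 : ((cm B hco hz hM).comp l).Ge 0 h⁻¹ := by
      right
      rw [Comp.v_inv, hh1, v_hh_ne B hco hz hM hl.symm, neg_zero]
    have := h1.mul h2
    rwa [add_zero] at this
  · -- the residue
    have hxe : u * (u ^ (12 * n - 1) * h⁻¹) = u ^ (12 * n) / h := by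
      rw [← mul_assoc, ← pow_succ', div_eq_mul_inv]
      congr 2
      omega
    rw [hxe]
    obtain ⟨ε, hε, heq⟩ := exists_lam_pow (A := A) (k := k) (hz_val hz)
    rw [hn1] at heq
    let D' : LaurentSeries A := DA 1 (pp q * 1) ^ 2 * DI 1 1 * DI z 1
    let cc : LaurentSeries Ω := HahnSeries.C (algebraMap A Ω (1 - (z : A)))
    have hcc : cc ≠ 0 := (E3 B hco hz (M := M) 1).C_ne
    have hφh : (E3 B hco hz 1).φ h = cc ^ (12 * n) * incL A Ω (HahnSeries.C (ε ^ 12) * D') := by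
      have e1 := hasL_hh B hco hz (M := M) 1 1
      rw [e1]
      change incL A Ω (HahnSeries.C ((q : A) ^ 12) * D') = _
      rw [heq, mul_pow, ← pow_mul, mul_comm n 12, map_mul HahnSeries.C, mul_assoc,
        map_mul (incL A Ω), coeffMap_C, map_pow (algebraMap A Ω), map_pow HahnSeries.C]
    have hφx : (E3 B hco hz 1).φ (u ^ (12 * n) / h) =
        w ^ (12 * n) / incL A Ω (HahnSeries.C (ε ^ 12) * D') := by
      rw [map_div₀, map_pow, hφu, hφh, mul_pow, mul_div_mul_left _ _ (pow_ne_zero _ hcc)]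
    have hred : redL A k (HahnSeries.C (ε ^ 12) * D') =
        HahnSeries.C (algebraMap A k ε ^ 12) *
          ((Dc 1 1 ^ (n + 1)) ^ 2 * (Dc 1 1)⁻¹ * (Dc 1 1)⁻¹) := by
      have e1 : redL A k (HahnSeries.C (ε ^ 12)) = HahnSeries.C (algebraMap A k ε ^ 12) := by
        rw [coeffMap_C, map_pow]
      rw [map_mul, e1]
      change _ * redL A k (DA 1 (pp q * 1) ^ 2 * DI 1 1 * DI z 1) = _
      rw [map_mul, map_mul, map_pow (redL A k) (DA 1 (pp q * 1)), redL_DA_one, redL_DI_one,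
        redL_DI_z hz, Dc_q1, ← hn]
    have hCε : (HahnSeries.C (algebraMap A k ε ^ 12) : LaurentSeries k) ≠ 0 :=
      HahnSeries.C_ne_zero (pow_ne_zero _ hε)
    have hd := Dc_ne_zero (k := k) 1 1
    have hrne : redL A k (HahnSeries.C (ε ^ 12) * D') ≠ 0 := by
      rw [hred]
      exact mul_ne_zero hCε (mul_ne_zero (mul_ne_zero (pow_ne_zero _ (pow_ne_zero _ hd))
        (inv_ne_zero hd)) (inv_ne_zero hd))
    have hRd := (hw.pow (12 * n)).div (Rd.incL (K := Ω) (HahnSeries.C (ε ^ 12) * D')) hrne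
    rw [← hφx] at hRd
    have hr := coe_r_of_Rd hM hRd
    let gg : FF k M := g ^ 6 * jF' k M ^ 4 * (jF' k M - 1728) ^ 3
    have hgg : theta (a : LaurentSeries k) ^ 6 = (gg : LaurentSeries k) * Dc 1 1 := by
      rw [hg, mul_pow, theta_jq_pow, ← Dc_one_one']
      have e2 : (gg : LaurentSeries k) =
          (g : LaurentSeries k) ^ 6 * jqModC k ^ 4 * (jqModC k - 1728) ^ 3 := by
        have e3 : ((jF' k M : FF k M) : LaurentSeries k) = jqModC k := Jc_one_one
        have e4 : (gg : LaurentSeries k) = (g : LaurentSeries k) ^ 6 *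
          ((jF' k M : FF k M) : LaurentSeries k) ^ 4 *
          (((jF' k M : FF k M) : LaurentSeries k) - 1728) ^ 3 := rfl
        rw [e4, e3]
      rw [e2]
      ring
    rw [hred, alg_id hd _ hCε hgg] at hr
    have hr' : ((cm B hco hz hM).comp 1).r (u ^ (12 * n) / h) =
        algebraMap k (FF k M) ((algebraMap A k ε ^ 12)⁻¹) * gg ^ (2 * n) := by
      apply Subtype.ext
      rw [hr, MulMemClass.coe_mul, SubmonoidClass.coe_pow]
      congr 1
      change _ = algebraMap k (LaurentSeries k) _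
      rw [algebraMap_eq_C, map_inv₀]
    rw [hr']
    have hc0 : algebraMap k (FF k M) ((algebraMap A k ε ^ 12)⁻¹) ≠ 0 :=
      (_root_.map_ne_zero _).2 (inv_ne_zero (pow_ne_zero _ hε))
    have hg2 : gg ^ (2 * n) ≠ 0 := pow_ne_zero _ hne
    have hordx : Q.ord (algebraMap k (FF k M) ((algebraMap A k ε ^ 12)⁻¹) * gg ^ (2 * n)) = 0 := by
      rw [Q.ord_mul hc0 hg2, ord_algebraMap, ord_pow, hord, mul_zero, add_zero]
    rw [val_ne_zero_iff (Ge.of_le hordx.ge) (mul_ne_zero hc0 hg2)]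
    exact hordx

/-- **the finite chart is regular** -/
theorem good (HL : Lifts M K0 A Ω k) : (cm B hco hz hM).Good where
  surj := good_surj B hco hz hM HL
  star := by
    haveI := B.alg
    intro j Q hQ
    rw [cm_tb, ord_tb] at hQ
    have key : ∀ Q' : Place k (FF k M), 0 ≤ Q'.ord (jF' k M) →
        (cm B hco hz hM).SameAt j Q 1 Q' →
        ∃ i, ∃ Q' : Place k (FF k M), 0 ≤ Q'.ord ((cm B hco hz hM).tb i) ∧
        (cm B hco hz hM).SameAt j Q i Q' ∧ ∃ u ∈ (cm B hco hz hM).B,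
          ((cm B hco hz hM).comp i).v u = 1 ∧ ∃ z, Reg Ω
          ((cm B hco hz hM).emb (cm B hco hz hM).t) ((cm B hco hz hM).emb z) ∧
          ((cm B hco hz hM).comp i).v z = -1 ∧
          (∀ l, l ≠ i → ((cm B hco hz hM).comp l).Ge 0 z) ∧
          val Q' (((cm B hco hz hM).comp i).r (u * z)) ≠ 0 := by
      intro Q' hQ' hs
      obtain ⟨u, hu, hu1, x, h1, h2, h3, h4⟩ := star_one B hco hz hM HL hQ'
      refine ⟨1, Q', by rwa [cm_tb, ord_tb], hs, u, hu, hu1, x, ?_, h2, h3, h4⟩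
      rw [cm_emb, cm_t, emb_tt]
      exact h1
    by_cases hj : j = 1
    · subst hj
      exact key Q hQ fun x _ => rfl
    by_cases hss : val Q (hs k q M) = 0
    · -- supersingular points
      obtain ⟨Q', hQ', hs⟩ := thru_ss B hco hz hM HL hQ 1
        ((val_r_hh B hco hz hM (fun h => hj h.symm) hQ).2 hss)
      exact key Q' hQ' hs
    · -- ordinary points of the outer components
      obtain ⟨i, hij, hi1, hall⟩ : ∃ i : Fin 3, i ≠ j ∧ i ≠ 1 ∧ ∀ l, l ≠ j → l = 1 ∨ l = i := by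
        match j, hj with
        | 0, _ => exact ⟨2, by decide, by decide, by decide⟩
        | 2, _ => exact ⟨0, by decide, by decide, by decide⟩
        | 1, h => exact absurd rfl h
      have hej : ee q j = 1 := by
        match j, hj with
        | 0, _ => rfl
        | 2, _ => rfl
        | 1, h => exact absurd rfl h
      have hei : ee q i = 1 := by
        match i, hi1 with
        | 0, _ => rfl
        | 2, _ => rfl
        | 1, h => exact absurd rfl h
      set M' := cm B hco hz hM with hM'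
      let p : FF K0 (q ^ 2 * M) := algebraMap R0 (FF K0 (q ^ 2 * M)) (q : R0)
      have hp0 : p ≠ 0 := by
        intro h0
        have h1 := M'.v_p j
        change (M'.comp j).v p = _ at h1
        rw [h0, Comp.v_zero] at h1
        have h2 := M'.e_pos j
        omega
      have hpB : p ∈ M'.B := M'.algebraMap_mem_B (q : R0)
      have hvp : ∀ l, (M'.comp l).v p = ee q l := fun l => M'.v_p l
      let c := hh M B 1 * hh M B i
      have hcB : c ∈ M'.B := mul_mem (hh_mem_B B hco hz hM 1) (hh_mem_B B hco hz hM i)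
      have hc0 : c ≠ 0 := mul_ne_zero (hh_ne B 1) (hh_ne B i)
      have hvc : ∀ l, (M'.comp l).v c = (M'.comp l).v (hh M B 1) + (M'.comp l).v (hh M B i) :=
        fun l => Comp.v_mul _ (hh_ne B 1) (hh_ne B i)
      have hj1 : (1 : Fin 3) ≠ j := fun h => hj h.symm
      have hv12 : (M'.comp i).v (hh M B i) = 12 := by
        match i, hi1 with
        | 0, _ => exact v_hh_0 B hco hz hM
        | 2, _ => exact v_hh_2 B hco hz hM
        | 1, h => exact absurd rfl h
      have hpu : p * (c * p⁻¹) = c := by rw [mul_comm c, mul_inv_cancel_left₀ hp0]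
      refine ⟨j, Q, by rwa [cm_tb, ord_tb], fun x _ => rfl, p, hpB, ?_, c * p⁻¹, ?_, ?_, ?_, ?_⟩
      · rw [hvp, hej, Nat.cast_one]
      · rw [map_mul]
        refine hcB.2.mul ?_
        have e1 : M'.emb p⁻¹ = algebraMap Ω _ (algebraMap K0 Ω (algebraMap R0 K0 (q : R0))⁻¹) := by
          rw [map_inv₀]
          change (CarE.emb K0 Ω (q ^ 2 * M) (algebraMap R0 (FF K0 (q ^ 2 * M)) (q : R0)))⁻¹ = _
          rw [algebraMap_R0, emb_algebraMap, ← map_inv₀, ← map_inv₀]
        rw [e1]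
        exact Reg.algebraMap _ _
      · rw [Comp.v_mul _ hc0 (inv_ne_zero hp0), Comp.v_inv, hvc, hvp, hej,
          v_hh_ne B hco hz hM hj1, v_hh_ne B hco hz hM hij]
        norm_num
      · intro l hl
        right
        rw [Comp.v_mul _ hc0 (inv_ne_zero hp0), Comp.v_inv, hvc, hvp]
        rcases hall l hl with rfl | rfl
        · rw [v_hh_1, v_hh_ne B hco hz hM hi1]
          change 0 ≤ 12 * ((q - 1 : ℕ) : ℤ) + 0 + -((q - 1 : ℕ) : ℤ)
          have : (0 : ℤ) ≤ ((q - 1 : ℕ) : ℤ) := Int.natCast_nonneg _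
          linarith
        · rw [hv12, v_hh_ne B hco hz hM (fun h => hi1 h.symm), hei]
          norm_num
      · rw [hpu]
        have e1 : (M'.comp j).r c = (M'.comp j).r (hh M B 1) * (M'.comp j).r (hh M B i) :=
          Comp.r_mul (M'.memj (hh_mem_B B hco hz hM 1).1 j) (M'.memj (hh_mem_B B hco hz hM i).1 j)
        rw [e1, val_mul (M'.reg_r (hh_mem_B B hco hz hM 1) j Q (by rwa [cm_tb, ord_tb]))
          (M'.reg_r (hh_mem_B B hco hz hM i) j Q (by rwa [cm_tb, ord_tb]))]
        exact mul_ne_zero (mt (val_r_hh B hco hz hM hj1 hQ).1 hss)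
          (mt (val_r_hh B hco hz hM hij hQ).1 hss)

end Reg

end Fermat.Agent.CarM
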