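import Fermat.Agent.CarM.CuspT
import Fermat.Agent.CarM.Chart2
import Fermat.Agent.Car.Trans

/-!
# Regularity at the cusps
-/

set_option autoImplicit false
set_option linter.style.haveILetI false
set_option linter.unusedSectionVars false

noncomputable section

namespace Fermat.Agent.CarM

open ModularCurve Polynomial IntermediateField Fermat.Agent.ModPoly Fermat.Agent.Cusp AlgebraicCurve
open Fermat.Agent.SemiSt Fermat.Agent.CarE Fermat.Agent.Curve Fermat.Agent.RR Fermat.Agent.Nod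
open Fermat.Agent.Car

section Abs

variable {K E : Type*} [Field K] [Field E] [Algebra K E]

/-- `y` is close to `x ^ q` at a pole of `x` -/
def UpA (v : Place K E) (x y : E) (q : ℕ) : Prop :=
  v.ord y = q * v.ord x ∧ Ge v (((q : ℤ) - 1) * v.ord x) (x ^ q - y)

/-- the three types -/
def Ty (v : Place K E) (x t y : E) (q : ℕ) : Prop :=
  (UpA v x t q ∧ UpA v t y q) ∨ (UpA v x t q ∧ UpA v y t q) ∨ (UpA v y t q ∧ UpA v t x q)

theorem Ty.symm {v : Place K E} {x t y : E} {q : ℕ} (h : Ty v x t y q) : Ty v y t x q := by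
  rcases h with h | h | h
  · exact Or.inr (Or.inr h)
  · exact Or.inr (Or.inl ⟨h.2, h.1⟩)
  · exact Or.inl h

theorem ge_inv {v : Place K E} (x : E) : Ge v (-v.ord x) x⁻¹ := Ge.of_le (by rw [v.ord_inv])

theorem ge_self {v : Place K E} (x : E) : Ge v (v.ord x) x := Ge.of_le le_rfl

theorem UpA.ge_sub_one {v : Place K E} {x y : E} {q : ℕ} (h : UpA v x y q) (hx : x ≠ 0) :
    Ge v (-v.ord x) (y / x ^ q - 1) := by
  have h1 := (h.2.neg).mul (ge_inv (v := v) (x ^ q))
  have e1 : -(x ^ q - y) * (x ^ q)⁻¹ = y / x ^ q - 1 := by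
    field_simp
    ring
  rw [e1] at h1
  refine h1.mono ?_
  rw [ord_pow]
  apply le_of_eq
  ring

theorem Ty.reg_div {v : Place K E} {x t y : E} {q : ℕ} (h : Ty v x t y q) (hq : 1 ≤ q)
    (ht : v.ord t < 0) : Ge v 0 (x / t ^ q) := by
  have h1 := (ge_self (v := v) x).mul (ge_inv (v := v) (t ^ q))
  rw [← div_eq_mul_inv] at h1
  refine h1.mono ?_
  rw [ord_pow]
  have hq' : (1 : ℤ) ≤ q := by exact_mod_cast hq
  rcases h with h | h | h
  · have e1 := h.1.1
    have h3 : v.ord x < 0 := by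
      rw [e1] at ht
      by_contra hc
      push Not at hc
      have := mul_nonneg (by linarith : (0 : ℤ) ≤ q) hc
      linarith
    rw [e1]
    nlinarith [mul_nonneg (sub_nonneg.2 hq') (neg_nonneg.2 h3.le), mul_nonneg (mul_nonneg
      (sub_nonneg.2 hq') (sub_nonneg.2 hq')) (neg_nonneg.2 h3.le)]
  · have e1 := h.1.1
    have h3 : v.ord x < 0 := by
      rw [e1] at ht
      by_contra hc
      push Not at hc
      have := mul_nonneg (by linarith : (0 : ℤ) ≤ q) hc
      linarith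
    rw [e1]
    nlinarith [mul_nonneg (sub_nonneg.2 hq') (neg_nonneg.2 h3.le), mul_nonneg (mul_nonneg
      (sub_nonneg.2 hq') (sub_nonneg.2 hq')) (neg_nonneg.2 h3.le)]
  · rw [h.2.1]
    linarith

/-- the key regularity -/
theorem Ty.reg_key {v : Place K E} {x t y : E} {q n : ℕ} (h : Ty v x t y q) (hn : q = n + 1)
    (ht : v.ord t < 0) :
    Ge v 0 (((y / t ^ q - 1) * (x / t ^ q - 1)) ^ (q * q) * ((x - y) * x ^ n * t⁻¹)) := by
  have hq : 1 ≤ q := by omega
  have ht0 : t ≠ 0 := by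
    rintro rfl
    rw [v.ord_zero] at ht
    exact lt_irrefl _ ht
  have gx : Ge v 0 (x / t ^ q - 1) := (h.reg_div hq ht).sub (Ge.one v)
  have gy : Ge v 0 (y / t ^ q - 1) := (h.symm.reg_div hq ht).sub (Ge.one v)
  have hqn : (q : ℤ) = n + 1 := by exact_mod_cast hn
  have hn0 : (0 : ℤ) ≤ n := Int.natCast_nonneg n
  have gxn : Ge v (n * v.ord x) (x ^ n) := (ge_self x).pow n
  have gt : Ge v (-v.ord t) t⁻¹ := ge_inv t
  rcases h with h | h | h
  · have e1 := h.1.1
    have e2 := h.2.1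
    have g1 := h.2.ge_sub_one ht0
    have h3 : v.ord x < 0 := by
      rw [e1] at ht
      by_contra hc
      push Not at hc
      have := mul_nonneg (by linarith : (0 : ℤ) ≤ q) hc
      linarith
    have hxy : v.ord y ≤ v.ord x := by
      rw [e2, e1]
      nlinarith [mul_nonneg (sub_nonneg.2 (by linarith : (1 : ℤ) ≤ q)) (neg_nonneg.2 h3.le),
        mul_nonneg (mul_nonneg (sub_nonneg.2 (by linarith : (1 : ℤ) ≤ q))
        (sub_nonneg.2 (by linarith : (1 : ℤ) ≤ q))) (neg_nonneg.2 h3.le)]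
    have g2 : Ge v (v.ord y) (x - y) := ((ge_self x).mono hxy).sub (ge_self y)
    have g3 := ((g1.mul gx).pow (q * q)).mul ((g2.mul gxn).mul gt)
    refine g3.mono ?_
    rw [e2, e1, hqn]
    push_cast
    rw [hqn]
    set a := -v.ord x with ha
    have ha0 : 0 < a := by rw [ha]; linarith
    have e3 : v.ord x = -a := by rw [ha]; ring
    rw [e3]
    have : ((n : ℤ) + 1) * (n + 1) * (-((n + 1) * -a) + 0) + ((n + 1) * ((n + 1) * -a) + n * -a +
        -((n + 1) * -a)) = a * (n * (n + 1) * (n + 1) + 1) := by ring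
    rw [this]
    have h5 : (0 : ℤ) ≤ n * (n + 1) * (n + 1) := by positivity
    nlinarith
  · have e1 := h.1.1
    have e2 := h.2.1
    have h3 : v.ord x < 0 := by
      rw [e1] at ht
      by_contra hc
      push Not at hc
      have := mul_nonneg (by linarith : (0 : ℤ) ≤ q) hc
      linarith
    have hxy : v.ord y = v.ord x := by
      have h5 : (q : ℤ) * v.ord y = q * v.ord x := by rw [← e1, ← e2]
      exact mul_left_cancel₀ (by linarith) h5
    have g2 : Ge v (v.ord x) (x - y) := (ge_self x).sub (by rw [← hxy]; exact ge_self y)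
    have g3 := ((gy.mul gx).pow (q * q)).mul ((g2.mul gxn).mul gt)
    refine g3.mono ?_
    rw [e1, hqn]
    apply le_of_eq
    ring
  · have e1 := h.1.1
    have e2 := h.2.1
    have g1 := h.2.ge_sub_one ht0
    have h3 : v.ord y < 0 := by
      rw [e1] at ht
      by_contra hc
      push Not at hc
      have := mul_nonneg (by linarith : (0 : ℤ) ≤ q) hc
      linarith
    have hxy : v.ord x ≤ v.ord y := by
      rw [e2, e1]
      nlinarith [mul_nonneg (sub_nonneg.2 (by linarith : (1 : ℤ) ≤ q)) (neg_nonneg.2 h3.le),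
        mul_nonneg (mul_nonneg (sub_nonneg.2 (by linarith : (1 : ℤ) ≤ q))
        (sub_nonneg.2 (by linarith : (1 : ℤ) ≤ q))) (neg_nonneg.2 h3.le)]
    have g2 : Ge v (v.ord x) (x - y) := (ge_self x).sub ((ge_self y).mono hxy)
    have g3 := ((gy.mul g1).pow (q * q)).mul ((g2.mul gxn).mul gt)
    refine g3.mono ?_
    rw [e2, e1, hqn]
    push_cast
    rw [hqn]
    set a := -v.ord y with ha
    have ha0 : 0 < a := by rw [ha]; linarith
    have e3 : v.ord y = -a := by rw [ha]; ring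
    rw [e3]
    have : ((n : ℤ) + 1) * (n + 1) * (0 + -((n + 1) * -a)) + ((n + 1) * ((n + 1) * -a) +
        n * ((n + 1) * ((n + 1) * -a)) + -((n + 1) * -a)) = a * (n + 1) := by ring
    rw [this]
    nlinarith

end Abs

section Main

variable {Ω : Type*} [Field Ω] [IsAlgClosed Ω] [CharZero Ω] {q M : ℕ} [hq : Fact q.Prime]
  [NeZero M]

theorem ty (v : Place Ω (FF Ω (q ^ 2 * M))) (hv : v.ord (tt Ω q M) < 0) :
    Ty v (CarE.j1 Ω q M) (tt Ω q M) (jC Ω q M) q := by
  have h1 : v.ord (j0 Ω q M) < 0 := by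
    by_contra hc
    push Not at hc
    exact absurd ((j0_of_t0 v).2 hc) (not_le.2 hv)
  exact types v h1

theorem ge_j1 (v : Place Ω (FF Ω (q ^ 2 * M))) (hv : 0 ≤ v.ord (tt Ω q M)) :
    Ge v 0 (CarE.j1 Ω q M) := Ge.of_le ((j0_of_t0 v).1 hv)

theorem ge_jC (v : Place Ω (FF Ω (q ^ 2 * M))) (hv : 0 ≤ v.ord (tt Ω q M)) :
    Ge v 0 (jC Ω q M) := Ge.of_le (j2_of_t0 v hv)

theorem tt_ne : tt Ω q M ≠ 0 := by
  intro h
  have h1 : Jc (k := Ω) 1 (pp q * 1) = 0 := congrArg Subtype.val h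
  have h2 := order_Jc (k := Ω) 1 (pp q * 1)
  rw [h1, HahnSeries.order_zero] at h2
  have := (pp q * 1 : ℕ+).pos
  omega

/-- regular at the points where `t` is infinite -/
theorem regI_j1 : Reg Ω (tt Ω q M)⁻¹ (CarE.j1 Ω q M / tt Ω q M ^ q) := by
  intro v hv
  rw [v.ord_inv, neg_nonneg] at hv
  rcases hv.eq_or_lt with h | h
  · have h1 := (ge_j1 v h.ge).mul (ge_inv (v := v) (tt Ω q M ^ q))
    rw [← div_eq_mul_inv] at h1
    refine h1.mono ?_
    rw [ord_pow, h, mul_zero, neg_zero, add_zero]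
  · exact (ty v h).reg_div hq.out.pos h

theorem regI_jC : Reg Ω (tt Ω q M)⁻¹ (jC Ω q M / tt Ω q M ^ q) := by
  intro v hv
  rw [v.ord_inv, neg_nonneg] at hv
  rcases hv.eq_or_lt with h | h
  · have h1 := (ge_jC v h.ge).mul (ge_inv (v := v) (tt Ω q M ^ q))
    rw [← div_eq_mul_inv] at h1
    refine h1.mono ?_
    rw [ord_pow, h, mul_zero, neg_zero, add_zero]
  · exact (ty v h).symm.reg_div hq.out.pos h

theorem regI_key {n : ℕ} (hn : q = n + 1) : Reg Ω (tt Ω q M)⁻¹
    (((jC Ω q M / tt Ω q M ^ q - 1) * (CarE.j1 Ω q M / tt Ω q M ^ q - 1)) ^ (q * q) *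
      ((CarE.j1 Ω q M - jC Ω q M) * CarE.j1 Ω q M ^ n * (tt Ω q M)⁻¹)) := by
  intro v hv
  rw [v.ord_inv, neg_nonneg] at hv
  rcases hv.eq_or_lt with h | h
  · have hv' : 0 ≤ v.ord (tt Ω q M)⁻¹ := by rw [v.ord_inv, h, neg_zero]
    have g1 := (regI_jC v hv').sub (Ge.one v)
    have g2 := (regI_j1 v hv').sub (Ge.one v)
    have g3 := (ge_j1 v h.ge).sub (ge_jC v h.ge)
    have g4 := (ge_j1 v h.ge).pow n
    have g5 : Ge v 0 (tt Ω q M)⁻¹ := Ge.of_le hv'
    refine (((g1.mul g2).pow (q * q)).mul ((g3.mul g4).mul g5)).mono ?_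
    simp
  · exact (ty v h).reg_key hn h

end Main

end Fermat.Agent.CarM
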