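import Fermat.Agent.CarM.Chart2
import Fermat.Agent.Car.Node

/-!
# The intersection points of the finite chart
-/

set_option autoImplicit false
set_option linter.style.haveILetI false
set_option linter.unusedSectionVars false

noncomputable section

namespace Fermat.Agent.CarM

open ModularCurve Polynomial IntermediateField Fermat.Agent.ModPoly Fermat.Agent.Cusp AlgebraicCurve
open Fermat.Agent.SemiSt Fermat.Agent.CarE Fermat.Agent.HeckeProd Fermat.Agent.Curve
open Fermat.Agent.RedMod Fermat.Agent.Car Fermat.Agent.RR Fermat.Agent.Red Fermat.Agent.PRem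
open Fermat.Agent.ThmC Fermat.Agent.Nod

variable {R0 K0 A Ω k : Type*} [CommRing R0] [IsDomain R0] [IsDiscreteValuationRing R0]
  [Field K0] [Algebra R0 K0]
  [IsFractionRing R0 K0] [CommRing A] [IsDomain A] [ValuationRing A] [Field Ω]
  [IsAlgClosed Ω] [CharZero Ω]
  [Algebra A Ω] [IsFractionRing A Ω] [Field k] [Algebra A k] [Algebra K0 Ω] [Algebra R0 A]
  [Algebra R0 k] {q M : ℕ} [hq : Fact q.Prime] [NeZero M] [CharP k q]
  (B : Base q R0 K0 A Ω k) (hco : q.Coprime M)
  {z : Aˣ} (hz : z ^ q = 1 ∧ z ≠ 1) (hM : (M : k) ≠ 0)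
  [IsAlgClosed k] [FunField k (FF k M)] [FunField Ω (FF Ω M)]
  [FunField Ω (FF Ω (q ^ 2 * M))]

set_option synthInstance.maxHeartbeats 400000

theorem reg_of_place {x : FF k M} (hx : Reg k (jF' k M) x) (Q : Place k (FF k M))
    (hQ : 0 ≤ Q.ord (jF' k M)) : 0 ≤ Q.ord x := by
  rcases hx Q hQ with h | h
  · rw [h, Q.ord_zero]
  · exact h

/-- points of the outer and middle components with the same image have the same coordinate -/
theorem same_one (HL : Lifts M K0 A Ω k) {j : Fin 3} {Q Q' : Place k (FF k M)}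
    (hQ : 0 ≤ Q.ord (jF' k M)) (hQ' : 0 ≤ Q'.ord (jF' k M))
    (h : (cm B hco hz hM).SameAt j Q 1 Q') : Q = Q' := by
  apply FrobData.place_eq_of_val (RR.transcendental_jF M) hQ hQ'
  intro x hx
  obtain ⟨y, hy, hyr⟩ := HL.lift x (fun P hP => reg_of_place hx P hP)
  have hB := ic_mem_B hM (B := B) (hco := hco) (hz := hz) hy hyr
  match j with
  | 0 =>
    have := h _ hB
    rwa [r_ic0 hM hy, r_ic1 hM hy] at this
  | 1 =>
    have := h _ hB
    rwa [r_ic1 hM hy] at this
  | 2 =>
    have := h _ (w0_mem_B B hco hz hM hB)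
    have h1 := r_w0_2 B hco hz (FF k M) (res_mem B hco hz hM) (ic K0 q M y)
    have h2 := r_w0_1 B hco hz (FF k M) (res_mem B hco hz hM) (ic K0 q M y)
    have e1 : ((cm B hco hz hM).comp 2).r (w0 hco B.alg B.fixed (ic K0 q M y)) = x :=
      h1.trans (r_ic0 hM hy)
    have e2 : ((cm B hco hz hM).comp 1).r (w0 hco B.alg B.fixed (ic K0 q M y)) = x :=
      h2.trans (r_ic1 hM hy)
    rwa [e1, e2] at this

/-- the residue of the `i`-th modular unit on the `i`-th component -/
theorem r_hh_self (i : Fin 3) : ((cm B hco hz hM).comp i).r (hh M B i) = 0 := by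
  rw [Comp.r_eq_zero_iff ((hasL_hh B hco hz i).mem i)]
  right
  match i with
  | 0 => rw [v_hh_0]; norm_num
  | 1 =>
    rw [v_hh_1]
    have := hq.out.two_le
    have h1 : (1 : ℤ) ≤ ((q - 1 : ℕ) : ℤ) := by
      have : 1 ≤ q - 1 := by omega
      exact_mod_cast this
    linarith
  | 2 => rw [v_hh_2]; norm_num

/-- the points on two components are supersingular -/
theorem hs_of_same {j i : Fin 3} {Q Q' : Place k (FF k M)} (hji : j ≠ i)
    (hQ : 0 ≤ Q.ord (jF' k M))
    (h : (cm B hco hz hM).SameAt j Q i Q') : val Q (hs k q M) = 0 := by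
  rw [← val_r_hh B hco hz hM hji.symm hQ, h _ (hh_mem_B B hco hz hM i), r_hh_self, val_zero]

/-- supersingular points lie on the middle component -/
theorem exists_one (HL : Lifts M K0 A Ω k) {j : Fin 3} {Q : Place k (FF k M)}
    (hQ : 0 ≤ Q.ord (jF' k M)) (hss : val Q (hs k q M) = 0) (l : Fin 3) :
    ∃ Q' : Place k (FF k M), 0 ≤ Q'.ord (jF' k M) ∧ (cm B hco hz hM).SameAt j Q l Q' := by
  by_cases hjl : l = j
  · subst hjl
    exact ⟨Q, hQ, fun x _ => rfl⟩
  · exact thru_ss B hco hz hM HL hQ l ((val_r_hh B hco hz hM hjl hQ).2 hss)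

/-- a supersingular point lies on all components, with the same coordinate -/
theorem same_all (HL : Lifts M K0 A Ω k) {j : Fin 3} {Q : Place k (FF k M)}
    (hQ : 0 ≤ Q.ord (jF' k M)) (hss : val Q (hs k q M) = 0) (l : Fin 3) :
    (cm B hco hz hM).SameAt j Q l Q := by
  obtain ⟨Q1, hQ1, h1⟩ := exists_one B hco hz hM HL (j := j) hQ hss 1
  have e1 := same_one B hco hz hM HL hQ hQ1 h1
  subst e1
  obtain ⟨Q2, hQ2, h2⟩ := exists_one B hco hz hM HL (j := 1) hQ hss l
  have e2 := same_one B hco hz hM HL hQ2 hQ (CModel.SameAt.symm _ h2)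
  subst e2
  exact CModel.SameAt.trans _ h1 h2

/-- **the intersection points of the finite chart** -/
theorem node (HL : Lifts M K0 A Ω k) : (cm B hco hz hM).Node := by
  intro j Q i Q' hQ hQ' hs hji
  rw [cm_tb, ord_tb] at hQ hQ'
  have hss := hs_of_same B hco hz hM hji hQ hs
  have hss' := hs_of_same B hco hz hM hji.symm hQ' (CModel.SameAt.symm _ hs)
  have h1 := same_all B hco hz hM HL (j := j) hQ hss 1
  have h2 := same_all B hco hz hM HL (j := i) hQ' hss' 1
  have h3 : (cm B hco hz hM).SameAt 1 Q 1 Q' :=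
    CModel.SameAt.trans _ (CModel.SameAt.symm _ h1) (CModel.SameAt.trans _ hs h2)
  refine ⟨same_one B hco hz hM HL hQ hQ' h3, fun l => ⟨?_, same_all B hco hz hM HL hQ hss l⟩⟩
  rw [cm_tb, ord_tb]
  exact hQ

end Fermat.Agent.CarM
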