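import Fermat.Agent.CarM.RegI
import Fermat.Agent.CarM.NodeM
import Fermat.Agent.CarE.Nm4

/-!
# The chart at infinity: local equations at the cusps
-/

set_option autoImplicit false
set_option linter.style.haveILetI false
set_option linter.unusedSectionVars false

noncomputable section

namespace Fermat.Agent.CarM

open ModularCurve Polynomial IntermediateField Fermat.Agent.ModPoly Fermat.Agent.Cusp AlgebraicCurve
open Fermat.Agent.SemiSt Fermat.Agent.CarE Fermat.Agent.HeckeProd Fermat.Agent.Curve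
open Fermat.Agent.RedMod Fermat.Agent.Car Fermat.Agent.RR Fermat.Agent.Red Fermat.Agent.PRem
open Fermat.Agent.ThmC Fermat.Agent.Nod

variable {R0 K0 A Ω k : Type*} [CommRing R0] [IsDomain R0] [IsDiscreteValuationRing R0]
  [Field K0] [Algebra R0 K0]
  [IsFractionRing R0 K0] [CommRing A] [IsDomain A] [ValuationRing A] [Field Ω]
  [IsAlgClosed Ω] [CharZero Ω]
  [Algebra A Ω] [IsFractionRing A Ω] [Field k] [Algebra A k] [Algebra K0 Ω] [Algebra R0 A]
  [Algebra R0 k] {q M : ℕ} [hq : Fact q.Prime] [NeZero M] [CharP k q]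
  (B : Base q R0 K0 A Ω k) (hco : q.Coprime M)
  {z : Aˣ} (hz : z ^ q = 1 ∧ z ≠ 1) (hM : (M : k) ≠ 0)

set_option synthInstance.maxHeartbeats 400000

/-- `j / t ^ q` -/
def xa (K : Type*) [Field K] (q M : ℕ) [Fact q.Prime] [NeZero M] : FF K (q ^ 2 * M) :=
  CarE.j1 K q M / tt K q M ^ q

/-- `j(q²τ) / t ^ q` -/
def xc (K : Type*) [Field K] (q M : ℕ) [Fact q.Prime] [NeZero M] : FF K (q ^ 2 * M) :=
  jC K q M / tt K q M ^ q

theorem emb_j1 : CarE.emb K0 Ω (q ^ 2 * M) (CarE.j1 K0 q M) = CarE.j1 Ω q M := emb_jm _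

theorem emb_jC : CarE.emb K0 Ω (q ^ 2 * M) (jC K0 q M) = jC Ω q M := emb_jm _

theorem emb_tt' : CarE.emb K0 Ω (q ^ 2 * M) (tt K0 q M) = tt Ω q M := emb_jm _

theorem emb_xa : CarE.emb K0 Ω (q ^ 2 * M) (xa K0 q M) = xa Ω q M := by
  rw [xa, map_div₀, map_pow, emb_j1, emb_tt', xa]

theorem emb_xc : CarE.emb K0 Ω (q ^ 2 * M) (xc K0 q M) = xc Ω q M := by
  rw [xc, map_div₀, map_pow, emb_jC, emb_tt', xc]

/-! ### residues -/

/-- exponents of the residues of `j` -/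
def aJ (q : ℕ) : Fin 3 → ℕ
  | 0 => 1
  | 1 => 1
  | 2 => q * q

/-- exponents of the residues of `j(q²τ)` -/
def cJ (q : ℕ) : Fin 3 → ℕ
  | 0 => q * q
  | 1 => 1
  | 2 => 1

theorem coe_jF : ((jF' k M : FF k M) : LaurentSeries k) = jqModC k := Jc_one_one

theorem r_tt (j : Fin 3) : ((cm B hco hz hM).comp j).r (tt K0 q M) = jF' k M ^ q :=
  cm_tb B hco hz hM j

theorem v_tt (j : Fin 3) : ((cm B hco hz hM).comp j).v (tt K0 q M) = 0 := (cm B hco hz hM).v_t j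

theorem r_j1 (j : Fin 3) : ((cm B hco hz hM).comp j).r (CarE.j1 K0 q M) = jF' k M ^ aJ q j := by
  apply Subtype.ext
  rw [coe_r_cm hM (hasL_j1 B hco hz (M := M)) j, SubmonoidClass.coe_pow, coe_jF]
  match j with
  | 0 => exact red_sj0.trans (pow_one _).symm
  | 1 => exact red_sj1.trans (pow_one _).symm
  | 2 => exact red_sj2

theorem r_jC (j : Fin 3) : ((cm B hco hz hM).comp j).r (jC K0 q M) = jF' k M ^ cJ q j := by
  apply Subtype.ext
  rw [coe_r_cm hM (hasL_jC B hco hz (M := M)) j, SubmonoidClass.coe_pow, coe_jF]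
  match j with
  | 0 => exact red_sC0
  | 1 => exact (red_sC1 hz).trans (pow_one _).symm
  | 2 => exact red_sC2.trans (pow_one _).symm

theorem v_ttq (j : Fin 3) (n : ℕ) : ((cm B hco hz hM).comp j).v (tt K0 q M ^ n) = 0 := by
  rw [Comp.v_pow, v_tt, mul_zero]

theorem mem_tt (j : Fin 3) : tt K0 q M ∈ ((cm B hco hz hM).comp j).W :=
  (cm B hco hz hM).t_memj j

theorem mem_j1 (j : Fin 3) : CarE.j1 K0 q M ∈ ((cm B hco hz hM).comp j).W :=
  (hasL_j1 B hco hz (M := M)).mem j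

theorem mem_jC (j : Fin 3) : jC K0 q M ∈ ((cm B hco hz hM).comp j).W :=
  (hasL_jC B hco hz (M := M)).mem j

theorem mem_div {j : Fin 3} {x y : FF K0 (q ^ 2 * M)} (hx : x ∈ ((cm B hco hz hM).comp j).W)
    (hy : ((cm B hco hz hM).comp j).v y = 0) : x / y ∈ ((cm B hco hz hM).comp j).W := by
  rw [div_eq_mul_inv]
  exact mul_mem hx (Comp.mem_of_v (by rw [Comp.v_inv, hy, neg_zero]))

theorem mem_xa (j : Fin 3) : xa K0 q M ∈ ((cm B hco hz hM).comp j).W :=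
  mem_div B hco hz hM (mem_j1 B hco hz hM j) (v_ttq B hco hz hM j q)

theorem mem_xc (j : Fin 3) : xc K0 q M ∈ ((cm B hco hz hM).comp j).W :=
  mem_div B hco hz hM (mem_jC B hco hz hM j) (v_ttq B hco hz hM j q)

theorem r_xa (j : Fin 3) : ((cm B hco hz hM).comp j).r (xa K0 q M) =
    jF' k M ^ aJ q j / jF' k M ^ (q * q) := by
  rw [xa, Comp.r_div (mem_j1 B hco hz hM j) (v_ttq B hco hz hM j q), r_j1,
    Comp.r_pow (mem_tt B hco hz hM j), r_tt, ← pow_mul]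

theorem r_xc (j : Fin 3) : ((cm B hco hz hM).comp j).r (xc K0 q M) =
    jF' k M ^ cJ q j / jF' k M ^ (q * q) := by
  rw [xc, Comp.r_div (mem_jC B hco hz hM j) (v_ttq B hco hz hM j q), r_jC,
    Comp.r_pow (mem_tt B hco hz hM j), r_tt, ← pow_mul]

theorem jF_ne : jF' k M ≠ 0 := by
  intro h
  have h1 : Jc (k := k) 1 1 = 0 := congrArg Subtype.val h
  have h2 := order_Jc (k := k) 1 1
  rw [h1, HahnSeries.order_zero] at h2
  have := (1 : ℕ+).pos
  omega

variable (k q M) in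
/-- `J / J ^ (q²)` -/
def gq : FF k M := jF' k M / jF' k M ^ (q * q)

theorem r_xa0 : ((cm B hco hz hM).comp 0).r (xa K0 q M) = gq k q M := by
  rw [r_xa]; change jF' k M ^ 1 / _ = _; rw [pow_one]; rfl

theorem r_xa1 : ((cm B hco hz hM).comp 1).r (xa K0 q M) = gq k q M := by
  rw [r_xa]; change jF' k M ^ 1 / _ = _; rw [pow_one]; rfl

theorem r_xa2 : ((cm B hco hz hM).comp 2).r (xa K0 q M) = 1 := by
  rw [r_xa]; exact div_self (pow_ne_zero _ jF_ne)

theorem r_xc0 : ((cm B hco hz hM).comp 0).r (xc K0 q M) = 1 := by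
  rw [r_xc]; exact div_self (pow_ne_zero _ jF_ne)

theorem r_xc1 : ((cm B hco hz hM).comp 1).r (xc K0 q M) = gq k q M := by
  rw [r_xc]; change jF' k M ^ 1 / _ = _; rw [pow_one]; rfl

theorem r_xc2 : ((cm B hco hz hM).comp 2).r (xc K0 q M) = gq k q M := by
  rw [r_xc]; change jF' k M ^ 1 / _ = _; rw [pow_one]; rfl

section Cusps

variable [IsAlgClosed k] [FunField k (FF k M)] {Q : Place k (FF k M)} (hQ : Q.ord (jF' k M) < 0)

include hQ

theorem ge_gq : Ge Q 1 (gq k q M) := by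
  apply Ge.of_le
  rw [gq, div_eq_mul_inv, Q.ord_mul jF_ne (inv_ne_zero (pow_ne_zero _ jF_ne)), Q.ord_inv,
    ord_pow]
  have h2 : (2 : ℤ) ≤ q := by exact_mod_cast hq.out.two_le
  push_cast
  have h4 : (4 : ℤ) ≤ q * q := by nlinarith
  have h5 : 0 ≤ -Q.ord (jF' k M) - 1 := by omega
  nlinarith [mul_nonneg h5 (sub_nonneg.2 h4)]

theorem ge_gq0 : Ge Q 0 (gq k q M) := (ge_gq hQ).mono (by norm_num)

theorem val_gq : val Q (gq k q M) = 0 := val_of_pos (ge_gq hQ)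

theorem ge_gq_sub : Ge Q 0 (gq k q M - 1) := (ge_gq0 hQ).sub (Ge.one Q)

theorem val_gq_sub : val Q (gq k q M - 1) = -1 := by
  rw [val_sub (ge_gq0 hQ) (Ge.one Q), val_gq hQ, val_one, zero_sub]

end Cusps

section Chart

variable [IsAlgClosed k] [FunField k (FF k M)] [FunField Ω (FF Ω M)]
  [FunField Ω (FF Ω (q ^ 2 * M))]

theorem inv_t_emb : (cm B hco hz hM).inv.emb (cm B hco hz hM).inv.t = (tt Ω q M)⁻¹ := by
  change CarE.emb K0 Ω (q ^ 2 * M) (tt K0 q M)⁻¹ = _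
  rw [map_inv₀, emb_tt]

theorem mem_invB {x : FF K0 (q ^ 2 * M)} (h : ∀ j, x ∈ ((cm B hco hz hM).comp j).W)
    (h' : Reg Ω (tt Ω q M)⁻¹ (CarE.emb K0 Ω (q ^ 2 * M) x)) :
    x ∈ (cm B hco hz hM).inv.B := by
  refine ⟨((cm B hco hz hM).inv.mem_W x).2 h, ?_⟩
  rw [inv_t_emb]
  exact h'

theorem regI_xa : Reg Ω (tt Ω q M)⁻¹ (CarE.emb K0 Ω (q ^ 2 * M) (xa K0 q M)) := by
  rw [emb_xa]; exact regI_j1

theorem regI_xc : Reg Ω (tt Ω q M)⁻¹ (CarE.emb K0 Ω (q ^ 2 * M) (xc K0 q M)) := by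
  rw [emb_xc]; exact regI_jC

theorem reg_pow {E : Type*} [Field E] [Algebra Ω E] {t x : E} (h : Reg Ω t x) (n : ℕ) :
    Reg Ω t (x ^ n) := by
  intro v hv
  exact ((h v hv).pow n).mono (by simp)

theorem mem_sub_one {j : Fin 3} {x : FF K0 (q ^ 2 * M)}
    (hx : x ∈ ((cm B hco hz hM).comp j).W) : x - 1 ∈ ((cm B hco hz hM).comp j).W :=
  sub_mem hx (one_mem _)

theorem r_sub_one {j : Fin 3} {x : FF K0 (q ^ 2 * M)} (hx : x ∈ ((cm B hco hz hM).comp j).W) :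
    ((cm B hco hz hM).comp j).r (x - 1) = ((cm B hco hz hM).comp j).r x - 1 := by
  rw [Comp.r_sub hx (one_mem _), Comp.r_one]

/-- the statement at a point -/
def StarI (j : Fin 3) (Q : Place k (FF k M)) : Prop :=
    ∃ u ∈ (cm B hco hz hM).inv.B, ((cm B hco hz hM).inv.comp j).v u = 1 ∧
      ∃ z, Reg Ω ((cm B hco hz hM).inv.emb (cm B hco hz hM).inv.t) ((cm B hco hz hM).inv.emb z) ∧
      ((cm B hco hz hM).inv.comp j).v z = -1 ∧
      (∀ l, l ≠ j → ((cm B hco hz hM).inv.comp l).Ge 0 z) ∧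
      val Q (((cm B hco hz hM).inv.comp j).r (u * z)) ≠ 0

/-- outer components -/
theorem star_outer {Q : Place k (FF k M)} (j : Fin 3) (hj : ee q j = 1)
    (y : FF K0 (q ^ 2 * M)) (hy : ∀ l, y ∈ ((cm B hco hz hM).comp l).W)
    (hyr : Reg Ω (tt Ω q M)⁻¹ (CarE.emb K0 Ω (q ^ 2 * M) y))
    (hv1 : val Q (((cm B hco hz hM).comp j).r y) ≠ 0)
    (hv2 : val Q (((cm B hco hz hM).comp j).r (xa K0 q M - xc K0 q M)) ≠ 0)
    (hoth : ∀ l, l ≠ j → l = 1 ∨ (ee q l = 1 ∧ ((cm B hco hz hM).comp l).r y = 0)) :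
    StarI B hco hz hM j Q := by
  haveI := B.alg
  set M' := cm B hco hz hM with hM'
  let p : FF K0 (q ^ 2 * M) := algebraMap R0 (FF K0 (q ^ 2 * M)) (q : R0)
  have hvp : ∀ l, (M'.comp l).v p = ee q l := fun l => M'.v_p l
  have hp0 : p ≠ 0 := by
    intro h0
    have h1 := hvp j
    rw [h0, Comp.v_zero, hj] at h1
    norm_num at h1
  have hmd : ∀ l, xa K0 q M - xc K0 q M ∈ (M'.comp l).W := fun l =>
    sub_mem (mem_xa B hco hz hM l) (mem_xc B hco hz hM l)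
  let c := (xa K0 q M - xc K0 q M) ^ (q - 1) * y
  have hcW : ∀ l, c ∈ (M'.comp l).W := fun l => mul_mem (pow_mem (hmd l) _) (hy l)
  have hcr : (M'.comp j).r c =
      (M'.comp j).r (xa K0 q M - xc K0 q M) ^ (q - 1) * (M'.comp j).r y := by
    rw [Comp.r_mul (pow_mem (hmd j) _) (hy j), Comp.r_pow (hmd j)]
  have hcval : val Q ((M'.comp j).r c) ≠ 0 := by
    rw [hcr, val_mul (ge_zero_pow (ge_of_val_ne hv2) _) (ge_of_val_ne hv1),
      val_pow (ge_of_val_ne hv2)]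
    exact mul_ne_zero (pow_ne_zero _ hv2) hv1
  have hc0 : c ≠ 0 := by
    intro h0
    apply hcval
    rw [h0, Comp.r_zero, val_zero]
  have hvc : (M'.comp j).v c = 0 := by
    rw [← Comp.r_ne_zero_iff hc0]
    intro h0
    apply hcval
    rw [h0, val_zero]
  have hcreg : Reg Ω (tt Ω q M)⁻¹ (CarE.emb K0 Ω (q ^ 2 * M) c) := by
    have e1 : CarE.emb K0 Ω (q ^ 2 * M) c = (CarE.emb K0 Ω (q ^ 2 * M) (xa K0 q M) -
        CarE.emb K0 Ω (q ^ 2 * M) (xc K0 q M)) ^ (q - 1) * CarE.emb K0 Ω (q ^ 2 * M) y := by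
      rw [← map_sub, ← map_pow, ← map_mul]
    rw [e1]
    exact (reg_pow (regI_xa.sub regI_xc) _).mul hyr
  have hpu : p * (c * p⁻¹) = c := by rw [mul_comm c, mul_inv_cancel_left₀ hp0]
  refine ⟨p, M'.inv.algebraMap_mem_B (q : R0), ?_, c * p⁻¹, ?_, ?_, ?_, ?_⟩
  · change (M'.comp j).v p = 1
    rw [hvp, hj, Nat.cast_one]
  · rw [inv_t_emb]
    change Reg Ω _ (CarE.emb K0 Ω (q ^ 2 * M) (c * p⁻¹))
    rw [map_mul]
    refine hcreg.mul ?_
    have e1 : CarE.emb K0 Ω (q ^ 2 * M) p⁻¹ =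
        algebraMap Ω _ (algebraMap K0 Ω (algebraMap R0 K0 (q : R0))⁻¹) := by
      rw [map_inv₀]
      change (CarE.emb K0 Ω (q ^ 2 * M) (algebraMap R0 (FF K0 (q ^ 2 * M)) (q : R0)))⁻¹ = _
      rw [algebraMap_R0, emb_algebraMap, ← map_inv₀, ← map_inv₀]
    rw [e1]
    exact Reg.algebraMap _ _
  · change (M'.comp j).v (c * p⁻¹) = -1
    rw [Comp.v_mul _ hc0 (inv_ne_zero hp0), Comp.v_inv, hvc, hvp, hj]
    norm_num
  · intro l hl
    change (M'.comp l).Ge 0 (c * p⁻¹)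
    have hpg : (M'.comp l).Ge (-(ee q l : ℤ)) p⁻¹ := by
      right
      rw [Comp.v_inv, hvp]
    have hyg : (M'.comp l).Ge 0 y := Comp.ge_of_mem (hy l)
    have hdg : (M'.comp l).Ge 0 (xa K0 q M - xc K0 q M) := Comp.ge_of_mem (hmd l)
    rcases hoth l hl with rfl | ⟨hl1, hl2⟩
    · have h1 : (M'.comp 1).Ge 1 (xa K0 q M - xc K0 q M) := by
        rw [← Comp.r_eq_zero_iff (hmd 1), Comp.r_sub (mem_xa B hco hz hM 1)
          (mem_xc B hco hz hM 1), r_xa1, r_xc1, sub_self]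
      have h2 := ((h1.pow (q - 1)).mul hyg).mul hpg
      refine h2.mono ?_
      change (0 : ℤ) ≤ ((q - 1 : ℕ) : ℤ) * 1 + 0 + -((q - 1 : ℕ) : ℤ)
      linarith
    · have h1 : (M'.comp l).Ge 1 y := (Comp.r_eq_zero_iff (hy l)).1 hl2
      have h2 := ((hdg.pow (q - 1)).mul h1).mul hpg
      refine h2.mono ?_
      rw [hl1]
      norm_num
  · change val Q ((M'.comp j).r (p * (c * p⁻¹))) ≠ 0
    rw [hpu]
    exact hcval

/-- the cusps of the first component -/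
theorem starI_zero {Q : Place k (FF k M)} (hQ : Q.ord (jF' k M) < 0) :
    StarI B hco hz hM 0 Q := by
  refine star_outer B hco hz hM 0 rfl (xa K0 q M - 1)
    (fun l => mem_sub_one B hco hz hM (mem_xa B hco hz hM l)) ?_ ?_ ?_ ?_
  · rw [map_sub, map_one]
    exact regI_xa.sub (Reg.one _)
  · rw [r_sub_one B hco hz hM (mem_xa B hco hz hM 0), r_xa0, val_gq_sub hQ]
    exact neg_ne_zero.2 one_ne_zero
  · rw [Comp.r_sub (mem_xa B hco hz hM 0) (mem_xc B hco hz hM 0), r_xa0, r_xc0, val_gq_sub hQ]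
    exact neg_ne_zero.2 one_ne_zero
  · intro l hl
    match l, hl with
    | 0, hl => exact absurd rfl hl
    | 1, _ => exact Or.inl rfl
    | 2, _ =>
      refine Or.inr ⟨rfl, ?_⟩
      rw [r_sub_one B hco hz hM (mem_xa B hco hz hM 2), r_xa2, sub_self]

/-- the cusps of the third component -/
theorem starI_two {Q : Place k (FF k M)} (hQ : Q.ord (jF' k M) < 0) :
    StarI B hco hz hM 2 Q := by
  refine star_outer B hco hz hM 2 rfl (xc K0 q M - 1)
    (fun l => mem_sub_one B hco hz hM (mem_xc B hco hz hM l)) ?_ ?_ ?_ ?_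
  · rw [map_sub, map_one]
    exact regI_xc.sub (Reg.one _)
  · rw [r_sub_one B hco hz hM (mem_xc B hco hz hM 2), r_xc2, val_gq_sub hQ]
    exact neg_ne_zero.2 one_ne_zero
  · rw [Comp.r_sub (mem_xa B hco hz hM 2) (mem_xc B hco hz hM 2), r_xa2, r_xc2]
    have e : (1 : FF k M) - gq k q M = -(gq k q M - 1) := by ring
    rw [e, val_neg (ge_gq_sub hQ), val_gq_sub hQ, neg_neg]
    exact one_ne_zero
  · intro l hl
    match l, hl with
    | 2, hl => exact absurd rfl hl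
    | 1, _ => exact Or.inl rfl
    | 0, _ =>
      refine Or.inr ⟨rfl, ?_⟩
      rw [r_sub_one B hco hz hM (mem_xc B hco hz hM 0), r_xc0, sub_self]

end Chart

end Fermat.Agent.CarM
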