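import Fermat.Agent.CarM.ChartI2
import Fermat.Agent.CarE.Sinf3

/-!
# Descent of the roots of the norms, and the geometric theorem
-/

set_option autoImplicit false
set_option linter.style.haveILetI false
set_option linter.unusedSectionVars false

noncomputable section

namespace Fermat.Agent.CarM

open ModularCurve Polynomial IntermediateField Fermat.Agent.ModPoly Fermat.Agent.Cusp AlgebraicCurve
open Fermat.Agent.SemiSt Fermat.Agent.CarE Fermat.Agent.HeckeProd Fermat.Agent.Curve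
open Fermat.Agent.RedMod Fermat.Agent.Car Fermat.Agent.RR Fermat.Agent.Red Fermat.Agent.PRem
open Fermat.Agent.Nod

section Desc

variable {K0 Ω : Type*} [Field K0] [Field Ω] [IsAlgClosed Ω] [CharZero Ω] [Algebra K0 Ω]
  {N : ℕ} [NeZero N]

theorem leadingCoeff_pow' (x : LaurentSeries Ω) (n : ℕ) :
    (x ^ n).leadingCoeff = x.leadingCoeff ^ n := by
  induction n with
  | zero => rw [pow_zero, pow_zero, HahnSeries.leadingCoeff_one]
  | succ n ih => rw [pow_succ, HahnSeries.leadingCoeff_mul, ih, pow_succ]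

/-- roots descend up to constants -/
theorem exists_root_desc (halg : Algebra.IsAlgebraic K0 Ω)
    (hfix : ∀ x : Ω, (∀ σ : Ω ≃ₐ[K0] Ω, σ x = x) → x ∈ Set.range (algebraMap K0 Ω))
    {g : FF K0 N} (hg : g ≠ 0) {Y : FF Ω N} {m : ℕ} (hm : m ≠ 0)
    (h : CarE.emb K0 Ω N g = Y ^ m) :
    ∃ (c : K0) (z : FF K0 N), g = algebraMap K0 (FF K0 N) c * z ^ m := by
  haveI : FunField Ω (FF Ω N) := funField_FF (natCast_ne_zero_K Ω N)
  have hg' : CarE.emb K0 Ω N g ≠ 0 := (_root_.map_ne_zero _).2 hg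
  have hY : Y ≠ 0 := by
    rintro rfl
    rw [zero_pow hm] at h
    exact hg' h
  have hYL : (Y : LaurentSeries Ω) ≠ 0 := fun h => hY (Subtype.ext h)
  set n0 := (Y : LaurentSeries Ω).order with hn0
  set a := (Y : LaurentSeries Ω).coeff n0 with ha
  have ha0 : a ≠ 0 := mt HahnSeries.coeff_order_eq_zero.1 hYL
  -- the leading coefficient
  have hgL : (g : LaurentSeries K0) ≠ 0 := fun h => hg (Subtype.ext h)
  have hlead : ∃ b : K0, algebraMap K0 Ω b = a ^ m := by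
    have h1 : (Y : LaurentSeries Ω) ^ m = coeffMap (algebraMap K0 Ω) (g : LaurentSeries K0) := by
      rw [← coe_emb, h]; rfl
    have h2 : ((Y : LaurentSeries Ω) ^ m).leadingCoeff = a ^ m := by
      rw [leadingCoeff_pow']
      congr 1
      rw [ha, hn0, HahnSeries.leadingCoeff_eq]
    have h3 : ((Y : LaurentSeries Ω) ^ m).leadingCoeff =
        ((Y : LaurentSeries Ω) ^ m).coeff ((Y : LaurentSeries Ω) ^ m).order :=
      HahnSeries.leadingCoeff_eq
    rw [h1, coeffMap_coeff, ← h1, h2] at h3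
    exact ⟨_, h3.symm⟩
  obtain ⟨b, hb⟩ := hlead
  have hb0 : b ≠ 0 := by
    rintro rfl
    rw [map_zero] at hb
    exact pow_ne_zero m ha0 hb.symm
  set Y' : FF Ω N := algebraMap Ω (FF Ω N) a⁻¹ * Y with hY'
  have hac : algebraMap Ω (FF Ω N) a⁻¹ ≠ 0 := (_root_.map_ne_zero _).2 (inv_ne_zero ha0)
  have hY'0 : Y' ≠ 0 := mul_ne_zero hac hY
  have hpow : Y' ^ m = CarE.emb K0 Ω N (algebraMap K0 (FF K0 N) b⁻¹ * g) := by
    rw [map_mul, h, hY', mul_pow, emb_algebraMap, map_inv₀ (algebraMap K0 Ω), hb, ← map_pow,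
      inv_pow]
  have hcoeff : (Y' : LaurentSeries Ω).coeff n0 = 1 := by
    have e1 : (Y' : LaurentSeries Ω) = HahnSeries.C a⁻¹ * (Y : LaurentSeries Ω) := by
      rw [hY', MulMemClass.coe_mul]
      congr 1
      change algebraMap Ω (LaurentSeries Ω) _ = _
      rw [algebraMap_eq_C]
    rw [e1, HahnSeries.C_mul_eq_smul, HahnSeries.coeff_smul, smul_eq_mul]
    exact inv_mul_cancel₀ ha0
  have hfixed : ∀ σ : Ω ≃ₐ[K0] Ω, CarE.gal N σ Y' = Y' := by
    intro σ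
    obtain ⟨d, hd, he⟩ := exists_const_of_pow_eq (k := Ω) hm hY'0 (u := CarE.gal N σ Y') (by
      rw [← map_pow, hpow]; exact gal_emb σ _)
    have h1 : (CarE.gal N σ Y' : LaurentSeries Ω).coeff n0 = 1 := by
      rw [gal_coeff, hcoeff, map_one]
    have e1 : (CarE.gal N σ Y' : LaurentSeries Ω) = HahnSeries.C d * (Y' : LaurentSeries Ω) := by
      rw [he, MulMemClass.coe_mul]
      congr 1
      change algebraMap Ω (LaurentSeries Ω) _ = _
      rw [algebraMap_eq_C]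
    rw [e1, HahnSeries.C_mul_eq_smul, HahnSeries.coeff_smul, smul_eq_mul, hcoeff, mul_one] at h1
    rw [he, h1, map_one, one_mul]
  haveI := halg
  obtain ⟨z, hz⟩ := CarE.exists_of_fixed (N := N) hfix hfixed
  refine ⟨b, z, ?_⟩
  have h4 : CarE.emb K0 Ω N (z ^ m) = CarE.emb K0 Ω N (algebraMap K0 (FF K0 N) b⁻¹ * g) := by
    rw [map_pow, hz, hpow]
  have h5 := CarE.emb_injective (K := K0) (Ω := Ω) h4
  rw [h5, ← mul_assoc, ← map_mul, mul_inv_cancel₀ hb0, map_one, one_mul]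

end Desc

variable {R0 K0 A Ω k : Type*} [CommRing R0] [IsDomain R0] [IsDiscreteValuationRing R0]
  [Field K0] [Algebra R0 K0]
  [IsFractionRing R0 K0] [CommRing A] [IsDomain A] [ValuationRing A] [Field Ω]
  [IsAlgClosed Ω] [CharZero Ω] [CharZero K0]
  [Algebra A Ω] [IsFractionRing A Ω] [Field k] [Algebra A k] [Algebra K0 Ω] [Algebra R0 A]
  [Algebra R0 k] {q M : ℕ} [hq : Fact q.Prime] [NeZero M] [CharP k q]
  (B : Base q R0 K0 A Ω k) (hco : q.Coprime M)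
  {z : Aˣ} (hz : z ^ q = 1 ∧ z ≠ 1) (hM : (M : k) ≠ 0)
  [IsAlgClosed k]

set_option synthInstance.maxHeartbeats 400000

/-- the norms as powers -/
theorem NN0_desc {ζ : Ωˣ} (hζ : IsPrimitiveRoot ζ q) {m : ℕ} (hm : m ≠ 0)
    {f : FF K0 (q ^ 2 * M)} (hf : f ≠ 0)
    (h : ∃ y : FF Ω (q * M), NN q ζ (CarE.w2 Ω hco (CarE.emb K0 Ω (q ^ 2 * M) f) :
      LaurentSeries Ω) = (y : LaurentSeries Ω) ^ m) :
    ∃ (c : K0) (y : FF K0 (q ^ 2 * M)),
      NN0 hco B.alg B.fixed f = algebraMap K0 (FF K0 (q ^ 2 * M)) c * y ^ m := by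
  obtain ⟨y, hy⟩ := h
  have h1 : w Ω hco (Nm2 Ω q M (CarE.emb K0 Ω (q ^ 2 * M) f)) = y ^ m := by
    apply Subtype.ext
    rw [coe_w_Nm2 hco hζ, hy, SubmonoidClass.coe_pow]
  have h2 : Nm2 Ω q M (CarE.emb K0 Ω (q ^ 2 * M) f) = ((w Ω hco).symm y) ^ m := by
    rw [← map_pow, ← h1, AlgEquiv.symm_apply_apply]
  have h3 : CarE.emb K0 Ω (q ^ 2 * M) (NN0 hco B.alg B.fixed f) =
      (incl Ω (dvd_low q M) ((w Ω hco).symm y)) ^ m := by
    rw [emb_NN0, NL_apply, h2, map_pow]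
  exact exists_root_desc B.alg B.fixed (NN0_ne B hco hf) hm h3

include B hz hM in
/-- **The geometric theorem.** -/
theorem geo (HL : Lifts M K0 A Ω k) (ι : Ω →+* ℂ) {ζ : Ωˣ} (hζ : IsPrimitiveRoot ζ q)
    {m : ℕ} (hm : (m : k) ≠ 0) {f : FF K0 (q ^ 2 * M)} (hf : f ≠ 0)
    (hdvd : ∀ v : Place Ω (FF Ω (q ^ 2 * M)), (m : ℤ) ∣ v.ord (CarE.emb K0 Ω (q ^ 2 * M) f))
    (h1 : ∃ y : FF Ω (q * M), NN q ζ (CarE.emb K0 Ω (q ^ 2 * M) f : LaurentSeries Ω) =
      (y : LaurentSeries Ω) ^ m)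
    (h2 : ∃ y : FF Ω (q * M), NN q ζ (CarE.w2 Ω hco (CarE.emb K0 Ω (q ^ 2 * M) f) :
      LaurentSeries Ω) = (y : LaurentSeries Ω) ^ m) :
    ∃ x : FF Ω (q ^ 2 * M), x ^ m =
      CarE.emb K0 Ω (q ^ 2 * M) f ^ ((q + 1) * ((q - 1) * (q + 1))) := by
  haveI := B.alg
  haveI : FunField k (FF k M) := funField_FF hM
  haveI : FunField Ω (FF Ω M) := funField_FF (natCast_ne_zero_K Ω M)
  haveI : FunField Ω (FF Ω (q ^ 2 * M)) := funField_FF (natCast_ne_zero_K Ω (q ^ 2 * M))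
  have hm0 : m ≠ 0 := by rintro rfl; simp at hm
  have hw0 : w0 hco B.alg B.fixed f ≠ 0 := (_root_.map_ne_zero _).2 hf
  obtain ⟨c₁, z₁, e1⟩ := NN0_desc B hco hζ hm0 hf h2
  obtain ⟨c₂, z₂, e2⟩ := NN0_desc B hco hζ hm0 hw0 (by
    obtain ⟨y, hy⟩ := h1
    refine ⟨y, ?_⟩
    rw [emb_w0, w2_w2]
    exact hy)
  have H' := good_inv B hco hz hM HL (fun j x hx => surj_inf B hco hz hM ι j x (by
    intro Q hQ
    have h3 : 0 ≤ Q.ord ((cm B hco hz hM).inv.tb j) := by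
      rw [CModel.tb_inv, Q.ord_inv, cm_tb, ord_pow, neg_nonneg]
      exact mul_nonpos_of_nonneg_of_nonpos (Int.natCast_nonneg q) hQ
    rcases hx Q h3 with h4 | h4
    · rw [h4, Q.ord_zero]
    · exact h4))
  exact Norm3.carayol (nm B hco hz hM) (good B hco hz hM HL) H' (node B hco hz hM HL)
    (node_inv B hco hz hM HL) (stab_nm B hco hz hM) (stab_nm_inv B hco hz hM) hm hf hdvd e1 e2

end Fermat.Agent.CarM
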