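import Fermat.Agent.CarE.Desc
import Fermat.Agent.SemiSt.Norm

/-!
# Norms from level `q ^ 2 M` to level `q M`
-/

set_option autoImplicit false
set_option linter.style.haveILetI false
set_option linter.unusedSectionVars false

noncomputable section

namespace Fermat.Agent.CarM

open ModularCurve Polynomial IntermediateField Fermat.Agent.ModPoly Fermat.Agent.Cusp AlgebraicCurve
open Fermat.Agent.SemiSt Fermat.Agent.CarE Fermat.Agent.HeckeProd

section Main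

variable {Ω : Type*} [Field Ω] [IsAlgClosed Ω] [CharZero Ω] {q M : ℕ} [hq : Fact q.Prime] [NeZero M]
  (hco : q.Coprime M)

theorem dvd_low (q M : ℕ) : q * M ∣ q ^ 2 * M := ⟨q, by ring⟩

variable (Ω q M) in
/-- the norm from level `q ^ 2 M` to level `q M` -/
def Nm2 : FF Ω (q ^ 2 * M) →* FF Ω (q * M) :=
  letI := inclAlg (k := Ω) (dvd_low q M)
  Algebra.norm (FF Ω (q * M))

theorem finrank_low (Ω : Type*) [Field Ω] [IsAlgClosed Ω] [CharZero Ω] {q M : ℕ}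
    [hq : Fact q.Prime] [NeZero M] (hco : q.Coprime M) :
    letI := inclAlg (k := Ω) (dvd_low q M)
    Module.finrank (FF Ω (q * M)) (FF Ω (q ^ 2 * M)) = q := by
  letI := inclAlg (k := Ω) (dvd_low q M)
  have h1 := finrank_incl (k := Ω) (dvd_low q M) (natCast_ne_zero_K Ω (q ^ 2 * M))
  rw [psi_sq hco] at h1
  exact Nat.eq_of_mul_eq_mul_left (dedekindPsi_pos (NeZero.pos (q * M)))
    (h1.trans (mul_comm q _))

theorem low_cases (hco : q.Coprime M) {m : ℕ+} (hm : (m : ℕ) ∣ q * M) :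
    ∃ d : ℕ+, (d : ℕ) ∣ M ∧ (m = d ∨ m = pp q * d) := by
  obtain ⟨r, r', d, rfl, hr, hd⟩ := exists_factor hco hq.out.pos hm
  refine ⟨d, hd, ?_⟩
  have h1 : (r : ℕ) ∣ q := ⟨r', hr.symm⟩
  rcases (Nat.dvd_prime hq.out).1 h1 with h | h
  · left
    have : r = 1 := PNat.eq (by rw [h, PNat.one_coe])
    rw [this, one_mul]
  · right
    have : r = pp q := PNat.eq (by rw [h, coe_pp])
    rw [this]

theorem root_ne {ζ : Ωˣ} (hζ : IsPrimitiveRoot ζ q) {b : Fin q} (hb : (b : ℕ) ≠ 0) :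
    (ζ ^ (b : ℕ)) ^ q = 1 ∧ ζ ^ (b : ℕ) ≠ 1 := by
  refine ⟨by rw [← pow_mul, mul_comm, pow_mul, hζ.pow_eq_one, one_pow], fun h => hb ?_⟩
  have h1 := (hζ.pow_eq_one_iff_dvd (b : ℕ)).1 h
  exact Nat.eq_zero_of_dvd_of_lt h1 b.2

/-- the middle embedding extends the embedding of level `q M` -/
theorem phi1_low {z : Ωˣ} (hz : z ^ q = 1 ∧ z ≠ 1) (x : FF Ω (q * M)) :
    phi1 hco hz (incl Ω (dvd_low q M) x) = (x : LaurentSeries Ω) := by
  have h : (phi1 hco hz).comp (incl Ω (dvd_low q M)) = (FF Ω (q * M)).val := by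
    apply hom_ext
    intro m hm
    obtain ⟨d, hd, rfl | rfl⟩ := low_cases hco hm
    · rw [AlgHom.comp_apply, incl_jm, phi1_a hco hz hd]
      rfl
    · rw [AlgHom.comp_apply, incl_jm, phi1_b hco hz hd]
      rfl
  exact AlgHom.congr_fun h x

/-- the embeddings extending the embedding of level `q M` -/
def fam0 {ζ : Ωˣ} (hζ : IsPrimitiveRoot ζ q) (b : Fin q) : FF Ω (q ^ 2 * M) →ₐ[Ω] LaurentSeries Ω :=
  if h : (b : ℕ) = 0 then phi0 Ω else phi1 hco (root_ne hζ h)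

theorem fam0_incl {ζ : Ωˣ} (hζ : IsPrimitiveRoot ζ q) (b : Fin q) (x : FF Ω (q * M)) :
    fam0 hco hζ b (incl Ω (dvd_low q M) x) = (x : LaurentSeries Ω) := by
  unfold fam0
  split_ifs with h
  · rw [phi0_apply, coe_incl]
  · exact phi1_low hco _ x

theorem cdvd : ((pp q * pp q * 1 : ℕ+) : ℕ) ∣ q ^ 2 * M :=
  dvd_c (M := M) (q := q) (d := 1) (by rw [PNat.one_coe]; exact one_dvd M)

theorem fam0_injective {ζ : Ωˣ} (hζ : IsPrimitiveRoot ζ q) :
    Function.Injective (fun b => (fam0 (M := M) hco hζ b).toRingHom) := by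
  have h1d : ((1 : ℕ+) : ℕ) ∣ M := by rw [PNat.one_coe]; exact one_dvd M
  have key : ∀ b : Fin q, fam0 hco hζ b (jm Ω (pp q * pp q * 1) cdvd) =
      if (b : ℕ) = 0 then Jc 1 (pp q * pp q * 1) else Jc (ζ ^ (b : ℕ)) 1 := by
    intro b
    unfold fam0
    split_ifs with h
    · rfl
    · rw [phi1_c hco _ h1d, PNat.one_coe, pow_one]
  intro b b' h
  have h2 : fam0 hco hζ b (jm Ω (pp q * pp q * 1) cdvd) =
      fam0 hco hζ b' (jm Ω (pp q * pp q * 1) cdvd) := RingHom.congr_fun h _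
  have hq1 := hq.out.one_lt
  have hne : ∀ c : Ωˣ, (Jc 1 (pp q * pp q * 1) : LaurentSeries Ω) ≠ Jc c 1 := by
    intro c h3
    have h4 := congrArg (fun n : ℕ+ => (n : ℕ)) (Jc_inj_e h3)
    simp only [PNat.mul_coe, coe_pp, PNat.one_coe] at h4
    nlinarith
  rw [key, key] at h2
  split_ifs at h2 with h3 h4 h4
  · exact Fin.ext (h3.trans h4.symm)
  · exact absurd h2 (hne _)
  · exact absurd h2.symm (hne _)
  · exact Fin.ext (hζ.pow_inj b.2 b'.2 (Jc_inj_c h2))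

/-- **the norm in terms of the embedding at infinity** -/
theorem coe_Nm2 {ζ : Ωˣ} (hζ : IsPrimitiveRoot ζ q) (x : FF Ω (q ^ 2 * M)) :
    (Nm2 Ω q M x : LaurentSeries Ω) = ∏ b : Fin q, fam0 hco hζ b x := by
  letI := inclAlg (k := Ω) (dvd_low q M)
  haveI := finiteDimensional_incl (k := Ω) (dvd_low q M) (natCast_ne_zero_K Ω (q ^ 2 * M))
  haveI := isSeparable_incl (k := Ω) (dvd_low q M) (natCast_ne_zero_K Ω (q ^ 2 * M))
  exact norm_eq_prod_family (E := FF Ω (q * M)) (F := FF Ω (q ^ 2 * M)) (L := LaurentSeries Ω)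
    (FF Ω (q * M)).val.toRingHom (fun b => (fam0 hco hζ b).toRingHom)
    (fun b x => fam0_incl hco hζ b x) (fam0_injective hco hζ)
    (by rw [Fintype.card_fin, finrank_low Ω hco]) x

/-- the third embedding on functions of level `q M` -/
theorem phi2_low (x : FF Ω (q * M)) :
    phi2 hco (incl Ω (dvd_low q M) x) = qExpand Ω q (w Ω hco x : LaurentSeries Ω) := by
  have h : (phi2 hco).comp (incl Ω (dvd_low q M)) =
      (SbA 1 (pn q)).comp ((FF Ω (q * M)).val.comp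
        (w Ω hco : FF Ω (q * M) →ₐ[Ω] FF Ω (q * M))) := by
    apply hom_ext
    intro m hm
    have e1 : ∀ m : ℕ+, Sb 1 (pn q) (Jc (1 : Ωˣ) m) = Jc 1 (pn q * m) := fun m => by
      rw [Sb_Jc, one_pow, one_mul]
    obtain ⟨d, hd, rfl | rfl⟩ := low_cases hco hm
    · have hd2 : ((pn q * m : ℕ+) : ℕ) ∣ q * M := by
        rw [PNat.mul_coe, coe_pn]; exact mul_dvd_mul_left _ hd
      have hd1 : ((1 * m : ℕ+) : ℕ) ∣ q * M := by
        rw [one_mul]; exact hm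
      have h1 : w Ω hco (jm Ω (1 * m) hd1) = jm Ω (pn q * m) hd2 :=
        wq_jm _ hco (r := 1) (r' := pn q) (d := m) (by rw [PNat.one_coe, one_mul, coe_pn])
          hd hd1 hd2
      have h2 : jm Ω m hm = jm Ω (1 * m) hd1 := jm_congr (one_mul m).symm _ _
      change phi2 hco (incl Ω (dvd_low q M) (jm Ω m hm)) =
        Sb 1 (pn q) (w Ω hco (jm Ω m hm) : LaurentSeries Ω)
      rw [incl_jm, phi2_apply, w2_a hco hd, h2, h1]
      change Jc 1 (pp q * pp q * m) = Sb 1 (pn q) (Jc 1 (pn q * m))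
      rw [e1]
      congr 1
      rw [← mul_assoc]
      congr 1
    · have hd2 : ((pn q * d : ℕ+) : ℕ) ∣ q * M := by
        rw [PNat.mul_coe, coe_pn]; exact mul_dvd_mul_left _ hd
      have hd1 : ((1 * d : ℕ+) : ℕ) ∣ q * M := by
        rw [one_mul]; exact hd.trans (dvd_mul_left _ _)
      have h1 : w Ω hco (jm Ω (pn q * d) hd2) = jm Ω (1 * d) hd1 :=
        wq_jm _ hco (r := pn q) (r' := 1) (d := d) (by rw [PNat.one_coe, mul_one, coe_pn])
          hd hd2 hd1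
      have h2 : jm Ω (pp q * d) hm = jm Ω (pn q * d) hd2 := rfl
      change phi2 hco (incl Ω (dvd_low q M) (jm Ω (pp q * d) hm)) =
        Sb 1 (pn q) (w Ω hco (jm Ω (pp q * d) hm) : LaurentSeries Ω)
      rw [incl_jm, phi2_apply, w2_b hco hd, h2, h1]
      change Jc 1 (pp q * d) = Sb 1 (pn q) (Jc 1 (1 * d))
      rw [e1, one_mul]
      rfl
  have h2 := AlgHom.congr_fun h x
  change phi2 hco (incl Ω (dvd_low q M) x) = Sb 1 (pn q) (w Ω hco x : LaurentSeries Ω) at h2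
  rw [h2, Sb_one_eq q (pn q) (coe_pn q)]

theorem twist_Jc (c : Ωˣ) : twist c (Jc 1 1 : LaurentSeries Ω) = Jc c 1 := by
  have h2 : Sb c 1 (Jc 1 1) = (Jc c 1 : LaurentSeries Ω) := by
    rw [Sb_Jc, mul_one, mul_one, PNat.one_coe, pow_one]
  rw [← h2]
  ext n
  have h3 := Sb_coeff_mul c 1 (Jc 1 1 : LaurentSeries Ω) n
  rw [PNat.one_coe, Nat.cast_one, one_mul] at h3
  rw [h3, twist_coeff]

/-- **the norm in terms of the embedding at the cusp zero** -/
theorem qExpand_Nm2 {ζ : Ωˣ} (hζ : IsPrimitiveRoot ζ q) (x : FF Ω (q ^ 2 * M)) :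
    qExpand Ω q (w Ω hco (Nm2 Ω q M x) : LaurentSeries Ω) = PP q ζ (w2 Ω hco x) := by
  letI := inclAlg (k := Ω) (dvd_low q M)
  haveI := finiteDimensional_incl (k := Ω) (dvd_low q M) (natCast_ne_zero_K Ω (q ^ 2 * M))
  haveI := isSeparable_incl (k := Ω) (dvd_low q M) (natCast_ne_zero_K Ω (q ^ 2 * M))
  have h1d : ((1 : ℕ+) : ℕ) ∣ M := by rw [PNat.one_coe]; exact one_dvd M
  have h1 := norm_eq_prod_family (E := FF Ω (q * M)) (F := FF Ω (q ^ 2 * M)) (L := LaurentSeries Ω)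
    ((phi2 hco).comp (incl Ω (dvd_low q M))).toRingHom
    (fun b : ZMod q => (twist (ζ ^ b.val)).comp (phi2 hco).toRingHom)
    (fun b x => by
      change twist (ζ ^ b.val) (phi2 hco (incl Ω (dvd_low q M) x)) =
        phi2 hco (incl Ω (dvd_low q M) x)
      rw [phi2_low, twist_qExpand]
      rw [← pow_mul, mul_comm, pow_mul, hζ.pow_eq_one, one_pow])
    (by
      intro b b' h
      have h2 : twist (ζ ^ b.val) (phi2 hco (jm Ω (pp q * pp q * 1) cdvd)) =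
        twist (ζ ^ b'.val) (phi2 hco (jm Ω (pp q * pp q * 1) cdvd)) := RingHom.congr_fun h _
      have h3 : phi2 hco (jm Ω (pp q * pp q * 1) cdvd) = Jc 1 1 := by
        rw [phi2_apply, w2_c hco h1d]
        rfl
      rw [h3, twist_Jc, twist_Jc] at h2
      exact ZMod.val_injective q (hζ.pow_inj (ZMod.val_lt b) (ZMod.val_lt b') (Jc_inj_c h2)))
    (by rw [ZMod.card, finrank_low Ω hco]) x
  have h2 : phi2 hco (incl Ω (dvd_low q M) (Nm2 Ω q M x)) =
      ∏ b : ZMod q, twist (ζ ^ b.val) (phi2 hco x) := h1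
  rw [← phi2_low, h2]
  rfl

/-- the norm as a multiplicative Hecke operator -/
theorem coe_w_Nm2 {ζ : Ωˣ} (hζ : IsPrimitiveRoot ζ q) (x : FF Ω (q ^ 2 * M)) :
    (w Ω hco (Nm2 Ω q M x) : LaurentSeries Ω) = NN q ζ (w2 Ω hco x) := by
  apply qExpand_injective q
  rw [qExpand_NN hζ, qExpand_Nm2 hco hζ]

variable (Ω q M) in
/-- the norm as an operator of level `q ^ 2 M` -/
def NL : FF Ω (q ^ 2 * M) →* FF Ω (q ^ 2 * M) :=
  ((incl Ω (dvd_low q M) : FF Ω (q * M) →ₐ[Ω] FF Ω (q ^ 2 * M)) :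
    FF Ω (q * M) →* FF Ω (q ^ 2 * M)).comp (Nm2 Ω q M)

theorem NL_apply (x : FF Ω (q ^ 2 * M)) : NL Ω q M x = incl Ω (dvd_low q M) (Nm2 Ω q M x) := rfl

theorem phi0_NL {ζ : Ωˣ} (hζ : IsPrimitiveRoot ζ q) (x : FF Ω (q ^ 2 * M)) :
    (NL Ω q M x : LaurentSeries Ω) = ∏ b : Fin q, fam0 hco hζ b x := by
  rw [NL_apply, coe_incl, coe_Nm2 hco hζ]

theorem phi2_NL {ζ : Ωˣ} (hζ : IsPrimitiveRoot ζ q) (x : FF Ω (q ^ 2 * M)) :
    (w2 Ω hco (NL Ω q M x) : LaurentSeries Ω) = PP q ζ (w2 Ω hco x) := by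
  rw [← qExpand_Nm2 hco hζ, ← phi2_low]
  rfl

include hco in
/-- norms commute with coefficientwise automorphisms -/
theorem act_NL (σ : Ω ≃+* Ω) (x : FF Ω (q ^ 2 * M)) :
    act (q ^ 2 * M) σ (NL Ω q M x) = NL Ω q M (act (q ^ 2 * M) σ x) := by
  obtain ⟨ζ, hζ⟩ := exists_zeta (k := Ω) (N := q) (natCast_ne_zero_K Ω q)
  have hζ' : IsPrimitiveRoot (Units.map ((σ : Ω →+* Ω) : Ω →* Ω) ζ) q :=
    hζ.map_of_injective (f := Units.map ((σ : Ω →+* Ω) : Ω →* Ω))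
      (Units.map_injective σ.injective)
  apply (w2 Ω hco).injective
  apply Subtype.ext
  have e1 : ∀ y : FF Ω (q ^ 2 * M), w2 Ω hco (act (q ^ 2 * M) σ y) =
      act (q ^ 2 * M) σ (w2 Ω hco y) := fun y => (act_wq _ _ (hco.pow_left 2) σ y).symm
  rw [e1, coe_act, phi2_NL hco hζ, phi2_NL hco hζ', e1, coe_act, coeffMap_PP]

/-- constants -/
theorem NL_algebraMap (hco : q.Coprime M) (c : Ω) :
    NL Ω q M (algebraMap Ω (FF Ω (q ^ 2 * M)) c) = algebraMap Ω (FF Ω (q ^ 2 * M)) (c ^ q) := by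
  letI := inclAlg (k := Ω) (dvd_low q M)
  have h1 : Nm2 Ω q M (algebraMap Ω (FF Ω (q ^ 2 * M)) c) =
      (algebraMap Ω (FF Ω (q * M)) c) ^ q := by
    have h2 : algebraMap Ω (FF Ω (q ^ 2 * M)) c =
        algebraMap (FF Ω (q * M)) (FF Ω (q ^ 2 * M)) (algebraMap Ω (FF Ω (q * M)) c) :=
      ((incl Ω (dvd_low q M)).commutes c).symm
    rw [h2]
    change Algebra.norm (FF Ω (q * M)) (algebraMap (FF Ω (q * M)) (FF Ω (q ^ 2 * M)) _) = _
    rw [Algebra.norm_algebraMap, finrank_low Ω hco]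
  rw [NL_apply, h1, map_pow, map_pow, AlgHom.commutes]

end Main

end Fermat.Agent.CarM
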