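import Fermat.Agent.CarM.Unit
import Fermat.Agent.Car.Main

/-!
# Modular units and the model of level `q ^ 2 M`
-/

set_option autoImplicit false
set_option linter.style.haveILetI false
set_option linter.unusedSectionVars false

noncomputable section

namespace Fermat.Agent.CarM

open ModularCurve Polynomial IntermediateField Fermat.Agent.ModPoly Fermat.Agent.Cusp AlgebraicCurve
open Fermat.Agent.SemiSt Fermat.Agent.CarE Fermat.Agent.HeckeProd Fermat.Agent.Curve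
open Fermat.Agent.RedMod Fermat.Agent.Car Fermat.Agent.RR Fermat.Agent.Red

variable {R0 K0 A Ω k : Type*} [CommRing R0] [IsDomain R0] [IsDiscreteValuationRing R0]
  [Field K0] [Algebra R0 K0]
  [IsFractionRing R0 K0] [CommRing A] [IsDomain A] [ValuationRing A] [Field Ω]
  [IsAlgClosed Ω] [CharZero Ω]
  [Algebra A Ω] [IsFractionRing A Ω] [Field k] [Algebra A k] [Algebra K0 Ω] [Algebra R0 A]
  [Algebra R0 k] {q M : ℕ} [hq : Fact q.Prime] [NeZero M] [CharP k q]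
  (B : Base q R0 K0 A Ω k) (hco : q.Coprime M)
  {z : Aˣ} (hz : z ^ q = 1 ∧ z ≠ 1) (hM : (M : k) ≠ 0)

set_option synthInstance.maxHeartbeats 400000

theorem cm_emb : (cm B hco hz hM).emb = emb K0 Ω (q ^ 2 * M) := rfl

theorem cm_t : (cm B hco hz hM).t = tt K0 q M := rfl

theorem cm_comp (j : Fin 3) : (cm B hco hz hM).comp j =
    (E3 B hco hz j).comp (FF k M) (res_mem B hco hz hM j) := rfl

theorem cm_e (j : Fin 3) : (cm B hco hz hM).e j = ee q j := rfl

theorem cm_p : (cm B hco hz hM).p = (q : R0) := rfl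

variable {B hco hz}

theorem coe_r_cm {x : FF K0 (q ^ 2 * M)} {s : Fin 3 → LaurentSeries A}
    (h : HasL B hco hz x s) (j : Fin 3) :
    (((cm B hco hz hM).comp j).r x : LaurentSeries k) = redL A k (s j) :=
  (E3 B hco hz j).coe_r_of_eq (FF k M) (res_mem B hco hz hM j) (h j)

theorem ge_of_hasL {x : FF K0 (q ^ 2 * M)} {s : Fin 3 → LaurentSeries A}
    (h : HasL B hco hz x s) (j : Fin 3) : ((cm B hco hz hM).comp j).Ge 0 x :=
  Comp.ge_of_mem (h.mem j)

theorem v_of_hasL {x : FF K0 (q ^ 2 * M)} {s : Fin 3 → LaurentSeries A}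
    (h : HasL B hco hz x s) (j : Fin 3) {n : ℕ} {u : LaurentSeries A} (hu : redL A k u ≠ 0)
    (hs : s j = HahnSeries.C ((E3 B hco hz j).ϖA ^ n) * u) :
    ((cm B hco hz hM).comp j).v x = n := by
  refine (E3 B hco hz j).v_nat (FF k M) (res_mem B hco hz hM j) (isU_incL hu) ?_
  rw [h j, hs, map_mul, coeffMap_C, map_pow, map_pow]

theorem v_zero_of_hasL {x : FF K0 (q ^ 2 * M)} {s : Fin 3 → LaurentSeries A}
    (h : HasL B hco hz x s) (j : Fin 3) (hu : redL A k (s j) ≠ 0) :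
    ((cm B hco hz hM).comp j).v x = 0 := by
  have := v_of_hasL hM h j (n := 0) hu (by rw [pow_zero, map_one, one_mul])
  exact_mod_cast this

variable (B hco hz)

theorem cm_tb (j : Fin 3) : (cm B hco hz hM).tb j = jF' k M ^ q := by
  apply Subtype.ext
  have h1 := coe_r_cm hM (hasL_tt B hco hz (M := M)) j
  rw [redL_JA_one, Jc_q] at h1
  have h2 : (((cm B hco hz hM).tb j : FF k M) : LaurentSeries k) = jqModC k ^ q := h1
  rw [h2, SubmonoidClass.coe_pow]
  congr 1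
  exact Jc_one_one.symm

section Red

omit [IsFractionRing R0 K0] [IsDiscreteValuationRing R0] [IsDomain R0]

theorem redL_DA_one (e : ℕ+) : redL A k (DA 1 e) = Dc 1 e := by
  rw [redL, coeffMap_DA, map_one, DA_field]

theorem redL_DI_one (e : ℕ+) : redL A k (DI 1 e) = (Dc 1 e)⁻¹ := by
  rw [redL, coeffMap_DI, map_one, DI_field]

include hz in
theorem map_z_one : Units.map (algebraMap A k : A →* k) z = 1 := by
  apply Units.ext
  exact red_z (hz_val hz)

include hz in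
theorem redL_DA_z (e : ℕ+) : redL A k (DA z e) = Dc 1 e := by
  rw [redL, coeffMap_DA, map_z_one hz, DA_field]

include hz in
theorem redL_DI_z (e : ℕ+) : redL A k (DI z e) = (Dc 1 e)⁻¹ := by
  rw [redL, coeffMap_DI, map_z_one hz, DI_field]

theorem Dc_q1 : (Dc 1 (pp q * 1) : LaurentSeries k) = Dc 1 1 ^ q := by
  rw [mul_one, Dc_q]

theorem Dc_qq1 : (Dc 1 (pp q * (pp q * 1)) : LaurentSeries k) = Dc 1 1 ^ (q * q) := by
  rw [mul_one, Dc_qq]

theorem hsL_eq : hsL k q = Dc 1 1 / Dc 1 1 ^ q := by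
  rw [hsL, Dc_q]

end Red

/-- exponents -/
def aa (q : ℕ) : Fin 3 → ℕ
  | 0 => 1
  | 1 => q - 1
  | 2 => 1

theorem aa_pos (i : Fin 3) : 0 < aa q i := by
  have := hq.out.two_le
  match i with
  | 0 => exact one_pos
  | 1 => change 0 < q - 1; omega
  | 2 => exact one_pos

section

variable (A k q)

theorem aux_pow (d : LaurentSeries k) (hd : d ≠ 0) (n : ℕ) :
    (d ^ (n + 1)) ^ 2 * d⁻¹ * (d ^ ((n + 1) * (n + 1)))⁻¹ = (d / d ^ (n + 1)) ^ n := by
  rw [div_pow, eq_div_iff (pow_ne_zero _ (pow_ne_zero _ hd))]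
  have h1 : (d ^ (n + 1)) ^ 2 * (d ^ (n + 1)) ^ n = d ^ n * (d * d ^ ((n + 1) * (n + 1))) := by
    ring
  have h2 : d ^ ((n + 1) * (n + 1)) ≠ 0 := pow_ne_zero _ hd
  calc (d ^ (n + 1)) ^ 2 * d⁻¹ * (d ^ ((n + 1) * (n + 1)))⁻¹ * (d ^ (n + 1)) ^ n =
      ((d ^ (n + 1)) ^ 2 * (d ^ (n + 1)) ^ n) * (d⁻¹ * (d ^ ((n + 1) * (n + 1)))⁻¹) := by ring
    _ = d ^ n * ((d * d⁻¹) * (d ^ ((n + 1) * (n + 1)) * (d ^ ((n + 1) * (n + 1)))⁻¹)) := by
      rw [h1]; ring
    _ = d ^ n := by rw [mul_inv_cancel₀ hd, mul_inv_cancel₀ h2, one_mul, mul_one]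

end

include hz in
theorem red_hhL {i j : Fin 3} (h : i ≠ j) :
    redL A k (hhL q z i j) = hsL k q ^ (aa q i) := by
  have hd := Dc_ne_zero (k := k) 1 1
  have d1 := redL_DA_one (A := A) (k := k)
  have d2 := redL_DI_one (A := A) (k := k)
  match i, j, h with
  | 0, 0, h => exact absurd rfl h
  | 1, 1, h => exact absurd rfl h
  | 2, 2, h => exact absurd rfl h
  | 0, 1, _ =>
    change redL A k (DA z 1 * DI 1 (pp q * 1)) = hsL k q ^ 1
    rw [map_mul, redL_DA_z hz, d2, Dc_q1, hsL_eq, pow_one, div_eq_mul_inv]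
  | 0, 2, _ =>
    change redL A k (DA 1 1 * DI 1 (pp q * 1)) = hsL k q ^ 1
    rw [map_mul, d1, d2, Dc_q1, hsL_eq, pow_one, div_eq_mul_inv]
  | 2, 0, _ =>
    change redL A k (DA 1 1 * DI 1 (pp q * 1)) = hsL k q ^ 1
    rw [map_mul, d1, d2, Dc_q1, hsL_eq, pow_one, div_eq_mul_inv]
  | 2, 1, _ =>
    change redL A k (DA 1 1 * DI 1 (pp q * 1)) = hsL k q ^ 1
    rw [map_mul, d1, d2, Dc_q1, hsL_eq, pow_one, div_eq_mul_inv]
  | 1, 0, _ =>
    change redL A k (DA 1 (pp q * 1) ^ 2 * DI 1 1 * DI 1 (pp q * (pp q * 1))) =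
      hsL k q ^ (q - 1)
    obtain ⟨n, hn⟩ : ∃ n, q = n + 1 := ⟨q - 1, (Nat.succ_pred_prime hq.out).symm⟩
    rw [map_mul, map_mul, map_pow, d1, d2, d2, Dc_q1, Dc_qq1, hsL_eq]
    have := aux_pow k (Dc 1 1 : LaurentSeries k) hd n
    rw [← hn] at this
    rw [this, show n = q - 1 by omega]
  | 1, 2, _ =>
    change redL A k (DA 1 (pp q * 1) ^ 2 * DI 1 1 * DI 1 (pp q * (pp q * 1))) =
      hsL k q ^ (q - 1)
    obtain ⟨n, hn⟩ : ∃ n, q = n + 1 := ⟨q - 1, (Nat.succ_pred_prime hq.out).symm⟩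
    rw [map_mul, map_mul, map_pow, d1, d2, d2, Dc_q1, Dc_qq1, hsL_eq]
    have := aux_pow k (Dc 1 1 : LaurentSeries k) hd n
    rw [← hn] at this
    rw [this, show n = q - 1 by omega]

/-- **valuations of the modular units at the other components** -/
theorem v_hh_ne {i j : Fin 3} (h : i ≠ j) : ((cm B hco hz hM).comp j).v (hh M B i) = 0 := by
  refine v_zero_of_hasL hM (hasL_hh B hco hz i) j ?_
  rw [red_hhL hz h]
  exact pow_ne_zero _ (hsL_ne k q)

/-- **residues of the modular units at the other components** -/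
theorem r_hh [IsAlgClosed k] {i j : Fin 3} (h : i ≠ j) :
    ((cm B hco hz hM).comp j).r (hh M B i) = hs k q M ^ (aa q i) := by
  apply Subtype.ext
  rw [coe_r_cm hM (hasL_hh B hco hz i), red_hhL hz h, SubmonoidClass.coe_pow, coe_hs]

theorem v_hh_0 : ((cm B hco hz hM).comp 0).v (hh M B 0) = 12 := by
  refine v_of_hasL hM (hasL_hh B hco hz 0) 0 (n := 12)
    (u := DA 1 (pp q * (pp q * 1)) * DI 1 (pp q * 1)) ?_ rfl
  rw [map_mul, redL_DA_one, redL_DI_one]
  exact mul_ne_zero (Dc_ne_zero _ _) (inv_ne_zero (Dc_ne_zero _ _))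

theorem v_hh_2 : ((cm B hco hz hM).comp 2).v (hh M B 2) = 12 := by
  refine v_of_hasL hM (hasL_hh B hco hz 2) 2 (n := 12)
    (u := DA 1 (pp q * (pp q * 1)) * DI 1 (pp q * 1)) ?_ rfl
  rw [map_mul, redL_DA_one, redL_DI_one]
  exact mul_ne_zero (Dc_ne_zero _ _) (inv_ne_zero (Dc_ne_zero _ _))

theorem v_hh_1 : ((cm B hco hz hM).comp 1).v (hh M B 1) = 12 * (q - 1 : ℕ) := by
  obtain ⟨ε, hε, heq⟩ := exists_lam_pow (A := A) (k := k) (hz_val hz)
  have h1 := v_of_hasL hM (hasL_hh B hco hz 1) 1 (n := 12 * (q - 1))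
    (u := HahnSeries.C (ε ^ 12) * (DA 1 (pp q * 1) ^ 2 * DI 1 1 * DI z 1)) ?_ ?_
  · rw [h1]
    push_cast
    ring
  · rw [map_mul, map_mul (redL A k) _ (DI z 1), map_mul (redL A k) _ (DI 1 1),
      map_pow (redL A k) (DA 1 (pp q * 1)), redL_DA_one, redL_DI_one, redL_DI_z hz, coeffMap_C,
      map_pow]
    refine mul_ne_zero ?_ (mul_ne_zero (mul_ne_zero (pow_ne_zero _ (Dc_ne_zero _ _))
      (inv_ne_zero (Dc_ne_zero _ _))) (inv_ne_zero (Dc_ne_zero _ _)))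
    exact HahnSeries.C_ne_zero (pow_ne_zero _ hε)
  · change HahnSeries.C ((q : A) ^ 12) * (DA 1 (pp q * 1) ^ 2 * DI 1 1 * DI z 1) =
      HahnSeries.C ((1 - (z : A)) ^ (12 * (q - 1))) * _
    rw [← mul_assoc (HahnSeries.C ((1 - (z : A)) ^ (12 * (q - 1)))), ← map_mul]
    congr 2
    rw [heq]
    ring

theorem hh_ne (i : Fin 3) : hh M B i ≠ 0 := by
  have ha : a0 M B ≠ 0 := by
    intro h
    have := emb_a0 (M := M) B
    rw [h, map_zero] at this
    exact ra_ne this.symm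
  have hb : b0' M B ≠ 0 := by
    intro h
    have := emb_b0' (M := M) B
    rw [h, map_zero] at this
    exact rb_ne this.symm
  have hq0 : (q : FF K0 (q ^ 2 * M)) ≠ 0 := by
    intro h
    have h1 := congrArg (emb K0 Ω (q ^ 2 * M)) h
    rw [map_natCast, map_zero] at h1
    have : (q : FF Ω (q ^ 2 * M)) = algebraMap Ω _ (q : Ω) := (map_natCast _ _).symm
    rw [this, map_eq_zero] at h1
    exact hq.out.ne_zero (by exact_mod_cast h1)
  match i with
  | 0 => exact div_ne_zero (mul_ne_zero (pow_ne_zero _ hq0) hb) ha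
  | 1 => exact div_ne_zero (pow_ne_zero _ ha) hb
  | 2 => exact inv_ne_zero ha

/-- the modular units have no zeros and poles on the affine part -/
theorem ord_hh (i : Fin 3) (v : Place Ω (FF Ω (q ^ 2 * M))) (hv : 0 ≤ v.ord (tt Ω q M)) :
    v.ord (emb K0 Ω (q ^ 2 * M) (hh M B i)) = 0 := by
  have hv' : 0 ≤ v.ord (jF' Ω (q ^ 2 * M)) := (j0_of_t0 v).1 hv
  have h1 : v.ord (ra Ω q M) = 0 := rm_reg v hv' _ (dvd_q q M) _ rfl
  have h2 : v.ord (rb Ω q M) = 0 := rm_reg v hv' _ (dvd_qq q M) _ rfl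
  have hq0 : (q : FF Ω (q ^ 2 * M)) = algebraMap Ω _ (q : Ω) := (map_natCast _ _).symm
  have hqne : (q : FF Ω (q ^ 2 * M)) ≠ 0 := by
    rw [hq0, Ne, map_eq_zero]
    exact Nat.cast_ne_zero.2 hq.out.ne_zero
  have h3 : v.ord ((q : FF Ω (q ^ 2 * M)) ^ 12) = 0 := by
    rw [hq0, ← map_pow, ord_algebraMap]
  have ha := ra_ne (Ω := Ω) (q := q) (M := M)
  have hb := rb_ne (Ω := Ω) (q := q) (M := M)
  match i with
  | 0 =>
    change v.ord (emb K0 Ω (q ^ 2 * M) ((q : FF K0 (q ^ 2 * M)) ^ 12 * b0' M B / a0 M B)) = 0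
    rw [map_div₀, map_mul, map_pow, map_natCast, emb_a0, emb_b0', div_eq_mul_inv,
      v.ord_mul (mul_ne_zero (pow_ne_zero _ hqne) hb) (inv_ne_zero ha),
      v.ord_mul (pow_ne_zero _ hqne) hb, v.ord_inv, h1, h2, h3]
    ring
  | 1 =>
    change v.ord (emb K0 Ω (q ^ 2 * M) (a0 M B ^ 2 / b0' M B)) = 0
    rw [map_div₀, map_pow, emb_a0, emb_b0', div_eq_mul_inv,
      v.ord_mul (pow_ne_zero _ ha) (inv_ne_zero hb), ord_pow, v.ord_inv, h1, h2]
    ring
  | 2 =>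
    change v.ord (emb K0 Ω (q ^ 2 * M) ((a0 M B)⁻¹)) = 0
    rw [map_inv₀, emb_a0, v.ord_inv, h1, neg_zero]

end Fermat.Agent.CarM
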