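import Fermat.Agent.ThmC.CuspX
import Fermat.Agent.ThmC.Theta

/-!
# The identity `(θ j) ^ 6 = j ^ 4 (j - 1728) ^ 3 Δ`
-/

set_option autoImplicit false
set_option linter.style.haveILetI false
set_option linter.unusedSectionVars false

noncomputable section

namespace Fermat.Agent.CarM

open ModularCurve Polynomial IntermediateField Fermat.Agent.ModPoly Fermat.Agent.Cusp AlgebraicCurve
open Fermat.Agent.Curve Fermat.Agent.RR Fermat.Agent.ThmC

theorem theta_jq_C : theta (jqModC ℂ) ^ 6 =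
    jqModC ℂ ^ 4 * (jqModC ℂ - 1728) ^ 3 * deltaC ℂ := by
  have h1 := theta_jq
  have h2 := E6_sq
  have h3 := jqModC_mul_delta ℂ
  have hd : deltaC ℂ ≠ 0 := left_ne_zero_of_mul (b := deltaInvC ℂ) (by
    rw [deltaC_mul_inv]; exact one_ne_zero)
  have h4 : theta (jqModC ℂ) ^ 6 * deltaC ℂ ^ 6 =
      (jqModC ℂ ^ 4 * (jqModC ℂ - 1728) ^ 3 * deltaC ℂ) * deltaC ℂ ^ 6 := by
    have e1 : theta (jqModC ℂ) ^ 6 * deltaC ℂ ^ 6 =
        (theta (jqModC ℂ) * deltaC ℂ) ^ 6 := by ring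
    have e2 : (jqModC ℂ ^ 4 * (jqModC ℂ - 1728) ^ 3 * deltaC ℂ) * deltaC ℂ ^ 6 =
        (jqModC ℂ * deltaC ℂ) ^ 4 * (jqModC ℂ * deltaC ℂ - 1728 * deltaC ℂ) ^ 3 := by ring
    rw [e1, e2, h1, h3, ← h2]
    ring
  exact mul_right_cancel₀ (pow_ne_zero 6 hd) h4

theorem theta_jq_Z : th (jqModC ℤ) ^ 6 =
    jqModC ℤ ^ 4 * (jqModC ℤ - 1728) ^ 3 * deltaC ℤ := by
  apply coeffMap_injective (f := Int.castRingHom ℂ) Int.cast_injective
  rw [map_pow, coeffMap_th, map_mul, map_mul, map_pow, map_pow, map_sub, coeffMap_jqModC,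
    coeffMap_deltaC, theta_jq_C, map_ofNat]

theorem theta_jq_pow (k : Type*) [Field k] : theta (jqModC k) ^ 6 =
    jqModC k ^ 4 * (jqModC k - 1728) ^ 3 * deltaC k := by
  have h := congrArg (coeffMap (Int.castRingHom k)) theta_jq_Z
  rwa [map_pow, coeffMap_th, map_mul, map_mul, map_pow, map_pow, map_sub, coeffMap_jqModC,
    coeffMap_deltaC, map_ofNat] at h

end Fermat.Agent.CarM
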