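import Fermat.Agent.CarM.Quot
import Fermat.Agent.CarM.Unit2
import Fermat.Agent.CarM.ThJ
import Fermat.Agent.Car.Thru

/-!
# The finite chart of the model of level `q ^ 2 M`
-/

set_option autoImplicit false
set_option linter.style.haveILetI false
set_option linter.unusedSectionVars false

noncomputable section

namespace Fermat.Agent.CarM

open ModularCurve Polynomial IntermediateField Fermat.Agent.ModPoly Fermat.Agent.Cusp AlgebraicCurve
open Fermat.Agent.SemiSt Fermat.Agent.CarE Fermat.Agent.HeckeProd Fermat.Agent.Curve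
open Fermat.Agent.RedMod Fermat.Agent.Car Fermat.Agent.RR Fermat.Agent.Red Fermat.Agent.PRem
open Fermat.Agent.ThmC Fermat.Agent.Nod


variable {R0 K0 A Ω k : Type*} [CommRing R0] [IsDomain R0] [IsDiscreteValuationRing R0]
  [Field K0] [Algebra R0 K0]
  [IsFractionRing R0 K0] [CommRing A] [IsDomain A] [ValuationRing A] [Field Ω]
  [IsAlgClosed Ω] [CharZero Ω]
  [Algebra A Ω] [IsFractionRing A Ω] [Field k] [Algebra A k] [Algebra K0 Ω] [Algebra R0 A]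
  [Algebra R0 k] {q M : ℕ} [hq : Fact q.Prime] [NeZero M] [CharP k q]
  (B : Base q R0 K0 A Ω k) (hco : q.Coprime M)
  {z : Aˣ} (hz : z ^ q = 1 ∧ z ≠ 1) (hM : (M : k) ≠ 0)

set_option synthInstance.maxHeartbeats 400000

section General

variable {B hco hz}

theorem mem_W_of_Rd {j : Fin 3} {x : FF K0 (q ^ 2 * M)} {a : LaurentSeries k}
    (h : Rd A ((E3 B hco hz j).φ x) a) : x ∈ ((cm B hco hz hM).comp j).W := h.choose

theorem coe_r_of_Rd {j : Fin 3} {x : FF K0 (q ^ 2 * M)} {a : LaurentSeries k}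
    (h : Rd A ((E3 B hco hz j).φ x) a) :
    (((cm B hco hz hM).comp j).r x : LaurentSeries k) = a := by
  obtain ⟨h1, h2⟩ := h
  rw [← h2]
  exact (E3 B hco hz j).coe_r (FF k M) (res_mem B hco hz hM j) h1

theorem v_of_Rd {j : Fin 3} {x : FF K0 (q ^ 2 * M)} {a : LaurentSeries k} {w : LaurentSeries Ω}
    {n : ℕ} (hw : Rd A w a) (ha : a ≠ 0)
    (h : (E3 B hco hz j).φ x = HahnSeries.C (algebraMap A Ω (E3 B hco hz j).ϖA) ^ n * w) :
    ((cm B hco hz hM).comp j).v x = n :=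
  (E3 B hco hz j).v_nat (FF k M) (res_mem B hco hz hM j) (hw.isU ha) h

theorem rd_of_mem {j : Fin 3} {x : FF K0 (q ^ 2 * M)} (h : x ∈ ((cm B hco hz hM).comp j).W) :
    Rd A ((E3 B hco hz j).φ x) (((cm B hco hz hM).comp j).r x : LaurentSeries k) :=
  ⟨h, ((E3 B hco hz j).coe_r (FF k M) (res_mem B hco hz hM j) h).symm⟩

end General

variable (q M) in
/-- lifting properties at level `M` -/
structure Lifts (K0 A Ω k : Type*) [Field K0] [CommRing A] [IsDomain A] [Field Ω]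
  [Algebra A Ω] [IsFractionRing A Ω] [Field k] [Algebra A k] [Algebra K0 Ω] : Prop where
  lift : ∀ z : FF k M, (∀ Q : Place k (FF k M), 0 ≤ Q.ord (jF' k M) → 0 ≤ Q.ord z) →
    ∃ y : FF K0 M, Rd A (CarE.emb K0 Ω M y : LaurentSeries Ω) (z : LaurentSeries k) ∧
      ∀ v : Place Ω (FF Ω M), 0 ≤ v.ord (jF' Ω M) → 0 ≤ v.ord (CarE.emb K0 Ω M y)
  unif : ∀ Q : Place k (FF k M), 0 ≤ Q.ord (jF' k M) → ∃ (y : FF K0 M) (z : FF k M),
    Rd A (CarE.emb K0 Ω M y : LaurentSeries Ω) (z : LaurentSeries k) ∧ Q.ord z = 1 ∧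
      (∀ v : Place Ω (FF Ω M), 0 ≤ v.ord (jF' Ω M) → 0 ≤ v.ord (CarE.emb K0 Ω M y)) ∧
      ∃ g : FF k M, theta (z : LaurentSeries k) = (g : LaurentSeries k) * theta (jqModC k) ∧
        g ^ 6 * jF' k M ^ 4 * (jF' k M - 1728) ^ 3 ≠ 0 ∧
        Q.ord (g ^ 6 * jF' k M ^ 4 * (jF' k M - 1728) ^ 3) = 0

section Incl

variable (K0 q) in
/-- the inclusion of level `M` -/
def ic (M : ℕ) [NeZero M] (y : FF K0 M) : FF K0 (q ^ 2 * M) :=
  incl K0 (dvd_mul_left M (q ^ 2)) y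

variable {B hco hz}

theorem rd_qExpand {n : ℕ} [NeZero n] {x : LaurentSeries Ω} {a : LaurentSeries k} (h : Rd A x a) :
    Rd A (qExpand Ω n x) (qExpand k n a) := by
  obtain ⟨h1, rfl⟩ := h
  exact ⟨qExpand_mem_WL h1, πL_qExpand h1 _⟩

theorem phi_ic0 (y : FF K0 M) : (E3 B hco hz 0).φ (ic K0 q M y) =
    (CarE.emb K0 Ω M y : LaurentSeries Ω) := by
  change mphi (phi0 Ω) (ic K0 q M y) = _
  rw [mphi_apply, ic, CarE.emb_incl, phi0_apply, coe_incl]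

theorem phi_ic1 (y : FF K0 M) : (E3 B hco hz 1).φ (ic K0 q M y) =
    (CarE.emb K0 Ω M y : LaurentSeries Ω) := by
  change mphi (phi1 hco (hzΩ Ω hz)) (ic K0 q M y) = _
  rw [mphi_apply, ic, CarE.emb_incl, phi1_incl]

theorem phi_ic2 (y : FF K0 M) : (E3 B hco hz 2).φ (ic K0 q M y) =
    qExpand Ω (q ^ 2) (CarE.emb K0 Ω M y : LaurentSeries Ω) := by
  change mphi (phi2 hco) (ic K0 q M y) = _
  rw [mphi_apply, ic, CarE.emb_incl, phi2_apply, w2_incl, coe_qe]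

theorem ic_W {y : FF K0 M} {a : FF k M}
    (hy : Rd A (CarE.emb K0 Ω M y : LaurentSeries Ω) (a : LaurentSeries k)) (j : Fin 3) :
    ic K0 q M y ∈ ((cm B hco hz hM).comp j).W := by
  match j with
  | 0 => exact mem_W_of_Rd hM (j := 0) (by rw [phi_ic0]; exact hy)
  | 1 => exact mem_W_of_Rd hM (j := 1) (by rw [phi_ic1]; exact hy)
  | 2 => exact mem_W_of_Rd hM (j := 2) (by rw [phi_ic2]; exact rd_qExpand hy)

theorem r_ic0 {y : FF K0 M} {a : FF k M}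
    (hy : Rd A (CarE.emb K0 Ω M y : LaurentSeries Ω) (a : LaurentSeries k)) :
    ((cm B hco hz hM).comp 0).r (ic K0 q M y) = a :=
  Subtype.ext (coe_r_of_Rd hM (j := 0) (by rw [phi_ic0]; exact hy))

theorem r_ic1 {y : FF K0 M} {a : FF k M}
    (hy : Rd A (CarE.emb K0 Ω M y : LaurentSeries Ω) (a : LaurentSeries k)) :
    ((cm B hco hz hM).comp 1).r (ic K0 q M y) = a :=
  Subtype.ext (coe_r_of_Rd hM (j := 1) (by rw [phi_ic1]; exact hy))

end Incl

section Reg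

variable [IsAlgClosed k] [FunField k (FF k M)] [FunField Ω (FF Ω M)]
  [FunField Ω (FF Ω (q ^ 2 * M))]

theorem reg_tt_iff {x : FF Ω (q ^ 2 * M)} :
    Reg Ω (tt Ω q M) x ↔ Reg Ω (jF' Ω (q ^ 2 * M)) x := by
  constructor
  · intro h v hv
    exact h v ((j0_of_t0 v).2 hv)
  · intro h v hv
    exact h v ((j0_of_t0 v).1 hv)

variable (K0 Ω) in
theorem reg_ic {y : FF K0 M} (hy : ∀ v : Place Ω (FF Ω M), 0 ≤ v.ord (jF' Ω M) →
    0 ≤ v.ord (CarE.emb K0 Ω M y)) :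
    Reg Ω (tt Ω q M) (CarE.emb K0 Ω (q ^ 2 * M) (ic K0 q M y)) := by
  rw [reg_tt_iff, ic, CarE.emb_incl]
  have h1 : Reg Ω (jF' Ω M) (CarE.emb K0 Ω M y) := fun v hv => Ge.of_le (hy v hv)
  have := reg_map (incl Ω (dvd_mul_left M (q ^ 2))) (RR.transcendental_jF M) h1
  rwa [incl_jF] at this

theorem emb_tt : CarE.emb K0 Ω (q ^ 2 * M) (tt K0 q M) = tt Ω q M := emb_jm _

include B hco hz hM in
theorem transcendental_tt : Transcendental Ω (tt Ω q M) := by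
  have := (cm B hco hz hM).transcendental_emb_t
  rwa [cm_emb, cm_t, emb_tt] at this

theorem mem_B_iff {x : FF K0 (q ^ 2 * M)} : x ∈ (cm B hco hz hM).B ↔
    (∀ j, x ∈ ((cm B hco hz hM).comp j).W) ∧
      Reg Ω (tt Ω q M) (CarE.emb K0 Ω (q ^ 2 * M) x) := by
  have h1 : x ∈ (cm B hco hz hM).B ↔ x ∈ (cm B hco hz hM).G.W ∧
      Reg Ω ((cm B hco hz hM).emb (cm B hco hz hM).t) ((cm B hco hz hM).emb x) := Iff.rfl
  rw [h1, (cm B hco hz hM).mem_W, cm_emb, cm_t, emb_tt]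

variable {B hco hz} in
theorem ic_mem_B {y : FF K0 M} {a : FF k M}
    (hy : Rd A (CarE.emb K0 Ω M y : LaurentSeries Ω) (a : LaurentSeries k))
    (hr : ∀ v : Place Ω (FF Ω M), 0 ≤ v.ord (jF' Ω M) → 0 ≤ v.ord (CarE.emb K0 Ω M y)) :
    ic K0 q M y ∈ (cm B hco hz hM).B :=
  (mem_B_iff B hco hz hM).2 ⟨ic_W hM hy, reg_ic K0 Ω hr⟩

theorem w2_tt : w2 Ω hco (tt Ω q M) = tt Ω q M := w2_b hco (d1M M)

include hM in
theorem w0_mem_B {x : FF K0 (q ^ 2 * M)} (hx : x ∈ (cm B hco hz hM).B) :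
    w0 hco B.alg B.fixed x ∈ (cm B hco hz hM).B := by
  rw [mem_B_iff] at hx ⊢
  obtain ⟨h1, h2⟩ := hx
  have h3 := w0_mem_iff B hco hz x
  refine ⟨fun j => ?_, ?_⟩
  · match j with
    | 0 => exact h3.2.2.2 (h1 2)
    | 1 => exact h3.2.1.2 (h1 1)
    | 2 => exact h3.1.2 (h1 0)
  · rw [emb_w0]
    have h4 := reg_map (w2 Ω hco : FF Ω (q ^ 2 * M) →ₐ[Ω] FF Ω (q ^ 2 * M))
      (transcendental_tt B hco hz hM) h2
    have h5 : (w2 Ω hco : FF Ω (q ^ 2 * M) →ₐ[Ω] FF Ω (q ^ 2 * M)) (tt Ω q M) = tt Ω q M :=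
      w2_tt hco
    rw [h5] at h4
    exact h4

/-- **surjectivity on the components** -/
theorem good_surj (HL : Lifts M K0 A Ω k) (j : Fin 3) (x : FF k M)
    (hx : Reg k ((cm B hco hz hM).tb j) x) :
    ∃ y ∈ (cm B hco hz hM).B, ((cm B hco hz hM).comp j).r y = x := by
  rw [cm_tb] at hx
  obtain ⟨y, hy, hyr⟩ := HL.lift x (fun Q hQ => by
    have h1 : 0 ≤ Q.ord (jF' k M ^ q) := by
      rw [ord_pow]
      positivity
    rcases hx Q h1 with h | h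
    · rw [h, Q.ord_zero]
    · exact h)
  have hB := ic_mem_B hM (B := B) (hco := hco) (hz := hz) hy hyr
  match j with
  | 0 => exact ⟨_, hB, r_ic0 hM hy⟩
  | 1 => exact ⟨_, hB, r_ic1 hM hy⟩
  | 2 =>
    refine ⟨_, w0_mem_B B hco hz hM hB, ?_⟩
    have h1 := r_w0_2 B hco hz (FF k M) (res_mem B hco hz hM) (ic K0 q M y)
    exact h1.trans (r_ic0 hM hy)

theorem hh_mem_B (i : Fin 3) : hh M B i ∈ (cm B hco hz hM).B := by
  rw [mem_B_iff]
  refine ⟨fun j => (hasL_hh B hco hz i).mem j, fun v hv => ?_⟩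
  exact Ge.of_le (ord_hh B i v hv).ge

theorem reg_hh_inv (i : Fin 3) : Reg Ω (tt Ω q M)
    (CarE.emb K0 Ω (q ^ 2 * M) (hh M B i)⁻¹) := by
  intro v hv
  rw [map_inv₀]
  apply Ge.of_le
  rw [v.ord_inv, ord_hh B i v hv, neg_zero]

variable (q) in
theorem ord_tb {Q : Place k (FF k M)} : 0 ≤ Q.ord (jF' k M ^ q) ↔ 0 ≤ Q.ord (jF' k M) := by
  have hq0 : (0 : ℤ) < q := by exact_mod_cast hq.out.pos
  rw [ord_pow]
  constructor
  · intro h
    by_contra hc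
    push Not at hc
    nlinarith
  · intro h
    positivity

theorem val_hs_pow {Q : Place k (FF k M)} (hQ : 0 ≤ Q.ord (jF' k M)) (n : ℕ) :
    val Q (hs k q M ^ n) = val Q (hs k q M) ^ n :=
  val_pow (Ge.of_le (hs_reg Q hQ)) n

/-- supersingular points lie on all components -/
theorem thru_ss (HL : Lifts M K0 A Ω k) {j : Fin 3} {Q : Place k (FF k M)}
    (hQ : 0 ≤ Q.ord (jF' k M)) (l : Fin 3)
    (hv : val Q (((cm B hco hz hM).comp j).r (hh M B l)) = 0) :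
    ∃ Q' : Place k (FF k M), 0 ≤ Q'.ord (jF' k M) ∧ (cm B hco hz hM).SameAt j Q l Q' := by
  haveI := B.alg
  have hQ' : 0 ≤ Q.ord ((cm B hco hz hM).tb j) := by rw [cm_tb, ord_tb]; exact hQ
  obtain ⟨l', hl', Q', hQ'', hs⟩ := (cm B hco hz hM).thru (good_surj B hco hz hM HL)
    (hh_mem_B B hco hz hM l) (hh_ne B l) (by
      rw [cm_emb, cm_t, emb_tt]; exact reg_hh_inv B l) hQ' hv
  by_cases hll : l = l'
  · subst hll
    exact ⟨Q', by rwa [cm_tb, ord_tb] at hQ'', hs⟩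
  · rw [v_hh_ne B hco hz hM hll] at hl'
    exact absurd hl' (lt_irrefl _)

/-- the value of the residue of a modular unit -/
theorem val_r_hh {i j : Fin 3} (h : i ≠ j) {Q : Place k (FF k M)} (hQ : 0 ≤ Q.ord (jF' k M)) :
    val Q (((cm B hco hz hM).comp j).r (hh M B i)) = 0 ↔ val Q (hs k q M) = 0 := by
  rw [r_hh B hco hz hM h, val_hs_pow hQ]
  exact pow_eq_zero_iff (aa_pos i).ne'

end Reg

end Fermat.Agent.CarM
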