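import Fermat.Agent.CarM.ChartI1

/-!
# The chart at infinity: conclusion
-/

set_option autoImplicit false
set_option linter.style.haveILetI false
set_option linter.unusedSectionVars false

noncomputable section

namespace Fermat.Agent.CarM

open ModularCurve Polynomial IntermediateField Fermat.Agent.ModPoly Fermat.Agent.Cusp AlgebraicCurve
open Fermat.Agent.SemiSt Fermat.Agent.CarE Fermat.Agent.HeckeProd Fermat.Agent.Curve
open Fermat.Agent.RedMod Fermat.Agent.Car Fermat.Agent.RR Fermat.Agent.Red Fermat.Agent.PRem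
open Fermat.Agent.ThmC Fermat.Agent.Nod

variable {R0 K0 A Ω k : Type*} [CommRing R0] [IsDomain R0] [IsDiscreteValuationRing R0]
  [Field K0] [Algebra R0 K0]
  [IsFractionRing R0 K0] [CommRing A] [IsDomain A] [ValuationRing A] [Field Ω]
  [IsAlgClosed Ω] [CharZero Ω]
  [Algebra A Ω] [IsFractionRing A Ω] [Field k] [Algebra A k] [Algebra K0 Ω] [Algebra R0 A]
  [Algebra R0 k] {q M : ℕ} [hq : Fact q.Prime] [NeZero M] [CharP k q]
  (B : Base q R0 K0 A Ω k) (hco : q.Coprime M)
  {z : Aˣ} (hz : z ^ q = 1 ∧ z ≠ 1) (hM : (M : k) ≠ 0)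
  [IsAlgClosed k] [FunField k (FF k M)] [FunField Ω (FF Ω M)]
  [FunField Ω (FF Ω (q ^ 2 * M))]

set_option synthInstance.maxHeartbeats 400000

theorem xa_mem_invB : xa K0 q M ∈ (cm B hco hz hM).inv.B :=
  mem_invB B hco hz hM (mem_xa B hco hz hM) regI_xa

theorem xc_mem_invB : xc K0 q M ∈ (cm B hco hz hM).inv.B :=
  mem_invB B hco hz hM (mem_xc B hco hz hM) regI_xc

/-- the values separate the components at the cusps -/
theorem cusp_sep {j i : Fin 3} {Q Q' : Place k (FF k M)} (hQ : Q.ord (jF' k M) < 0)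
    (hQ' : Q'.ord (jF' k M) < 0) (h : (cm B hco hz hM).inv.SameAt j Q i Q') : j = i := by
  have h1 : val Q (((cm B hco hz hM).comp j).r (xa K0 q M)) =
      val Q' (((cm B hco hz hM).comp i).r (xa K0 q M)) := h _ (xa_mem_invB B hco hz hM)
  have h2 : val Q (((cm B hco hz hM).comp j).r (xc K0 q M)) =
      val Q' (((cm B hco hz hM).comp i).r (xc K0 q M)) := h _ (xc_mem_invB B hco hz hM)
  match j, i, h1, h2 with
  | 0, 0, _, _ => rfl
  | 1, 1, _, _ => rfl
  | 2, 2, _, _ => rfl
  | 0, 1, h1, h2 =>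
    rw [r_xc0, r_xc1, val_one, val_gq hQ'] at h2
    exact absurd h2 one_ne_zero
  | 0, 2, h1, h2 =>
    rw [r_xc0, r_xc2, val_one, val_gq hQ'] at h2
    exact absurd h2 one_ne_zero
  | 1, 0, h1, h2 =>
    rw [r_xc0, r_xc1, val_one, val_gq hQ] at h2
    exact absurd h2 zero_ne_one
  | 2, 0, h1, h2 =>
    rw [r_xc0, r_xc2, val_one, val_gq hQ] at h2
    exact absurd h2 zero_ne_one
  | 1, 2, h1, h2 =>
    rw [r_xa1, r_xa2, val_one, val_gq hQ] at h1
    exact absurd h1 zero_ne_one
  | 2, 1, h1, h2 =>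
    rw [r_xa1, r_xa2, val_one, val_gq hQ'] at h1
    exact absurd h1 one_ne_zero

variable (q) in
theorem ord_tb_neg {Q : Place k (FF k M)} : Q.ord (jF' k M ^ q) < 0 ↔ Q.ord (jF' k M) < 0 := by
  rw [← not_le, ← not_le, ord_tb]

/-- **the intersection points of the chart at infinity** -/
theorem node_inv (HL : Lifts M K0 A Ω k) : (cm B hco hz hM).inv.Node := by
  haveI := B.alg
  refine CModel.node_inv (node B hco hz hM HL) ?_
  intro j Q i Q' hQ hQ' hs
  rw [cm_tb, ord_tb_neg] at hQ hQ'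
  exact cusp_sep B hco hz hM hQ hQ' hs

/-- **the chart at infinity is regular** -/
theorem good_inv (HL : Lifts M K0 A Ω k)
    (hsurj : ∀ (j : Fin 3) (x : FF k M), Reg k ((cm B hco hz hM).inv.tb j) x →
      ∃ y ∈ (cm B hco hz hM).inv.B, ((cm B hco hz hM).inv.comp j).r y = x) :
    (cm B hco hz hM).inv.Good where
  surj := hsurj
  star := by
    haveI := B.alg
    intro j Q hQ
    rw [CModel.tb_inv, Q.ord_inv, neg_nonneg] at hQ
    rcases hQ.eq_or_lt with h | h
    · exact CModel.star_inv (good B hco hz hM HL) h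
    · have h' : Q.ord (jF' k M) < 0 := by rwa [cm_tb, ord_tb_neg] at h
      have key : StarI B hco hz hM j Q := by
        match j with
        | 0 => exact starI_zero B hco hz hM h'
        | 1 => exact starI_one B hco hz hM h'
        | 2 => exact starI_two B hco hz hM h'
      refine ⟨j, Q, ?_, fun x _ => rfl, key⟩
      rw [CModel.tb_inv, Q.ord_inv, neg_nonneg]
      exact hQ

end Fermat.Agent.CarM
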