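import Fermat.Agent.PRem.RmW
import Fermat.Agent.HeckeProd.Formal

/-!
# The modular unit `Δ / Δ(q)` in characteristic `q` is a polynomial in `j`
-/

set_option autoImplicit false
set_option linter.style.haveILetI false
set_option linter.unusedSectionVars false

noncomputable section

namespace Fermat.Agent.CarM

open ModularCurve Polynomial IntermediateField Fermat.Agent.ModPoly Fermat.Agent.Cusp AlgebraicCurve
open Fermat.Agent.SemiSt Fermat.Agent.Curve Fermat.Agent.RR Fermat.Agent.HeckeProd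

section Main

variable (k : Type*) [Field k] (q : ℕ) [hq : Fact q.Prime]

/-- the power series `Δ / Δ(q)` -/
def hsL : LaurentSeries k := Dc 1 1 / Dc 1 (pp q)

theorem hsL_ne : hsL k q ≠ 0 := div_ne_zero (Dc_ne_zero _ _) (Dc_ne_zero _ _)

theorem Dc_one_one' : (Dc 1 1 : LaurentSeries k) = deltaC k := by
  haveI : NeZero ((1 : ℕ+) : ℕ) := ⟨one_ne_zero⟩
  rw [PRem.Dc_one_eq k 1]
  exact qExpand_one_apply _

theorem Dc_one_pp (m : ℕ+) [NeZero (m : ℕ)] : (Dc 1 m : LaurentSeries k) =
    qExpand k (m : ℕ) (Dc 1 1) := by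
  rw [PRem.Dc_one_eq k m, Dc_one_one']

variable [CharP k q]

instance : NeZero ((pp q : ℕ+) : ℕ) := ⟨hq.out.ne_zero⟩
instance : NeZero ((pp q * pp q : ℕ+) : ℕ) := ⟨(pp q * pp q).ne_zero⟩

theorem Fr_Dc : Fr q (Dc 1 1 : LaurentSeries k) = Dc 1 1 := by
  rw [Dc_one_one', Fr, coeffMap_deltaC]

theorem Fr_J : Fr q (jqModC k) = jqModC k := coeffMap_jqModC _

theorem Dc_q : (Dc 1 (pp q) : LaurentSeries k) = Dc 1 1 ^ q := by
  haveI : NeZero q := ⟨hq.out.ne_zero⟩
  rw [pow_eq_qExpand q (Dc 1 1), Fr_Dc, Dc_one_pp k (pp q)]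
  rfl

theorem qExpand_Dc (x : LaurentSeries k) (hx : Fr q x = x) :
    haveI : NeZero q := ⟨hq.out.ne_zero⟩
    qExpand k q x = x ^ q := by
  haveI : NeZero q := ⟨hq.out.ne_zero⟩
  rw [pow_eq_qExpand q x, hx]

theorem Dc_qq : (Dc 1 (pp q * pp q) : LaurentSeries k) = Dc 1 1 ^ (q * q) := by
  haveI : NeZero q := ⟨hq.out.ne_zero⟩
  have h1 : (Dc 1 (pp q * pp q) : LaurentSeries k) = qExpand k q (Dc 1 (pp q)) := by
    rw [Dc, Dc, ← Sb_one_eq q (pp q) (coe_pp q), Sb_Sb, one_pow, one_mul]
  rw [h1, qExpand_Dc k q, Dc_q, ← pow_mul]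
  rw [Dc_q, map_pow, Fr_Dc]

theorem order_hsL : (hsL k q).order = -((q : ℤ) - 1) := by
  have h1 : hsL k q * Dc 1 (pp q) = Dc 1 1 := div_mul_cancel₀ _ (Dc_ne_zero _ _)
  have h2 := congrArg HahnSeries.order h1
  rw [HahnSeries.order_mul (hsL_ne k q) (Dc_ne_zero _ _), order_Dc, order_Dc, coe_pp,
    PNat.one_coe] at h2
  push_cast at h2
  linarith

/-- **`Δ / Δ(q)` is a polynomial in `j` of degree `q - 1`** -/
theorem exists_hasse [IsAlgClosed k] : ∃ P : k[X], aeval (jqModC k) P = hsL k q ∧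
    P.natDegree = q - 1 := by
  haveI : NeZero q := ⟨hq.out.ne_zero⟩
  obtain ⟨D⟩ := exists_data (k := k) q
  have hζ : (D.ζ : k) = 1 := by
    have h1 := D.zeta_root
    have h2 : (D.ζ : k) ^ q = 1 := by
      have h3 : (cyclotomic q k) ∣ X ^ q - 1 := cyclotomic.dvd_X_pow_sub_one q k
      have h4 := Polynomial.eval_dvd (x := (D.ζ : k)) h3
      rw [h1.eq_zero, zero_dvd_iff] at h4
      simpa [sub_eq_zero] using h4
    have h3 : ((D.ζ : k) - 1) ^ q = 0 := by
      rw [sub_pow_char, h2, one_pow, sub_self]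
    exact sub_eq_zero.1 (pow_eq_zero_iff hq.out.ne_zero |>.1 h3)
  have hζ' : D.ζ = 1 := Units.ext hζ
  obtain ⟨u, hu⟩ : ∃ u : LaurentSeries k, u = deltaC k * qExpand k q (deltaInvC k) := ⟨_, rfl⟩
  have hf : uF q D.ζ = fun α : Idx q => Option.elim α 0 (fun _ => u) := by
    funext α
    rcases α with _ | b
    · change HahnSeries.C ((q : k) ^ 12) * _ * _ = (0 : LaurentSeries k)
      rw [CharP.cast_eq_zero, zero_pow (by norm_num), map_zero, zero_mul, zero_mul]
    · change twist (D.ζ ^ b.val) (deltaC k) * qExpand k q (deltaInvC k) = u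
      rw [hζ', one_pow, HeckeProd.twist_one, hu]
  have hphi : phiP (uF q D.ζ) = X * (X - C u) ^ q := by
    rw [hf, phiP, Fintype.prod_option]
    simp only [Option.elim_none, Option.elim_some, map_zero, sub_zero, Finset.prod_const,
      Finset.card_univ, ZMod.card]
  have hc : evJ k q (D.U.coeff 1) = (-u) ^ q := by
    have h1 := congrArg (fun R : (LaurentSeries k)[X] => R.coeff 1) D.mapU
    simp only [coeff_map, hphi] at h1
    rw [h1, coeff_X_mul, coeff_zero_eq_eval_zero]
    simp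
  have hu' : u = hsL k q * (Dc 1 1 : LaurentSeries k) ^ 0 := by
    rw [pow_zero, mul_one, hu, hsL, Dc_one_one', Dc_one_pp k (pp q), Dc_one_one']
    have h2 : qExpand k q (deltaC k) * qExpand k q (deltaInvC k) = 1 := by
      rw [← map_mul, deltaC_mul_inv, map_one]
    have h3 : qExpand k q (deltaInvC k) = (qExpand k q (deltaC k))⁻¹ :=
      (eq_inv_of_mul_eq_one_right h2)
    rw [h3, div_eq_mul_inv]
    rfl
  rw [pow_zero, mul_one] at hu'
  obtain ⟨P, hP⟩ : ∃ P : k[X], P = -(D.U.coeff 1) := ⟨_, rfl⟩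
  have hFr : Fr q (hsL k q) = hsL k q := by
    rw [hsL, map_div₀, Fr_Dc, Dc_q, map_pow, Fr_Dc]
  have h1 : evJ k q P = qExpand k q (hsL k q) := by
    rw [hP, map_neg, hc, hu', qExpand_Dc k q _ hFr]
    have h2 : ((-1 : LaurentSeries k)) ^ q = -1 := by
      haveI : CharP (LaurentSeries k) q := charP_of_injective_algebraMap
        (algebraMap k (LaurentSeries k)).injective q
      have h3 : ((-1 : LaurentSeries k) + 1) ^ q = (-1) ^ q + 1 ^ q := add_pow_char _ _ _
      rw [neg_add_cancel, zero_pow hq.out.ne_zero, one_pow] at h3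
      exact eq_neg_of_add_eq_zero_left h3.symm
    rw [← neg_one_mul (hsL k q), mul_pow, h2]
    ring
  have h2 : aeval (jqModC k) P = hsL k q := by
    apply qExpand_injective q
    rw [← h1, evJ_eq_aeval]
    have h3 : ∀ R : k[X], qExpand k q (aeval (jqModC k) R) =
        aeval (qExpand k q (jqModC k)) R := by
      intro R
      have := aeval_algHom_apply (SbA (1 : kˣ) (pp q)) (jqModC k) R
      rw [SbA_apply, SbA_apply, Sb_one_eq q (pp q) (coe_pp q), Sb_one_eq q (pp q) (coe_pp q)]
        at this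
      exact this.symm
    exact h3 P
  refine ⟨P, h2, ?_⟩
  have hP0 : P ≠ 0 := by
    rintro rfl
    rw [map_zero] at h2
    exact hsL_ne k q h2.symm
  haveI : NeZero 1 := ⟨one_ne_zero⟩
  have h3 := evJ_order (k := k) 1 P hP0
  have h4 : evJ k 1 P = aeval (jqModC k) P := by
    rw [evJ_eq_aeval, qExpand_one_apply]
    rfl
  rw [h4, h2, order_hsL, one_mul] at h3
  have := hq.out.one_lt
  omega

end Main

section Place

variable {k : Type*} [Field k] [IsAlgClosed k] {q M : ℕ} [hq : Fact q.Prime] [CharP k q] [NeZero M]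

variable (k q M) in
/-- the polynomial of `Δ / Δ(q)` -/
def hsP : k[X] := (exists_hasse k q).choose

variable (k q M) in
/-- the function `Δ / Δ(q)` -/
def hs : FF k M := aeval (jF' k M) (hsP k q)

theorem coe_hs : (hs k q M : LaurentSeries k) = hsL k q := by
  refine Eq.trans ?_ (exists_hasse k q).choose_spec.1
  have h1 := aeval_algHom_apply (FF k M).val (jF' k M) (exists_hasse k q).choose
  have h2 : (FF k M).val (jF' k M) = jqModC k := Jc_one_one
  rw [h2] at h1
  exact h1.symm

theorem hs_ne : hs k q M ≠ 0 := fun h => hsL_ne k q (by rw [← coe_hs (M := M), h]; rfl)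

/-- regular where `j` is -/
theorem hs_reg (Q : Place k (FF k M)) (hQ : 0 ≤ Q.ord (jF' k M)) : 0 ≤ Q.ord (hs k q M) := by
  rw [← mem_iff_ord_nonneg]
  exact Red.aeval_mem_place Q hQ _

theorem ord_aeval_of_neg {F : Type*} [Field F] [Algebra k F] [FunField k F] (Q : Place k F) {x : F}
    (hx : Q.ord x < 0) (P : k[X]) (hP : P ≠ 0) : Q.ord (aeval x P) = P.natDegree * Q.ord x := by
  have hx0 : x ≠ 0 := by
    rintro rfl
    rw [Q.ord_zero] at hx
    exact lt_irrefl _ hx
  have key : ∀ n : ℕ, ∀ P : k[X], P ≠ 0 → P.natDegree ≤ n →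
      aeval x P ≠ 0 ∧ Q.ord (aeval x P) = P.natDegree * Q.ord x := by
    intro n
    induction n with
    | zero =>
      intro P hP hn
      obtain ⟨c, rfl⟩ := natDegree_eq_zero.1 (Nat.le_zero.1 hn)
      have hc : c ≠ 0 := by rintro rfl; exact hP C_0
      rw [aeval_C, natDegree_C, Nat.cast_zero, zero_mul]
      exact ⟨(_root_.map_ne_zero _).2 hc, ord_algebraMap Q _⟩
    | succ n ih =>
      intro P hP hn
      by_cases hd : P.natDegree = 0
      · obtain ⟨c, rfl⟩ := natDegree_eq_zero.1 hd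
        have hc : c ≠ 0 := by rintro rfl; exact hP C_0
        rw [aeval_C, natDegree_C, Nat.cast_zero, zero_mul]
        exact ⟨(_root_.map_ne_zero _).2 hc, ord_algebraMap Q _⟩
      have h1 := P.divX_mul_X_add
      have hdX : P.divX ≠ 0 := by
        intro h0
        rw [h0, zero_mul, zero_add] at h1
        exact hd (by rw [← h1, natDegree_C])
      have h2 := natDegree_divX_eq_natDegree_tsub_one (p := P)
      obtain ⟨h3, h4⟩ := ih P.divX hdX (by omega)
      have h5 : aeval x P = aeval x P.divX * x + algebraMap k F (P.coeff 0) := by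
        conv_lhs => rw [← h1]
        rw [map_add, map_mul, aeval_X, aeval_C]
      have h6 : Q.ord (aeval x P.divX * x) = P.natDegree * Q.ord x := by
        rw [Q.ord_mul h3 hx0, h4, h2]
        have : 1 ≤ P.natDegree := Nat.one_le_iff_ne_zero.2 hd
        push_cast [this]
        ring
      have hlt : Q.ord (aeval x P.divX * x) < 0 := by
        rw [h6]
        have : (1 : ℤ) ≤ P.natDegree := by exact_mod_cast Nat.one_le_iff_ne_zero.2 hd
        nlinarith
      have h8 : aeval x P.divX * x ≠ 0 := mul_ne_zero h3 hx0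
      by_cases hc : P.coeff 0 = 0
      · rw [h5, hc, map_zero, add_zero]
        exact ⟨h8, h6⟩
      have hc' : algebraMap k F (P.coeff 0) ≠ 0 := (_root_.map_ne_zero _).2 hc
      have h9 : aeval x P ≠ 0 := by
        intro h0
        rw [h0] at h5
        have h10 : aeval x P.divX * x = algebraMap k F (-(P.coeff 0)) := by
          rw [map_neg]
          exact eq_neg_of_add_eq_zero_left h5.symm
        rw [h10, ord_algebraMap] at hlt
        exact lt_irrefl _ hlt
      refine ⟨h9, ?_⟩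
      rw [← h6, h5]
      exact ord_add_eq_of_lt Q h8 hc' (by rw [ord_algebraMap]; exact hlt)
  exact (key _ P hP le_rfl).2

theorem hs_ord (hM : (M : k) ≠ 0) (Q : Place k (FF k M)) (hQ : Q.ord (jF' k M) < 0) :
    Q.ord (hs k q M) = ((q : ℤ) - 1) * Q.ord (jF' k M) := by
  haveI := funField_FF (k := k) (M := M) hM
  have hP : hsP k q ≠ 0 := by
    intro h0
    apply hs_ne (k := k) (q := q) (M := M)
    rw [hs, h0, map_zero]
  rw [hs, ord_aeval_of_neg Q hQ _ hP, hsP, (exists_hasse k q).choose_spec.2]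
  have := hq.out.one_lt
  push_cast [this.le]
  ring

end Place

end Fermat.Agent.CarM
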