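import Fermat.Agent.CarM.NodeM
import Fermat.Agent.Car.Trans

/-!
# The zeros of the Hasse invariant
-/

set_option autoImplicit false
set_option linter.style.haveILetI false
set_option linter.unusedSectionVars false

noncomputable section

namespace Fermat.Agent.CarM

open ModularCurve Polynomial IntermediateField Fermat.Agent.ModPoly Fermat.Agent.Cusp AlgebraicCurve
open Fermat.Agent.SemiSt Fermat.Agent.CarE Fermat.Agent.HeckeProd Fermat.Agent.Curve
open Fermat.Agent.RedMod Fermat.Agent.Car Fermat.Agent.RR Fermat.Agent.Red Fermat.Agent.PRem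
open Fermat.Agent.ThmC Fermat.Agent.Nod

variable {R0 K0 A Ω k : Type*} [CommRing R0] [IsDomain R0] [IsDiscreteValuationRing R0]
  [Field K0] [Algebra R0 K0]
  [IsFractionRing R0 K0] [CommRing A] [IsDomain A] [ValuationRing A] [Field Ω]
  [IsAlgClosed Ω] [CharZero Ω]
  [Algebra A Ω] [IsFractionRing A Ω] [Field k] [Algebra A k] [Algebra K0 Ω] [Algebra R0 A]
  [Algebra R0 k] {q M : ℕ} [hq : Fact q.Prime] [NeZero M] [CharP k q]
  (B : Base q R0 K0 A Ω k) (hco : q.Coprime M)
  {z : Aˣ} (hz : z ^ q = 1 ∧ z ≠ 1) (hM : (M : k) ≠ 0)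

set_option synthInstance.maxHeartbeats 400000


variable [IsAlgClosed k] [FunField k (FF k M)] [FunField Ω (FF Ω M)]
  [FunField Ω (FF Ω (q ^ 2 * M))]

/-- the residue of the modular unit of the middle component -/
theorem res_one (HL : Lifts M K0 A Ω k) {Q : Place k (FF k M)} (hQ : 0 ≤ Q.ord (jF' k M)) :
    ∃ (y : FF K0 M) (a : FF k M),
      Rd A (CarE.emb K0 Ω M y : LaurentSeries Ω) (a : LaurentSeries k) ∧ Q.ord a = 1 ∧
      (∀ v : Place Ω (FF Ω M), 0 ≤ v.ord (jF' Ω M) → 0 ≤ v.ord (CarE.emb K0 Ω M y)) ∧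
      ((cm B hco hz hM).comp 1).v (uy B hco y) = 1 ∧
      val Q (((cm B hco hz hM).comp 1).r (uy B hco y ^ (12 * (q - 1)) * (hh M B 1)⁻¹)) ≠ 0 := by
  obtain ⟨y, a, hya, ha1, hyr, g, hg, hne, hord⟩ := HL.unif Q hQ
  obtain ⟨w, hw, hwe⟩ := exists_quot_Rd (A := A) (q := q) hz hya
  have hφu := phi1_uy B hco hz y
  rw [hwe] at hφu
  have hg0 : g ≠ 0 := by
    rintro rfl
    apply hne
    ring
  have hth : theta (a : LaurentSeries k) ≠ 0 := by
    rw [hg]
    exact mul_ne_zero (fun h => hg0 (Subtype.ext h)) theta_jq_ne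
  have hv1 : ((cm B hco hz hM).comp 1).v (uy B hco y) = 1 := by
    have := v_of_Rd hM (B := B) (hco := hco) (hz := hz) (j := 1) (n := 1) hw hth (by
      rw [hφu, pow_one]; rfl)
    exact_mod_cast this
  refine ⟨y, a, hya, ha1, hyr, hv1, ?_⟩
  obtain ⟨n, hn⟩ : ∃ n, q = n + 1 := ⟨q - 1, (Nat.succ_pred_prime hq.out).symm⟩
  have hn1 : q - 1 = n := by omega
  have hnpos : 1 ≤ n := by have := hq.out.two_le; omega
  set u := uy B hco y with hu
  set h := hh M B 1 with hh1
  have hh0 : h ≠ 0 := hh_ne B 1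
  rw [← div_eq_mul_inv, hn1]
  obtain ⟨ε, hε, heq⟩ := exists_lam_pow (A := A) (k := k) (hz_val hz)
  rw [hn1] at heq
  let D' : LaurentSeries A := DA 1 (pp q * 1) ^ 2 * DI 1 1 * DI z 1
  let cc : LaurentSeries Ω := HahnSeries.C (algebraMap A Ω (1 - (z : A)))
  have hcc : cc ≠ 0 := (E3 B hco hz (M := M) 1).C_ne
  have hφh : (E3 B hco hz 1).φ h = cc ^ (12 * n) * incL A Ω (HahnSeries.C (ε ^ 12) * D') := by
    have e1 := hasL_hh B hco hz (M := M) 1 1
    rw [e1]
    change incL A Ω (HahnSeries.C ((q : A) ^ 12) * D') = _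
    rw [heq, mul_pow, ← pow_mul, mul_comm n 12, map_mul HahnSeries.C, mul_assoc,
      map_mul (incL A Ω), coeffMap_C, map_pow (algebraMap A Ω), map_pow HahnSeries.C]
  have hφx : (E3 B hco hz 1).φ (u ^ (12 * n) / h) =
      w ^ (12 * n) / incL A Ω (HahnSeries.C (ε ^ 12) * D') := by
    rw [map_div₀, map_pow, hφu, hφh, mul_pow, mul_div_mul_left _ _ (pow_ne_zero _ hcc)]
  have hred : redL A k (HahnSeries.C (ε ^ 12) * D') =
      HahnSeries.C (algebraMap A k ε ^ 12) *
        ((Dc 1 1 ^ (n + 1)) ^ 2 * (Dc 1 1)⁻¹ * (Dc 1 1)⁻¹) := by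
    have e1 : redL A k (HahnSeries.C (ε ^ 12)) = HahnSeries.C (algebraMap A k ε ^ 12) := by
      rw [coeffMap_C, map_pow]
    rw [map_mul, e1]
    change _ * redL A k (DA 1 (pp q * 1) ^ 2 * DI 1 1 * DI z 1) = _
    rw [map_mul, map_mul, map_pow (redL A k) (DA 1 (pp q * 1)), redL_DA_one, redL_DI_one,
      redL_DI_z hz, Dc_q1, ← hn]
  have hCε : (HahnSeries.C (algebraMap A k ε ^ 12) : LaurentSeries k) ≠ 0 :=
    HahnSeries.C_ne_zero (pow_ne_zero _ hε)
  have hd := Dc_ne_zero (k := k) 1 1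
  have hrne : redL A k (HahnSeries.C (ε ^ 12) * D') ≠ 0 := by
    rw [hred]
    exact mul_ne_zero hCε (mul_ne_zero (mul_ne_zero (pow_ne_zero _ (pow_ne_zero _ hd))
      (inv_ne_zero hd)) (inv_ne_zero hd))
  have hRd := (hw.pow (12 * n)).div (Rd.incL (K := Ω) (HahnSeries.C (ε ^ 12) * D')) hrne
  rw [← hφx] at hRd
  have hr := coe_r_of_Rd hM hRd
  let gg : FF k M := g ^ 6 * jF' k M ^ 4 * (jF' k M - 1728) ^ 3
  have hgg : theta (a : LaurentSeries k) ^ 6 = (gg : LaurentSeries k) * Dc 1 1 := by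
    rw [hg, mul_pow, theta_jq_pow, ← Dc_one_one']
    have e2 : (gg : LaurentSeries k) =
        (g : LaurentSeries k) ^ 6 * jqModC k ^ 4 * (jqModC k - 1728) ^ 3 := by
      have e3 : ((jF' k M : FF k M) : LaurentSeries k) = jqModC k := Jc_one_one
      have e4 : (gg : LaurentSeries k) = (g : LaurentSeries k) ^ 6 *
        ((jF' k M : FF k M) : LaurentSeries k) ^ 4 *
        (((jF' k M : FF k M) : LaurentSeries k) - 1728) ^ 3 := rfl
      rw [e4, e3]
    rw [e2]
    ring
  rw [hred, alg_id hd _ hCε hgg] at hr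
  have hr' : ((cm B hco hz hM).comp 1).r (u ^ (12 * n) / h) =
      algebraMap k (FF k M) ((algebraMap A k ε ^ 12)⁻¹) * gg ^ (2 * n) := by
    apply Subtype.ext
    rw [hr, MulMemClass.coe_mul, SubmonoidClass.coe_pow]
    congr 1
    change _ = algebraMap k (LaurentSeries k) _
    rw [algebraMap_eq_C, map_inv₀]
  rw [hr']
  have hc0 : algebraMap k (FF k M) ((algebraMap A k ε ^ 12)⁻¹) ≠ 0 :=
    (_root_.map_ne_zero _).2 (inv_ne_zero (pow_ne_zero _ hε))
  have hg2 : gg ^ (2 * n) ≠ 0 := pow_ne_zero _ hne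
  have hordx : Q.ord (algebraMap k (FF k M) ((algebraMap A k ε ^ 12)⁻¹) * gg ^ (2 * n)) = 0 := by
    rw [Q.ord_mul hc0 hg2, ord_algebraMap, ord_pow, hord, mul_zero, add_zero]
  rw [val_ne_zero_iff (Ge.of_le hordx.ge) (mul_ne_zero hc0 hg2)]
  exact hordx


omit [IsAlgClosed k] in
theorem qExpand_sq_eq (x : LaurentSeries k) :
    qExpand k (q ^ 2) x = qExpand k q (qExpand k q x) := by
  rw [qExpand_eq_Sb (q ^ 2) (pp q * pp q) (by rw [PNat.mul_coe, coe_pp, pow_two]),
    qExpand_eq_Sb q (pp q) (coe_pp q), qExpand_eq_Sb q (pp q) (coe_pp q), Sb_Sb, one_pow,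
    one_mul]

theorem r_uy0 {y : FF K0 M} {a : FF k M}
    (hy : Rd A (CarE.emb K0 Ω M y : LaurentSeries Ω) (a : LaurentSeries k)) :
    ((cm B hco hz hM).comp 0).r (uy B hco y) = a - (fd k q M).σ ((fd k q M).σ a) := by
  have h1 := r_w0_0 B hco hz (FF k M) (res_mem B hco hz hM) (ic K0 q M y)
  have hw : w0 hco B.alg B.fixed (ic K0 q M y) ∈ ((cm B hco hz hM).comp 0).W :=
    (w0_mem_iff B hco hz (ic K0 q M y)).2.2.2 (ic_W hM hy 2)
  have h2 : ((cm B hco hz hM).comp 0).r (w0 hco B.alg B.fixed (ic K0 q M y)) =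
      (fd k q M).σ ((fd k q M).σ a) := by
    refine Eq.trans h1 ?_
    apply Subtype.ext
    have h3 := coe_r_of_Rd (B := B) (hco := hco) (hz := hz) hM (j := 2)
      (x := ic K0 q M y) (by rw [phi_ic2]; exact rd_qExpand hy)
    refine Eq.trans h3 ?_
    rw [fd_σ, fd_σ, coe_Frq, coe_Frq]
    exact qExpand_sq_eq _
  rw [uy, Comp.r_sub (ic_W hM hy 0) hw, r_ic0 hM hy, h2]

include B hco hz hM in
/-- **the zeros of the Hasse invariant are simple** -/
theorem ord_hs (HL : Lifts M K0 A Ω k) {Q : Place k (FF k M)} (hQ : 0 ≤ Q.ord (jF' k M))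
    (hss : val Q (hs k q M) = 0) : Q.ord (hs k q M) = 12 := by
  obtain ⟨y, a, hya, ha1, hyr, hv1, hval⟩ := res_one B hco hz hM HL hQ
  have hic := ic_mem_B hM (B := B) (hco := hco) (hz := hz) hya hyr
  have huB : uy B hco y ∈ (cm B hco hz hM).B := sub_mem hic (w0_mem_B B hco hz hM hic)
  set u := uy B hco y with hu
  set n := q - 1 with hn
  have hnpos : 1 ≤ n := by have := hq.out.two_le; omega
  have hu0 : u ≠ 0 := by
    intro h0
    rw [h0, Comp.v_zero] at hv1
    exact zero_ne_one hv1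
  have hh0 : hh M B 1 ≠ 0 := hh_ne B 1
  have hvh : ∀ l : Fin 3, l ≠ 1 → ((cm B hco hz hM).comp l).v (hh M B 1) = 0 := fun l hl =>
    v_hh_ne B hco hz hM hl.symm
  have hxW : ∀ l, u ^ (12 * n) * (hh M B 1)⁻¹ ∈ ((cm B hco hz hM).comp l).W := by
    intro l
    apply Comp.mem_of_v
    by_cases hl : l = 1
    · subst hl
      rw [Comp.v_mul _ (pow_ne_zero _ hu0) (inv_ne_zero hh0), Comp.v_pow, Comp.v_inv, hv1, v_hh_1]
      push_cast
      rw [hn]
      linarith
    · have h1 : 0 ≤ ((cm B hco hz hM).comp l).v u := by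
        have h2 := Comp.ge_of_mem (((mem_B_iff B hco hz hM).1 huB).1 l)
        rcases h2 with h2 | h2
        · exact absurd h2 hu0
        · exact h2
      rw [Comp.v_mul _ (pow_ne_zero _ hu0) (inv_ne_zero hh0), Comp.v_pow, Comp.v_inv, hvh l hl,
        neg_zero, add_zero]
      positivity
  have hxB : u ^ (12 * n) * (hh M B 1)⁻¹ ∈ (cm B hco hz hM).B := by
    rw [mem_B_iff]
    refine ⟨hxW, ?_⟩
    rw [map_mul, map_pow]
    have h1 := ((mem_B_iff B hco hz hM).1 huB).2
    have h2 : ∀ m : ℕ, Reg Ω (tt Ω q M) (CarE.emb K0 Ω (q ^ 2 * M) u ^ m) := by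
      intro m v hv
      exact ((h1 v hv).pow m).mono (by simp)
    exact (h2 _).mul (reg_hh_inv B 1)
  have hsame := same_all B hco hz hM HL (j := 1) hQ hss 0
  have hval0 := hsame _ hxB
  rw [hval0] at hval
  have hu00 : ((cm B hco hz hM).comp 0).r u = a - (fd k q M).σ ((fd k q M).σ a) :=
    r_uy0 B hco hz hM hya
  have huW0 : u ∈ ((cm B hco hz hM).comp 0).W := ((mem_B_iff B hco hz hM).1 huB).1 0
  have h01 : ((cm B hco hz hM).comp 0).v (hh M B 1) = 0 := hvh 0 (by decide)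
  have hhW : (hh M B 1)⁻¹ ∈ ((cm B hco hz hM).comp 0).W :=
    Comp.mem_of_v (by rw [Comp.v_inv, h01, neg_zero])
  have hr : ((cm B hco hz hM).comp 0).r (u ^ (12 * n) * (hh M B 1)⁻¹) =
      (a - (fd k q M).σ ((fd k q M).σ a)) ^ (12 * n) * (hs k q M ^ n)⁻¹ := by
    rw [Comp.r_mul (pow_mem huW0 _) hhW, Comp.r_pow huW0, hu00, Comp.r_inv h01,
      r_hh B hco hz hM (by decide)]
    rfl
  rw [hr] at hval
  -- the order of the residue of `u`
  have hvu : val Q (((cm B hco hz hM).comp 0).r u) = 0 := by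
    rw [← hsame _ huB]
    have : ((cm B hco hz hM).comp 1).r u = 0 :=
      (Comp.r_eq_zero_iff (((mem_B_iff B hco hz hM).1 huB).1 1)).2 (Or.inr hv1.ge)
    rw [this, val_zero]
  rw [hu00] at hvu
  have ha0 : a ≠ 0 := by
    rintro rfl
    rw [Q.ord_zero] at ha1
    exact zero_ne_one ha1
  have hga : Ge Q 1 a := Ge.of_le ha1.ge
  set b := (fd k q M).σ ((fd k q M).σ a) with hb
  have hb0 : b ≠ 0 := by
    rw [hb]
    exact (_root_.map_ne_zero _).2 ((_root_.map_ne_zero _).2 ha0)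
  have hob : Q.ord b = (q : ℤ) * (q * ((fd k q M).g • (fd k q M).g • Q).ord a) := by
    rw [hb, FrobData.ord_σ, FrobData.ord_σ]
  have hq2 : (2 : ℤ) ≤ q := by exact_mod_cast hq.out.two_le
  have hab : a - b ≠ 0 := by
    intro h0
    apply hval
    rw [h0, zero_pow (by omega), zero_mul, val_zero]
  have hord : Q.ord (a - b) = 1 := by
    set c := ((fd k q M).g • (fd k q M).g • Q).ord a with hc
    have hgb : Ge Q 2 b := by
      by_cases hc0 : 1 ≤ c
      · apply Ge.of_le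
        rw [hob]
        have h1 : (q : ℤ) * 1 ≤ q * c := mul_le_mul_of_nonneg_left hc0 (by linarith)
        have h2 : (q : ℤ) * (q * 1) ≤ q * (q * c) := mul_le_mul_of_nonneg_left h1 (by linarith)
        nlinarith
      · exfalso
        push Not at hc0
        have hc1 : c ≤ 0 := by omega
        have hb1 : Q.ord b ≤ 0 := by
          rw [hob]
          have : (q : ℤ) * c ≤ 0 := mul_nonpos_of_nonneg_of_nonpos (by linarith) hc1
          exact mul_nonpos_of_nonneg_of_nonpos (by linarith) this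
        have hlt : Ge Q (Q.ord b + 1) (b - -(a - b)) := by
          have : b - -(a - b) = a := by ring
          rw [this]
          exact hga.mono (by linarith)
        have h3 := Ge.ord_eq hlt hb0
        rw [ord_neg] at h3
        have h4 := h3.2
        have hreg : Ge Q 0 (a - b) := by
          haveI := B.alg
          have h5 := (cm B hco hz hM).reg_r huB 0 Q (by rwa [cm_tb, ord_tb])
          rwa [hu00] at h5
        have h7 := (val_eq_zero_iff hreg).1 hvu
        have h8 := h7.le_ord hab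
        omega
    have hlt : Ge Q (Q.ord a + 1) (a - (a - b)) := by
      have : a - (a - b) = b := by ring
      rw [this, ha1]
      exact hgb
    have h3 := Ge.ord_eq hlt ha0
    rw [h3.2, ha1]
  have hhs : hs k q M ≠ 0 := hs_ne
  have hzero := ord_eq_zero_of_val_ne hval
  rw [Q.ord_mul (pow_ne_zero _ hab) (inv_ne_zero (pow_ne_zero _ hhs)), ord_pow, Q.ord_inv,
    ord_pow, hord] at hzero
  have hn0 : (0 : ℤ) < n := by exact_mod_cast hnpos
  have : (n : ℤ) * Q.ord (hs k q M) = n * 12 := by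
    push_cast at hzero
    linarith
  exact mul_left_cancel₀ hn0.ne' this

end Fermat.Agent.CarM
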