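import Fermat.Agent.CarM.Unit2
import Fermat.Agent.CarM.ThJ
import Fermat.Agent.Car.Thru

/-!
# Quotients of differences of twists
-/

set_option autoImplicit false
set_option linter.style.haveILetI false
set_option linter.unusedSectionVars false

noncomputable section

namespace Fermat.Agent.CarM

open ModularCurve Polynomial IntermediateField Fermat.Agent.ModPoly Fermat.Agent.Cusp AlgebraicCurve
open Fermat.Agent.SemiSt Fermat.Agent.CarE Fermat.Agent.HeckeProd Fermat.Agent.Curve
open Fermat.Agent.RedMod Fermat.Agent.Car Fermat.Agent.RR Fermat.Agent.Red Fermat.Agent.PRem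
open Fermat.Agent.ThmC Fermat.Agent.Nod

section Quot

variable {A Ω k : Type*} [CommRing A] [IsDomain A] [ValuationRing A] [Field Ω]
  [Algebra A Ω] [IsFractionRing A Ω] [Field k] [Algebra A k]
  {q : ℕ} [hq : Fact q.Prime] [CharP k q] {z : Aˣ}

theorem quot_alg {R : Type*} [CommRing R] {x x' u u' v v' c Gu Gv : R} (h : v * x = u)
    (h' : v' * x' = u') (hu : u - u' = c * Gu) (hv : v - v' = c * Gv) :
    (x - x') * (v * v') = c * (Gu * v - u * Gv) := by
  linear_combination v' * h - v * h' + v * hu - u * hv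

/-- the quotient `(x - x (z q)) / (1 - z)` reduces to the derivative -/
theorem exists_quot_Rd (hz : z ^ q = 1 ∧ z ≠ 1) {x : LaurentSeries Ω} {a : LaurentSeries k}
    (hx : Rd A x a) : ∃ w : LaurentSeries Ω, Rd A w (theta a) ∧
      x - twist (Units.map (algebraMap A Ω : A →* Ω) z) x =
        HahnSeries.C (algebraMap A Ω (1 - (z : A))) * w := by
  obtain ⟨hxW, hxa⟩ := hx
  obtain ⟨u, v, hv, h⟩ := mem_WL.1 hxW
  have hq' := πL_eq ⟨x, hxW⟩ hv h
  obtain ⟨Gu, hGu, hGu'⟩ := exists_quot (A := A) (k := k) z hz u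
  obtain ⟨Gv, hGv, hGv'⟩ := exists_quot (A := A) (k := k) z hz v
  have ru : redL A k Gu = theta (redL A k u) := by
    ext n
    rw [theta_coeff]
    exact hGu' n
  have rv : redL A k Gv = theta (redL A k v) := by
    ext n
    rw [theta_coeff]
    exact hGv' n
  have hz1 : Units.map (algebraMap A k : A →* k) z = 1 := by
    apply Units.ext
    exact red_z (hz_val hz)
  have e1 : ∀ u : LaurentSeries A, incL A Ω (twist z u) =
      twist (Units.map (algebraMap A Ω : A →* Ω) z) (incL A Ω u) := fun u =>
    HeckeProd.coeffMap_twist _ z u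
  have e2 : ∀ u : LaurentSeries A, redL A k (twist z u) = redL A k u := by
    intro u
    rw [redL, HeckeProd.coeffMap_twist, hz1, HeckeProd.twist_one]
  have hv' : redL A k (twist z v) ≠ 0 := by rw [e2]; exact hv
  have h' : incL A Ω (twist z v) * twist (Units.map (algebraMap A Ω : A →* Ω) z) x =
      incL A Ω (twist z u) := by rw [e1, e1, ← map_mul, h]
  have hVne : incL A Ω v ≠ 0 := (isU_incL (k := k) hv).ne_zero
  have hVne' : incL A Ω (twist z v) ≠ 0 := (isU_incL (k := k) hv').ne_zero
  refine ⟨incL A Ω (Gu * v - u * Gv) / incL A Ω (v * twist z v), ?_, ?_⟩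
  · have h1 : Rd A (incL A Ω (Gu * v - u * Gv)) (redL A k (Gu * v - u * Gv)) := Rd.incL _
    have h2 : Rd A (incL A Ω (v * twist z v)) (redL A k (v * twist z v)) := Rd.incL _
    have h3 := h1.div h2 (by rw [map_mul]; exact mul_ne_zero hv hv')
    convert h3 using 1
    rw [map_sub, map_mul, map_mul, map_mul, e2, ru, rv]
    have ha : a * redL A k v = redL A k u := by
      rw [← hxa, hq', div_mul_cancel₀ _ hv]
    have hth := congrArg theta ha
    rw [theta_mul] at hth
    rw [eq_div_iff (mul_ne_zero hv hv), ← hth, ← ha]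
    ring
  · have hu : incL A Ω u - incL A Ω (twist z u) =
        HahnSeries.C (algebraMap A Ω (1 - (z : A))) * incL A Ω Gu := by
      rw [← map_sub, hGu, map_mul, coeffMap_C]
    have hvv : incL A Ω v - incL A Ω (twist z v) =
        HahnSeries.C (algebraMap A Ω (1 - (z : A))) * incL A Ω Gv := by
      rw [← map_sub, hGv, map_mul, coeffMap_C]
    have e3 : incL A Ω (v * twist z v) = incL A Ω v * incL A Ω (twist z v) := map_mul _ _ _
    have e4 : incL A Ω (Gu * v - u * Gv) = incL A Ω Gu * incL A Ω v - incL A Ω u * incL A Ω Gv := by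
      rw [map_sub, map_mul, map_mul]
    rw [← mul_div_assoc, eq_div_iff (by rw [e3]; exact mul_ne_zero hVne hVne'), e3, e4]
    exact quot_alg h h' hu hvv

end Quot

end Fermat.Agent.CarM
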