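import Fermat.Agent.CarM.Norm
import Fermat.Agent.CarM.CuspT
import Fermat.Agent.CarM.Hasse
import Fermat.Agent.CarE.CM2

/-!
# Modular units of level `q ^ 2 M`
-/

set_option autoImplicit false
set_option linter.style.haveILetI false
set_option linter.unusedSectionVars false

noncomputable section

namespace Fermat.Agent.CarM

open ModularCurve Polynomial IntermediateField Fermat.Agent.ModPoly Fermat.Agent.Cusp AlgebraicCurve
open Fermat.Agent.SemiSt Fermat.Agent.CarE Fermat.Agent.HeckeProd Fermat.Agent.Curve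
open Fermat.Agent.RedMod

section DA

variable {A B : Type*} [CommRing A] [CommRing B]

/-- `Δ (c q ^ e)` over a ring -/
def DA (c : Aˣ) (e : ℕ+) : LaurentSeries A :=
  haveI : NeZero (e : ℕ) := ⟨e.ne_zero⟩
  qExpand A (e : ℕ) (twist c (deltaC A))

/-- `1 / Δ (c q ^ e)` over a ring -/
def DI (c : Aˣ) (e : ℕ+) : LaurentSeries A :=
  haveI : NeZero (e : ℕ) := ⟨e.ne_zero⟩
  qExpand A (e : ℕ) (twist c (deltaInvC A))

theorem DA_mul_DI (c : Aˣ) (e : ℕ+) : DA c e * DI c e = 1 := by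
  haveI : NeZero (e : ℕ) := ⟨e.ne_zero⟩
  rw [DA, DI, ← map_mul, ← map_mul, deltaC_mul_inv, map_one, map_one]

theorem coeffMap_DA (f : A →+* B) (c : Aˣ) (e : ℕ+) :
    coeffMap f (DA c e) = DA (Units.map (f : A →* B) c) e := by
  haveI : NeZero (e : ℕ) := ⟨e.ne_zero⟩
  rw [DA, DA, coeffMap_qExpand, HeckeProd.coeffMap_twist, coeffMap_deltaC]

theorem coeffMap_DI (f : A →+* B) (c : Aˣ) (e : ℕ+) :
    coeffMap f (DI c e) = DI (Units.map (f : A →* B) c) e := by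
  haveI : NeZero (e : ℕ) := ⟨e.ne_zero⟩
  rw [DI, DI, coeffMap_qExpand, HeckeProd.coeffMap_twist, coeffMap_deltaInvC]

theorem DA_field {K : Type*} [Field K] (c : Kˣ) (e : ℕ+) : DA c e = Dc c e := rfl

theorem DI_field {K : Type*} [Field K] (c : Kˣ) (e : ℕ+) : DI c e = (Dc c e)⁻¹ := by
  rw [← DA_field]
  exact eq_inv_of_mul_eq_one_right (DA_mul_DI c e)

end DA

section Images

variable {Ω : Type*} [Field Ω] [IsAlgClosed Ω] [CharZero Ω] {q M : ℕ} [hq : Fact q.Prime] [NeZero M]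
  (hco : q.Coprime M)

theorem dvd_q (q M : ℕ) [Fact q.Prime] [NeZero M] : ((pp q * 1 : ℕ+) : ℕ) ∣ q ^ 2 * M :=
  dvd_b (M := M) (q := q) one_dvd'

theorem dvd_qq (q M : ℕ) [Fact q.Prime] [NeZero M] : ((pp q * (pp q * 1) : ℕ+) : ℕ) ∣ q ^ 2 * M := by
  rw [← mul_assoc]; exact dvd_c (M := M) (q := q) one_dvd'

theorem dvd_q' (q M : ℕ) [Fact q.Prime] : ((pp q * 1 : ℕ+) : ℕ) ∣ q * M := by
  rw [mul_one, coe_pp]; exact dvd_mul_right _ _

variable (Ω q M) in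
/-- `Δ(q)/Δ(1)` -/
def ra : FF Ω (q ^ 2 * M) := ⟨rm Ω (pp q * 1), rm_mem (cast_ne Ω _) _ (dvd_q q M)⟩

variable (Ω q M) in
/-- `Δ(q²)/Δ(1)` -/
def rb : FF Ω (q ^ 2 * M) := ⟨rm Ω (pp q * (pp q * 1)), rm_mem (cast_ne Ω _) _ (dvd_qq q M)⟩

theorem phi0_ra : phi0 Ω (ra Ω q M) = Dc 1 (pp q * 1) * (Dc 1 1)⁻¹ := rfl

theorem phi0_rb : phi0 Ω (rb Ω q M) = Dc 1 (pp q * (pp q * 1)) * (Dc 1 1)⁻¹ := rfl

variable {z : Ωˣ} (hz : z ^ q = 1 ∧ z ≠ 1)

theorem phi1_ra : phi1 hco hz (ra Ω q M) = Dc 1 (pp q * 1) * (Dc 1 1)⁻¹ := by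
  have h1 : ra Ω q M = incl Ω (dvd_low q M)
      ⟨rm Ω (pp q * 1), rm_mem (cast_ne Ω _) _ (dvd_q' q M)⟩ := by
    apply Subtype.ext
    rw [coe_incl]
    rfl
  rw [h1, phi1_low]
  rfl

theorem ne_e : (pp q * (pp q * 1) : ℕ+) ≠ 1 := by
  intro h
  have h1 := congrArg (fun n : ℕ+ => (n : ℕ)) h
  simp only [PNat.mul_coe, coe_pp, PNat.one_coe, mul_one] at h1
  have := hq.out.one_lt
  nlinarith

theorem phi1_rb : phi1 hco hz (rb Ω q M) =
    HahnSeries.C (((q : Ω) ^ 12)⁻¹) * Dc z 1 * (Dc 1 1)⁻¹ := by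
  have hb : phi1 hco hz (jm Ω (pp q * 1) (dvd_q q M)) = Jc 1 (pp q * 1) :=
    phi1_b hco hz (one_dvd' (M := M))
  have hc : phi1 hco hz (jm Ω (pp q * (pp q * 1)) (dvd_qq q M)) = Jc z 1 := by
    have h1 := phi1_c hco hz (one_dvd' (M := M))
    rw [PNat.one_coe, pow_one] at h1
    rw [← h1]
    congr 1
    exact jm_congr (mul_assoc _ _ _).symm _ _
  rcases step2 (AlgHom.id Ω (LaurentSeries Ω)) (phi1 hco hz) (cast_ne Ω (q ^ 2 * M)) q (pp q * 1)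
    (dvd_q q M) (dvd_qq q M) 1 (pp q * 1) (by rw [mul_one, coe_pp]) hb with
    ⟨h1, -⟩ | ⟨c', e', hc', he', h1, h2⟩
  · exfalso
    rw [hc] at h1
    have h3 := Jc_inj_e (h1 : Jc z 1 = Jc _ _)
    exact ne_e h3.symm
  · rw [hc] at h1
    have h3 := Jc_inj_e (h1 : Jc z 1 = Jc _ _)
    subst h3
    have h4 := Jc_inj_c (h1 : Jc z 1 = Jc _ _)
    subst h4
    have h5 : phi1 hco hz (rb Ω q M) = phi1 hco hz (ra Ω q M) *
      (HahnSeries.C (((q : Ω) ^ 12)⁻¹) * Dc z 1 * (Dc 1 (pp q * 1))⁻¹) := h2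
    rw [h5, phi1_ra]
    have := Dc_ne_zero (k := Ω) 1 (pp q * 1)
    field_simp

theorem phi2_a1 : phi2 hco (jm Ω 1 (one_dvd _)) = Jc 1 (pp q * (pp q * 1)) := by
  rw [phi2_apply]
  have h1 := w2_a (Ω := Ω) hco (one_dvd' (M := M))
  refine (congrArg Subtype.val h1).trans ?_
  change Jc 1 _ = Jc 1 _
  rw [mul_assoc]

theorem phi2_b1 : phi2 hco (jm Ω (pp q * 1) (dvd_q q M)) = Jc 1 (pp q * 1) := by
  rw [phi2_apply]
  exact congrArg Subtype.val (w2_b (Ω := Ω) hco (one_dvd' (M := M)))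

theorem phi2_c1 : phi2 hco (jm Ω (pp q * (pp q * 1)) (dvd_qq q M)) = Jc 1 1 := by
  rw [phi2_apply]
  have h1 := w2_c (Ω := Ω) hco (one_dvd' (M := M))
  have h2 : jm Ω (pp q * (pp q * 1)) (dvd_qq q M) =
      jm Ω (pp q * pp q * 1) (dvd_c (M := M) (q := q) one_dvd') :=
    jm_congr (mul_assoc _ _ _).symm _ _
  rw [h2, h1]
  rfl

theorem phi2_ra : phi2 hco (ra Ω q M) =
    HahnSeries.C (((q : Ω) ^ 12)⁻¹) * Dc 1 (pp q * 1) * (Dc 1 (pp q * (pp q * 1)))⁻¹ := by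
  rcases step2 (AlgHom.id Ω (LaurentSeries Ω)) (phi2 hco) (cast_ne Ω (q ^ 2 * M)) q 1
    (one_dvd _) (dvd_q q M) 1 (pp q * (pp q * 1)) (by
      rw [PNat.mul_coe, coe_pp]; exact dvd_mul_right _ _) (phi2_a1 hco) with
    ⟨h1, -⟩ | ⟨c', e', hc', he', h1, h2⟩
  · exfalso
    rw [phi2_b1] at h1
    have h3 := congrArg (fun n : ℕ+ => (n : ℕ)) (Jc_inj_e (h1 : Jc 1 (pp q * 1) = Jc _ _))
    simp only [PNat.mul_coe, coe_pp, PNat.one_coe, mul_one] at h3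
    have := hq.out.one_lt
    nlinarith [Nat.mul_le_mul this.le this.le, Nat.mul_lt_mul_of_pos_left this hq.out.pos]
  · rw [phi2_b1] at h1
    have h3 := Jc_inj_e (h1 : Jc 1 (pp q * 1) = Jc _ _)
    subst h3
    have h4 := Jc_inj_c (h1 : Jc 1 (pp q * 1) = Jc _ _)
    subst h4
    have h5 : phi2 hco (ra Ω q M) = phi2 hco ⟨rm Ω 1, rm_mem (cast_ne Ω _) _ (one_dvd _)⟩ *
      (HahnSeries.C (((q : Ω) ^ 12)⁻¹) * Dc 1 (pp q * 1) * (Dc 1 (pp q * (pp q * 1)))⁻¹) := h2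
    have h6 : (⟨rm Ω 1, rm_mem (cast_ne Ω _) _ (one_dvd _)⟩ : FF Ω (q ^ 2 * M)) = 1 :=
      Subtype.ext rm_one
    rw [h5, h6, map_one, one_mul]

theorem phi2_rb : phi2 hco (rb Ω q M) =
    HahnSeries.C (((q : Ω) ^ 12)⁻¹ * ((q : Ω) ^ 12)⁻¹) * Dc 1 1 *
      (Dc 1 (pp q * (pp q * 1)))⁻¹ := by
  rcases step2 (AlgHom.id Ω (LaurentSeries Ω)) (phi2 hco) (cast_ne Ω (q ^ 2 * M)) q (pp q * 1)
    (dvd_q q M) (dvd_qq q M) 1 (pp q * 1) (by rw [mul_one, coe_pp]) (phi2_b1 hco) with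
    ⟨h1, -⟩ | ⟨c', e', hc', he', h1, h2⟩
  · exfalso
    rw [phi2_c1] at h1
    have h3 := Jc_inj_e (h1 : Jc 1 1 = Jc _ _)
    exact ne_e h3.symm
  · rw [phi2_c1] at h1
    have h3 := Jc_inj_e (h1 : Jc 1 1 = Jc _ _)
    subst h3
    have h4 := Jc_inj_c (h1 : Jc 1 1 = Jc _ _)
    subst h4
    have h5 : phi2 hco (rb Ω q M) = phi2 hco (ra Ω q M) *
      (HahnSeries.C (((q : Ω) ^ 12)⁻¹) * Dc 1 1 * (Dc 1 (pp q * 1))⁻¹) := h2
    rw [h5, phi2_ra, map_mul]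
    have := Dc_ne_zero (k := Ω) 1 (pp q * 1)
    field_simp

theorem ra_ne : ra Ω q M ≠ 0 := fun h => rm_ne_zero (k := Ω) (pp q * 1) (congrArg Subtype.val h)

theorem rb_ne : rb Ω q M ≠ 0 :=
  fun h => rm_ne_zero (k := Ω) (pp q * (pp q * 1)) (congrArg Subtype.val h)

/-- the modular units have no zeros and poles outside the cusps -/
theorem rm_reg {N : ℕ} [NeZero N] (v : Place Ω (FF Ω N)) (hv : 0 ≤ v.ord (jF' Ω N)) (m : ℕ+)
    (hm : (m : ℕ) ∣ N) (x : FF Ω N) (hx : (x : LaurentSeries Ω) = rm Ω m) : v.ord x = 0 := by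
  have hN : ((N : ℕ) : Ω) ≠ 0 := cast_ne Ω N
  let C' : Subalgebra Ω (FF Ω N) :=
    { v.toValuationSubring.toSubring with
      algebraMap_mem' := v.algebraMap_mem' }
  have hmem : ∀ x : FF Ω N, x ∈ C' ↔ 0 ≤ v.ord x := fun x => mem_iff_ord_nonneg v x
  have hC : ∀ w : FF Ω N, IsIntegral C' w → w ∈ C' := by
    intro w hw
    obtain ⟨P, hP, h0⟩ := hw
    let φ : C' →+* v.toValuationSubring :=
      { toFun := fun x => ⟨x.1, x.2⟩
        map_one' := rfl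
        map_mul' := fun _ _ => rfl
        map_zero' := rfl
        map_add' := fun _ _ => rfl }
    have h1 : IsIntegral v.toValuationSubring w := ⟨P.map φ, hP.map φ, by
      rw [eval₂_map]
      exact h0⟩
    obtain ⟨y, hy⟩ := IsIntegrallyClosed.isIntegral_iff.1 h1
    rw [← hy]
    exact y.2
  obtain ⟨h1, h2⟩ := rm_mem_C C' hC ((hmem _).2 hv) hN m hm
  have hx' : x = ⟨rm Ω m, rm_mem hN _ hm⟩ := Subtype.ext hx
  rw [hx']
  have h3 := (hmem _).1 h1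
  have h4 := (hmem _).1 h2
  rw [v.ord_inv] at h4
  omega

end Images

section K0

variable {R0 K0 A Ω k : Type*} [CommRing R0] [IsDomain R0] [IsDiscreteValuationRing R0]
  [Field K0] [Algebra R0 K0]
  [IsFractionRing R0 K0] [CommRing A] [IsDomain A] [ValuationRing A] [Field Ω]
  [IsAlgClosed Ω] [CharZero Ω]
  [Algebra A Ω] [IsFractionRing A Ω] [Field k] [Algebra A k] [Algebra K0 Ω] [Algebra R0 A]
  [Algebra R0 k] {q M : ℕ} [hq : Fact q.Prime] [NeZero M] [CharP k q]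
  (B : Base q R0 K0 A Ω k) (hco : q.Coprime M)
  {z : Aˣ} (hz : z ^ q = 1 ∧ z ≠ 1)

theorem coeffMap_rm {K Ω : Type*} [Field K] [Field Ω] (f : K →+* Ω) (m : ℕ+) :
    coeffMap f (rm K m) = rm Ω m := by
  have h1 : ∀ e : ℕ+, coeffMap f (Dc 1 e) = Dc 1 e := by
    intro e
    rw [← DA_field, coeffMap_DA, map_one, DA_field]
  rw [rm, rm, map_mul, map_inv₀, h1, h1]

include B in
theorem exists_rm {N : ℕ} [NeZero N] {x : FF Ω N} {m : ℕ+} (hx : (x : LaurentSeries Ω) = rm Ω m) :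
    ∃ y : FF K0 N, emb K0 Ω N y = x := by
  haveI := B.alg
  apply exists_of_coeff
  intro n
  rw [hx, ← coeffMap_rm (algebraMap K0 Ω), coeffMap_coeff]
  exact ⟨_, rfl⟩

variable (M) in
/-- `Δ(q)/Δ(1)` over the small field -/
def a0 : FF K0 (q ^ 2 * M) := (exists_rm B (x := ra Ω q M) rfl).choose

variable (M) in
/-- `Δ(q²)/Δ(1)` over the small field -/
def b0' : FF K0 (q ^ 2 * M) := (exists_rm B (x := rb Ω q M) rfl).choose

theorem emb_a0 : emb K0 Ω (q ^ 2 * M) (a0 M B) = ra Ω q M :=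
  (exists_rm B (x := ra Ω q M) rfl).choose_spec

theorem emb_b0' : emb K0 Ω (q ^ 2 * M) (b0' M B) = rb Ω q M :=
  (exists_rm B (x := rb Ω q M) rfl).choose_spec

variable (M) in
/-- the modular units vanishing exactly at one component -/
def hh : Fin 3 → FF K0 (q ^ 2 * M)
  | 0 => (q : FF K0 (q ^ 2 * M)) ^ 12 * b0' M B / a0 M B
  | 1 => a0 M B ^ 2 / b0' M B
  | 2 => (a0 M B)⁻¹

/-- the expansions of the modular units -/
def hhL (q : ℕ) [Fact q.Prime] (z : Aˣ) : Fin 3 → Fin 3 → LaurentSeries A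
  | 0 => fun j => match j with
    | 0 => HahnSeries.C ((q : A) ^ 12) * (DA 1 (pp q * (pp q * 1)) * DI 1 (pp q * 1))
    | 1 => DA z 1 * DI 1 (pp q * 1)
    | 2 => DA 1 1 * DI 1 (pp q * 1)
  | 1 => fun j => match j with
    | 0 => DA 1 (pp q * 1) ^ 2 * DI 1 1 * DI 1 (pp q * (pp q * 1))
    | 1 => HahnSeries.C ((q : A) ^ 12) * (DA 1 (pp q * 1) ^ 2 * DI 1 1 * DI z 1)
    | 2 => DA 1 (pp q * 1) ^ 2 * DI 1 1 * DI 1 (pp q * (pp q * 1))
  | 2 => fun j => match j with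
    | 0 => DA 1 1 * DI 1 (pp q * 1)
    | 1 => DA 1 1 * DI 1 (pp q * 1)
    | 2 => HahnSeries.C ((q : A) ^ 12) * (DA 1 (pp q * (pp q * 1)) * DI 1 (pp q * 1))

theorem incL_DA (c : Aˣ) (e : ℕ+) : incL A Ω (DA c e) =
    Dc (Units.map (algebraMap A Ω : A →* Ω) c) e := coeffMap_DA _ c e

theorem incL_DI (c : Aˣ) (e : ℕ+) : incL A Ω (DI c e) =
    (Dc (Units.map (algebraMap A Ω : A →* Ω) c) e)⁻¹ := by
  rw [← DI_field]
  exact coeffMap_DI _ c e

theorem incL_q12 : incL A Ω (HahnSeries.C ((q : A) ^ 12)) = HahnSeries.C ((q : Ω) ^ 12) := by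
  rw [coeffMap_C, map_pow, map_natCast]

theorem q12_ne : ((q : Ω) ^ 12) ≠ 0 := pow_ne_zero _ (Nat.cast_ne_zero.2 hq.out.ne_zero)

theorem C_ne_zero' {c : Ω} (hc : c ≠ 0) : (HahnSeries.C c : LaurentSeries Ω) ≠ 0 :=
  HahnSeries.C_ne_zero hc

/-- **expansions of the modular units** -/
theorem hasL_hh (i : Fin 3) : HasL B hco hz (hh M B i) (hhL q z i) := by
  have ha := emb_a0 (M := M) B
  have hb := emb_b0' (M := M) B
  have d1 := Dc_ne_zero (k := Ω) 1 1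
  have dq := Dc_ne_zero (k := Ω) 1 (pp q * 1)
  have dqq := Dc_ne_zero (k := Ω) 1 (pp q * (pp q * 1))
  have dz := Dc_ne_zero (k := Ω) (Units.map (algebraMap A Ω : A →* Ω) z) 1
  have hC : (HahnSeries.C ((q : Ω) ^ 12) : LaurentSeries Ω) ≠ 0 := C_ne_zero' q12_ne
  have hCq : (HahnSeries.C ((q : Ω) ^ 12) : LaurentSeries Ω) = (q : LaurentSeries Ω) ^ 12 := by
    rw [map_pow, map_natCast]
  have hq0 : (q : LaurentSeries Ω) ≠ 0 := by
    intro h
    rw [hCq, h, zero_pow (by norm_num)] at hC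
    exact hC rfl
  intro j
  match j with
  | 0 =>
    have xa : mphi (phi0 Ω) (a0 M B) = Dc 1 (pp q * 1) * (Dc 1 1)⁻¹ := by
      rw [mphi_apply, ha, phi0_ra]
    have xb : mphi (phi0 Ω) (b0' M B) = Dc 1 (pp q * (pp q * 1)) * (Dc 1 1)⁻¹ := by
      rw [mphi_apply, hb, phi0_rb]
    match i with
    | 0 =>
      change mphi (phi0 Ω) ((q : FF K0 (q ^ 2 * M)) ^ 12 * b0' M B / a0 M B) =
        incL A Ω (HahnSeries.C ((q : A) ^ 12) * (DA 1 (pp q * (pp q * 1)) * DI 1 (pp q * 1)))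
      simp only [map_div₀, map_mul, map_pow, map_natCast, xa, xb, incL_DA, incL_DI, incL_q12,
        map_one]
      field_simp
    | 1 =>
      change mphi (phi0 Ω) (a0 M B ^ 2 / b0' M B) =
        incL A Ω (DA 1 (pp q * 1) ^ 2 * DI 1 1 * DI 1 (pp q * (pp q * 1)))
      simp only [map_div₀, map_mul, map_pow, xa, xb, incL_DA, incL_DI, map_one]
      field_simp
    | 2 =>
      change mphi (phi0 Ω) ((a0 M B)⁻¹) = incL A Ω (DA 1 1 * DI 1 (pp q * 1))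
      simp only [map_inv₀, map_mul, xa, incL_DA, incL_DI, map_one]
      field_simp
  | 1 =>
    have xa : mphi (phi1 hco (hzΩ Ω hz)) (a0 M B) = Dc 1 (pp q * 1) * (Dc 1 1)⁻¹ := by
      rw [mphi_apply, ha, phi1_ra]
    have xb : mphi (phi1 hco (hzΩ Ω hz)) (b0' M B) = (HahnSeries.C ((q : Ω) ^ 12))⁻¹ *
        Dc (Units.map (algebraMap A Ω : A →* Ω) z) 1 * (Dc 1 1)⁻¹ := by
      rw [mphi_apply, hb, phi1_rb, map_inv₀]
    match i with
    | 0 =>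
      change mphi (phi1 hco (hzΩ Ω hz)) ((q : FF K0 (q ^ 2 * M)) ^ 12 * b0' M B / a0 M B) =
        incL A Ω (DA z 1 * DI 1 (pp q * 1))
      simp only [map_div₀, map_mul, map_pow, map_natCast, xa, xb, incL_DA, incL_DI, hCq,
        map_one]
      field_simp
    | 1 =>
      change mphi (phi1 hco (hzΩ Ω hz)) (a0 M B ^ 2 / b0' M B) =
        incL A Ω (HahnSeries.C ((q : A) ^ 12) * (DA 1 (pp q * 1) ^ 2 * DI 1 1 * DI z 1))
      simp only [map_div₀, map_mul, map_pow, xa, xb, incL_DA, incL_DI, map_one, hCq]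
      field_simp
      rw [coeffMap_C, map_natCast, map_natCast]
    | 2 =>
      change mphi (phi1 hco (hzΩ Ω hz)) ((a0 M B)⁻¹) = incL A Ω (DA 1 1 * DI 1 (pp q * 1))
      simp only [map_inv₀, map_mul, xa, incL_DA, incL_DI, map_one]
      field_simp
  | 2 =>
    have xa : mphi (phi2 hco) (a0 M B) = (HahnSeries.C ((q : Ω) ^ 12))⁻¹ *
        Dc 1 (pp q * 1) * (Dc 1 (pp q * (pp q * 1)))⁻¹ := by
      rw [mphi_apply, ha, phi2_ra, map_inv₀]
    have xb : mphi (phi2 hco) (b0' M B) = (HahnSeries.C ((q : Ω) ^ 12))⁻¹ *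
        (HahnSeries.C ((q : Ω) ^ 12))⁻¹ * Dc 1 1 * (Dc 1 (pp q * (pp q * 1)))⁻¹ := by
      rw [mphi_apply, hb, phi2_rb, map_mul, map_inv₀]
    match i with
    | 0 =>
      change mphi (phi2 hco) ((q : FF K0 (q ^ 2 * M)) ^ 12 * b0' M B / a0 M B) =
        incL A Ω (DA 1 1 * DI 1 (pp q * 1))
      simp only [map_div₀, map_mul, map_pow, map_natCast, xa, xb, incL_DA, incL_DI, hCq,
        map_one]
      field_simp
    | 1 =>
      change mphi (phi2 hco) (a0 M B ^ 2 / b0' M B) =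
        incL A Ω (DA 1 (pp q * 1) ^ 2 * DI 1 1 * DI 1 (pp q * (pp q * 1)))
      simp only [map_div₀, map_mul, map_pow, xa, xb, incL_DA, incL_DI, map_one, hCq]
      field_simp
    | 2 =>
      change mphi (phi2 hco) ((a0 M B)⁻¹) =
        incL A Ω (HahnSeries.C ((q : A) ^ 12) * (DA 1 (pp q * (pp q * 1)) * DI 1 (pp q * 1)))
      simp only [map_inv₀, map_mul, xa, incL_DA, incL_DI, incL_q12, map_one, hCq]
      field_simp

end K0

end Fermat.Agent.CarM
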